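import Fermat.Agent.S34x.Lattice2.AssembleCounts

/-!
# P-S33 (H1-c), part (c1): the untwisted two-chart lattice system (helper50)

Vocabulary of `S34x/Lattice2`: `R : RedSetup2 A S k κ`, `C : ChartCoord R`,
`Lam C a b := R.lat (C.LN a b) = L(a C₀ + b C∞) ∩ S.O`.

* formal properties of `Lam` (monotone, products, intersections, the twist by `t`);
* `exists_S1`: graded Nakayama (S1) for the UNTWISTED system (`TheoremB.exists_latM_succ` at
  `E = 0`, `u = 1`, `m = 1`);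
* `exists_le_sup_three`: `Lam a c ≤ Lam b₁ b₁ ⊔ Lam 0 c ⊔ Lam a 0`;
* `exists_ne_zero_smul_mem`: ONE `c₀ ≠ 0` kills the torsion of `Bx / (B∞ + B₀)`.
-/

set_option autoImplicit false
set_option linter.unusedSectionVars false
set_option linter.style.haveILetI false

noncomputable section

namespace Fermat.Agent.S33x.H1.InstC1

open AlgebraicCurve Module IntermediateField
open Fermat.Agent.Gateway.C0 Fermat.Agent.S34x Fermat.Agent.S34x.C0two Fermat.Agent.S34x.Lattice2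

section formal

variable {K : Type*} [Field K] {A : ValuationSubring K} {F : Type*} [Field F] [Algebra K F]
  {S : SmallRing F} {k κ : Type*} [Field k] [CommRing κ] [Algebra k κ]
  {R : RedSetup2 A S k κ} (C : ChartCoord R)

/-- `Lam(a,b) = L(a C₀ + b C∞) ∩ S.O`. -/
def Lam (a b : ℕ) : Submodule A F := R.lat (C.LN a b)

theorem mem_Lam {a b : ℕ} {x : F} : x ∈ Lam C a b ↔ x ∈ C.LN a b ∧ x ∈ S.O := Iff.rfl

theorem Lam_mono {a b a' b' : ℕ} (ha : a ≤ a') (hb : b ≤ b') : Lam C a b ≤ Lam C a' b' :=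
  fun _ hx => ⟨C.LN_mono ha hb hx.1, hx.2⟩

theorem one_mem_Lam : (1 : F) ∈ Lam C 0 0 := ⟨C.one_mem_LN, S.O.one_mem⟩

theorem Lam_mul {a b a' b' : ℕ} {x y : F} (hx : x ∈ Lam C a b) (hy : y ∈ Lam C a' b') :
    x * y ∈ Lam C (a + a') (b + b') :=
  ⟨C.LN_mul hx.1 hy.1, S.O.mul_mem hx.2 hy.2⟩

theorem Lam_inf {a b a' b' : ℕ} {x : F} (hx : x ∈ Lam C a b) (hx' : x ∈ Lam C a' b') :
    x ∈ Lam C (min a a') (min b b') :=
  ⟨twoPole_inf _ _ hx.1 hx'.1, hx.2⟩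

theorem t_mul_mem_Lam {b : ℕ} {x : F} (hx : x ∈ Lam C 0 b) : C.t * x ∈ Lam C 0 (b + 1) := by
  have h := Lam_mul C (⟨C.t_mem_LN, C.t_mem⟩ : C.t ∈ Lam C 0 1) hx
  rwa [zero_add, add_comm 1 b] at h

theorem pow_mul_mem_O_iff (a : ℕ) (x : F) : C.t ^ a * x ∈ S.O ↔ x ∈ S.O := by
  constructor
  · intro h
    have h1 : x = C.t⁻¹ ^ a * (C.t ^ a * x) := by
      rw [← mul_assoc, ← mul_pow, inv_mul_cancel₀ C.t_ne, one_pow, one_mul]
    rw [h1]
    exact S.O.mul_mem (S.O.pow_mem C.tinv_mem a) h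
  · intro h
    exact S.O.mul_mem (S.O.pow_mem C.t_mem a) h

/-- `Lam(a,c) = t⁻ᵃ Lam(0,a+c)`. -/
theorem Lam_twist (a c : ℕ) (x : F) : x ∈ Lam C a c ↔ C.t ^ a * x ∈ Lam C 0 (a + c) := by
  rw [mem_Lam, mem_Lam, pow_mul_mem_O_iff]
  refine and_congr ?_ Iff.rfl
  have h := T_pow_mul_mem_twoPole_iff (k := K) C.t_mul_tinv a (a := 0) (b := c) (y := x)
  rw [ChartCoord.LN, ChartCoord.LN]
  rw [zero_add] at h
  rw [add_comm a c]
  exact h.symm

end formal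

section main

variable {K : Type*} [Field K] [IsAlgClosed K] [CharZero K] {A : ValuationSubring K}
  {F : Type*} [Field F] [Algebra K F] {S : SmallRing F}
  {k κ : Type*} [Field k] [CommRing κ] [Algebra k κ]
  {R : RedSetup2 A S k κ} (C : ChartCoord R)
  (ht : Transcendental K C.t) [FiniteDimensional K⟮C.t⟯ F]
  {Dt : Divisor K F} (hDt : ∀ v : Place K F, Dt v = v.ord C.t)
  (hcart : ∀ V : Submodule K F, FiniteDimensional K V → (R.lat V).FG)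
  [hPfin : ∀ b, FiniteDimensional k (C.Pk 0 b)] {b₀ : ℕ}
  (hgen : ∀ b, b₀ ≤ b → ∀ x ∈ C.Pk 0 (b + 1), ∃ y ∈ C.Pk 0 b, ∃ z ∈ C.Pk 0 b, x = y + C.T * z)

include ht hDt in
/-- the untwisted `latM` of `TheoremB` is `Lam` -/
theorem latM_zero_eq (a c : ℕ) : TheoremB.latM R Dt 0 a c = Lam C a c := by
  haveI := isSeparable_adjoin_of_charZero (K := K) C.t
  rw [TheoremB.latM, TwoCharts.LM_zero_eq, LN_eq C ht hDt]
  rfl

include ht hDt hcart in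
/-- all the lattices `Lam(a,b)` are finitely generated -/
theorem fg_Lam (a b : ℕ) : (Lam C a b).FG := by
  haveI := isSeparable_adjoin_of_charZero (K := K) C.t
  rw [Lam, ← LN_eq C ht hDt]
  exact hcart _ ((TwoCharts.ofDivisor Dt).LN_finite ht a b)

include ht hDt hcart hgen in
/-- **Graded Nakayama (S1) for the untwisted system**: `Lam(0,b+1) = Lam(0,b) + t Lam(0,b)`
for `b ≥ b₁`. -/
theorem exists_S1 : ∃ b₁, ∀ b, b₁ ≤ b → ∀ x ∈ Lam C 0 (b + 1),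
    ∃ y ∈ Lam C 0 b, ∃ z ∈ Lam C 0 b, x = y + C.t * z := by
  haveI := isSeparable_adjoin_of_charZero (K := K) C.t
  have hSC : ∀ (b : ℕ) (f : F) (hf : f ∈ S.O), f ∈ (TwoCharts.ofDivisor Dt).LN 0 b →
      R.res ⟨f, hf⟩ ∈ C.Pk 0 b := by
    intro b f hf hfL
    rw [LN_eq C ht hDt] at hfL
    exact C.SC 0 b f hf hfL
  have hrad : ∀ (b : ℕ) (x : κ), x ^ 1 ∈ C.Pk 0 (1 * b) → x ∈ C.Pk 0 b := by
    intro b x hx
    rwa [pow_one, one_mul] at hx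
  have hE : ∀ v : Place K F, ((1 : ℕ) : ℤ) * (0 : Divisor K F) v = v.ord (1 : F) := by
    intro v
    simp
  obtain ⟨b₁, hb₁⟩ := TheoremB.exists_latM_succ R C.t_ne hDt C.t_mem (C.Pk 0) hSC hrad
    (one_ne_zero : (1 : F) ≠ 0) S.O.one_mem (map_one R.res) hE hgen
    (fun b => by rw [latM_zero_eq C ht hDt]; exact fg_Lam C ht hDt hcart 0 b)
  refine ⟨b₁, fun b hb x hx => ?_⟩
  rw [← latM_zero_eq C ht hDt] at hx
  obtain ⟨y, hy, z, hz, hxyz⟩ := hb₁ b hb x hx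
  rw [latM_zero_eq C ht hDt] at hy hz
  exact ⟨y, hy, z, hz, hxyz⟩

include ht hDt hcart hgen in
/-- **The truncated Cech `H¹` of the untwisted system stabilises.** -/
theorem exists_le_sup_three :
    ∃ b₁, ∀ a c : ℕ, Lam C a c ≤ Lam C b₁ b₁ ⊔ Lam C 0 c ⊔ Lam C a 0 := by
  obtain ⟨b₁, hb₁⟩ := exists_S1 C ht hDt hcart hgen
  refine ⟨b₁, fun a c => ?_⟩
  exact H1Fg.le_sup_three (M := Lam C) (t := C.t) (s := C.t⁻¹) (b₁ := b₁) C.t_mul_tinv
    (Lam_twist C) (fun b b' h => Lam_mono C le_rfl h) (fun b x hx => t_mul_mem_Lam C hx) hb₁ a c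

/-- the chart ring `B∞ = ⋃_b Lam(0,b)` -/
abbrev Boo : Submodule A F := H1Fg.chartU (Lam C)

/-- the chart ring `B₀ = ⋃_a Lam(a,0)` -/
abbrev Bzero : Submodule A F := H1Fg.chartU' (Lam C)

/-- the overlap ring `Bx = ⋃_{a,b} Lam(a,b)` -/
abbrev Bx : Submodule A F := H1Fg.chartX (Lam C)

include ht hDt hcart hgen in
/-- `Bx = Lam(b₁,b₁) + B∞ + B₀`. -/
theorem exists_Bx_le : ∃ b₁, Bx C ≤ Lam C b₁ b₁ ⊔ (Boo C ⊔ Bzero C) := by
  obtain ⟨b₁, hb₁⟩ := exists_S1 C ht hDt hcart hgen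
  exact ⟨b₁, H1Fg.chartX_le (M := Lam C) (t := C.t) (s := C.t⁻¹) (b₁ := b₁) C.t_mul_tinv
    (Lam_twist C) (fun b b' h => Lam_mono C le_rfl h) (fun b x hx => t_mul_mem_Lam C hx) hb₁⟩

include ht hDt hcart hgen in
/-- **Bounded torsion of the untwisted Cech `H¹`**: ONE `c₀ ≠ 0` kills every torsion class of
`Bx / (B∞ + B₀)`. -/
theorem exists_ne_zero_smul_mem :
    ∃ c : A, c ≠ 0 ∧ ∀ γ ∈ Bx C,
      (∃ d : A, d ≠ 0 ∧ d • γ ∈ Boo C ⊔ Bzero C) → c • γ ∈ Boo C ⊔ Bzero C := by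
  obtain ⟨b₁, hb₁⟩ := exists_S1 C ht hDt hcart hgen
  exact H1Fg.exists_ne_zero_smul_mem (M := Lam C) (t := C.t) (s := C.t⁻¹) (b₁ := b₁) C.t_mul_tinv
    (Lam_twist C) (fun b b' h => Lam_mono C le_rfl h) (fun b x hx => t_mul_mem_Lam C hx) hb₁
    (fg_Lam C ht hDt hcart b₁ b₁)

end main

end Fermat.Agent.S33x.H1.InstC1
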