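/-
P-S33, (H1-a) = (F2)-core (helper43): **Zariski connectedness in Čech form**, pure algebra (Mathlib only).

`A` a valuation ring of rank one (`hrk`), `F` a torsion-free commutative `A`-algebra,
`U, U' ≤ X` three `A`-subalgebras of `F` (the rings of the charts `t ≠ ∞`, `t ≠ 0` and of their
overlap, of a flat model of a curve), with

* `hcap`  : `U ∩ U' = A` (global functions are constants),
* `htors` : the torsion of `H¹ = X / (U + U')` is killed by one `c₀ ≠ 0` (`S34x/H1Fg`),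
* `hone`  : `1 ∉ m U`.

Call `x` *small in `Y`* if `x = μ y` with `μ ∈ m_A`, `y ∈ Y` (`x ∈ m Y`: the kernel of the reduction).
Then every idempotent of the special fibre is constant:

`exists_const_of_idem` : if `f ∈ U`, `f' ∈ U'` with `f - f'` small in `X`, `f² - f` small in `U`,
`f'² - f'` small in `U'`, then `f - a` is small in `U` for some `a ∈ A`.

Proof: lift the idempotent modulo an arbitrary `c ∈ m` on both charts (Newton iteration
`f ↦ 3 f² - 2 f³`), use the uniqueness of idempotent lifts on the overlap to get `f₁ - f₁' ∈ c X`,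
then the bounded torsion of `H¹` with `|c| < |c₀|`.
-/
import Mathlib

set_option autoImplicit false
set_option linter.unusedSectionVars false

namespace Fermat.Agent.S33x.H1.IdemConn

open IsLocalRing

variable {A : Type*} [CommRing A] [IsDomain A] [ValuationRing A]
  {F : Type*} [CommRing F] [Algebra A F]

/-- `x ∈ μ Y`. -/
def Dvd (Y : Subalgebra A F) (μ : A) (x : F) : Prop := ∃ y ∈ Y, x = μ • y

namespace Dvd

variable {Y : Subalgebra A F} {μ : A} {x x' : F}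

theorem mem (h : Dvd Y μ x) : x ∈ Y := by
  obtain ⟨y, hy, rfl⟩ := h
  exact Y.smul_mem hy μ

theorem zero : Dvd Y μ 0 := ⟨0, Y.zero_mem, by rw [smul_zero]⟩

theorem add (h : Dvd Y μ x) (h' : Dvd Y μ x') : Dvd Y μ (x + x') := by
  obtain ⟨y, hy, rfl⟩ := h
  obtain ⟨y', hy', rfl⟩ := h'
  exact ⟨y + y', Y.add_mem hy hy', by rw [smul_add]⟩

theorem neg (h : Dvd Y μ x) : Dvd Y μ (-x) := by
  obtain ⟨y, hy, rfl⟩ := h
  exact ⟨-y, Y.neg_mem hy, by rw [smul_neg]⟩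

theorem sub (h : Dvd Y μ x) (h' : Dvd Y μ x') : Dvd Y μ (x - x') := by
  rw [sub_eq_add_neg]
  exact h.add h'.neg

theorem mul_right (h : Dvd Y μ x) {z : F} (hz : z ∈ Y) : Dvd Y μ (x * z) := by
  obtain ⟨y, hy, rfl⟩ := h
  exact ⟨y * z, Y.mul_mem hy hz, by rw [smul_mul_assoc]⟩

theorem mul_left (h : Dvd Y μ x) {z : F} (hz : z ∈ Y) : Dvd Y μ (z * x) := by
  rw [mul_comm]
  exact h.mul_right hz

theorem mul {ν : A} (h : Dvd Y μ x) (h' : Dvd Y ν x') : Dvd Y (μ * ν) (x * x') := by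
  obtain ⟨y, hy, rfl⟩ := h
  obtain ⟨y', hy', rfl⟩ := h'
  exact ⟨y * y', Y.mul_mem hy hy', by rw [smul_mul_smul_comm]⟩

theorem of_dvd {ν : A} (hν : ν ∣ μ) (h : Dvd Y μ x) : Dvd Y ν x := by
  obtain ⟨y, hy, rfl⟩ := h
  obtain ⟨d, rfl⟩ := hν
  exact ⟨d • y, Y.smul_mem hy d, by rw [mul_smul]⟩

theorem mono {Y' : Subalgebra A F} (hYY' : Y ≤ Y') (h : Dvd Y μ x) : Dvd Y' μ x := by
  obtain ⟨y, hy, rfl⟩ := h
  exact ⟨y, hYY' hy, rfl⟩

theorem pow (h : Dvd Y μ x) (n : ℕ) : Dvd Y (μ ^ n) (x ^ n) := by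
  obtain ⟨y, hy, rfl⟩ := h
  exact ⟨y ^ n, Y.pow_mem hy n, by rw [smul_pow]⟩

end Dvd

/-! ### Newton iteration for idempotents -/

/-- the Newton step `f ↦ 3 f² - 2 f³` -/
def newton (f : F) : F := 3 * f ^ 2 - 2 * f ^ 3

theorem newton_mem {Y : Subalgebra A F} {f : F} (hf : f ∈ Y) : newton f ∈ Y := by
  unfold newton
  refine Y.sub_mem (Y.mul_mem ?_ (Y.pow_mem hf 2)) (Y.mul_mem ?_ (Y.pow_mem hf 3))
  · exact_mod_cast Y.natCast_mem 3
  · exact_mod_cast Y.natCast_mem 2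

theorem newton_sq_sub (f : F) :
    newton f ^ 2 - newton f = (f ^ 2 - f) ^ 2 * (4 * (f ^ 2 - f) - 3) := by
  unfold newton
  ring

theorem newton_sub (f : F) : newton f - f = (f ^ 2 - f) * (1 - 2 * f) := by
  unfold newton
  ring

/-- one Newton step squares the precision and moves by a multiple of the defect. -/
theorem newton_step {Y : Subalgebra A F} {ν : A} {f : F} (hf : f ∈ Y)
    (h : Dvd Y ν (f ^ 2 - f)) :
    Dvd Y (ν * ν) (newton f ^ 2 - newton f) ∧ Dvd Y ν (newton f - f) := by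
  have h3 : (3 : F) ∈ Y := by exact_mod_cast Y.natCast_mem 3
  have h4 : (4 : F) ∈ Y := by exact_mod_cast Y.natCast_mem 4
  have h2 : (2 : F) ∈ Y := by exact_mod_cast Y.natCast_mem 2
  constructor
  · rw [newton_sq_sub, pow_two]
    exact (h.mul h).mul_right (Y.sub_mem (Y.mul_mem h4 h.mem) h3)
  · rw [newton_sub]
    exact h.mul_right (Y.sub_mem Y.one_mem (Y.mul_mem h2 hf))

/-- **Idempotent lifting to any precision** `μ ^ (2 ^ n)`, staying in the class modulo `μ`. -/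
theorem exists_lift {Y : Subalgebra A F} {μ : A} {f : F} (hf : f ∈ Y)
    (h : Dvd Y μ (f ^ 2 - f)) (n : ℕ) :
    ∃ f₁ ∈ Y, Dvd Y (μ ^ (2 ^ n)) (f₁ ^ 2 - f₁) ∧ Dvd Y μ (f₁ - f) := by
  induction n with
  | zero => exact ⟨f, hf, by simpa using h, by rw [sub_self]; exact Dvd.zero⟩
  | succ n ih =>
    obtain ⟨f₁, hf₁, h1, h2⟩ := ih
    obtain ⟨h3, h4⟩ := newton_step hf₁ h1
    refine ⟨newton f₁, newton_mem hf₁, ?_, ?_⟩
    · rw [pow_succ, pow_mul, pow_two]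
      exact h3
    · have : newton f₁ - f = (newton f₁ - f₁) + (f₁ - f) := by ring
      rw [this]
      refine Dvd.add (h4.of_dvd ?_) h2
      exact dvd_pow_self μ (pow_ne_zero n two_ne_zero)

/-! ### Uniqueness of idempotent lifts -/

/-- Two idempotents modulo `c` which are congruent modulo `μ`, `c ∣ μ ^ j`, are congruent
modulo `c`. -/
theorem dvd_sub_of_idem {Y : Subalgebra A F} {c μ : A} {e e' : F} (he : e ∈ Y) (he' : e' ∈ Y)
    (h : Dvd Y c (e ^ 2 - e)) (h' : Dvd Y c (e' ^ 2 - e')) (hd : Dvd Y μ (e - e'))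
    {j : ℕ} (hj : c ∣ μ ^ j) : Dvd Y c (e - e') := by
  set d := e - e' with hd_def
  have hdY : d ∈ Y := Y.sub_mem he he'
  have h2 : (2 : F) ∈ Y := by exact_mod_cast Y.natCast_mem 2
  -- `d ^ 3 - d ∈ c Y`
  have key : Dvd Y c (d ^ 3 - d) := by
    have e1 : d ^ 3 - d =
        (e ^ 2 - e) * (e - 3 * e' + 1) - (e' ^ 2 - e') * (e' - 3 * e + 1) := by
      rw [hd_def]
      ring
    rw [e1]
    have h3 : (3 : F) ∈ Y := by exact_mod_cast Y.natCast_mem 3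
    have m2 : e - 3 * e' + 1 ∈ Y := Y.add_mem (Y.sub_mem he (Y.mul_mem h3 he')) Y.one_mem
    have m3 : e' - 3 * e + 1 ∈ Y := Y.add_mem (Y.sub_mem he' (Y.mul_mem h3 he)) Y.one_mem
    exact (h.mul_right m2).sub (h'.mul_right m3)
  -- `d = d * (d^2)^j - (d^3 - d) * (1 + d^2 + ... + (d^2)^(j-1))`
  have geo : d = d * (d ^ 2) ^ j - (d ^ 3 - d) * ∑ i ∈ Finset.range j, (d ^ 2) ^ i := by
    have hg := Commute.geom_sum₂_mul (Commute.all (d ^ 2) (1 : F)) j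
    simp only [one_pow, mul_one] at hg
    have : (d ^ 3 - d) * ∑ i ∈ Finset.range j, (d ^ 2) ^ i =
        d * ((∑ i ∈ Finset.range j, (d ^ 2) ^ i) * (d ^ 2 - 1)) := by ring
    rw [this, hg]
    ring
  rw [geo]
  refine Dvd.sub ?_ (key.mul_right (Y.sum_mem fun i _ => Y.pow_mem (Y.pow_mem hdY 2) i))
  -- `d * d^(2j) ∈ μ^(2j+1) Y ⊆ c Y`
  have h1 : Dvd Y (μ ^ (1 + 2 * j)) (d * (d ^ 2) ^ j) := by
    have := hd.pow (1 + 2 * j)
    have e2 : d ^ (1 + 2 * j) = d * (d ^ 2) ^ j := by rw [pow_add, pow_one, pow_mul]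
    rwa [e2] at this
  refine h1.of_dvd (hj.trans ?_)
  exact pow_dvd_pow μ (by omega)

/-! ### The theorem -/

variable [Module.IsTorsionFree A F]

/-- **Zariski connectedness, Čech form.** -/
theorem exists_const_of_idem (U U' X : Subalgebra A F) (hUX : U ≤ X) (hU'X : U' ≤ X)
    (hrk : ∀ x ∈ maximalIdeal A, ∀ c : A, c ≠ 0 → ∃ j : ℕ, c ∣ x ^ j)
    (hm : ∃ ν ∈ maximalIdeal A, ν ≠ 0)
    (htors : ∃ c₀ : A, c₀ ≠ 0 ∧ ∀ γ ∈ X,
      (∃ d : A, d ≠ 0 ∧ d • γ ∈ Subalgebra.toSubmodule U ⊔ Subalgebra.toSubmodule U') →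
        c₀ • γ ∈ Subalgebra.toSubmodule U ⊔ Subalgebra.toSubmodule U')
    (hcap : ∀ x, x ∈ U → x ∈ U' → ∃ a : A, x = algebraMap A F a)
    (hone : ∀ μ ∈ maximalIdeal A, ¬ Dvd U μ (1 : F))
    {μ : A} (hμ : μ ∈ maximalIdeal A) {f f' : F} (hf : f ∈ U) (hf' : f' ∈ U')
    (hff' : Dvd X μ (f - f')) (hidem : Dvd U μ (f ^ 2 - f)) (hidem' : Dvd U' μ (f' ^ 2 - f')) :
    ∃ (a : A) (ν : A), ν ∈ maximalIdeal A ∧ Dvd U ν (f - algebraMap A F a) := by
  obtain ⟨c₀, hc₀, htors⟩ := htors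
  obtain ⟨ν₀, hν₀, hν₀0⟩ := hm
  by_cases hμ0 : μ = 0
  · -- then `f = f'` is a constant
    subst hμ0
    obtain ⟨y, -, hy⟩ := hff'
    rw [zero_smul, sub_eq_zero] at hy
    obtain ⟨a, ha⟩ := hcap f hf (hy ▸ hf')
    exact ⟨a, ν₀, hν₀, by rw [ha, sub_self]; exact Dvd.zero⟩
  -- the precision `c = c₀ * μ`
  set c : A := c₀ * μ with hc
  have hc0 : c ≠ 0 := mul_ne_zero hc₀ hμ0
  obtain ⟨j, hj⟩ := hrk μ hμ c hc0
  obtain ⟨n, hn⟩ : ∃ n : ℕ, j ≤ 2 ^ n := ⟨j, Nat.lt_two_pow_self.le⟩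
  have hcn : c ∣ μ ^ (2 ^ n) := hj.trans (pow_dvd_pow μ hn)
  -- lift the idempotents
  obtain ⟨f₁, hf₁, h1, h1'⟩ := exists_lift hf hidem n
  obtain ⟨f₂, hf₂, h2, h2'⟩ := exists_lift hf' hidem' n
  have h1c : Dvd X c (f₁ ^ 2 - f₁) := (h1.of_dvd hcn).mono hUX
  have h2c : Dvd X c (f₂ ^ 2 - f₂) := (h2.of_dvd hcn).mono hU'X
  have hdμ : Dvd X μ (f₁ - f₂) := by
    have : f₁ - f₂ = (f₁ - f) + (f - f') - (f₂ - f') := by ring
    rw [this]
    exact ((h1'.mono hUX).add hff').sub (h2'.mono hU'X)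
  -- uniqueness on the overlap
  obtain ⟨γ, hγ, hγe⟩ := dvd_sub_of_idem (hUX hf₁) (hU'X hf₂) h1c h2c hdμ hcn
  -- `γ` is a torsion class
  have hγt : c₀ • γ ∈ Subalgebra.toSubmodule U ⊔ Subalgebra.toSubmodule U' := by
    refine htors γ hγ ⟨c, hc0, ?_⟩
    rw [← hγe]
    exact Submodule.sub_mem _ (Submodule.mem_sup_left hf₁) (Submodule.mem_sup_right hf₂)
  obtain ⟨g, hg, g', hg', hgg⟩ := Submodule.mem_sup.mp hγt
  -- the constant: `c₀ f₁ - c g = c₀ f₂ + c g' ∈ U ∩ U' = A`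
  have hcap' : c₀ • f₁ - c • g = c₀ • f₂ + c • g' := by
    have e1 : c₀ • (f₁ - f₂) = c • (c₀ • γ) := by
      rw [hγe, smul_smul, smul_smul, mul_comm]
    rw [← hgg, smul_add, smul_sub] at e1
    linear_combination e1
  obtain ⟨a, ha⟩ := hcap (c₀ • f₁ - c • g) (U.sub_mem (U.smul_mem hf₁ c₀) (U.smul_mem hg c))
    (hcap' ▸ U'.add_mem (U'.smul_mem hf₂ c₀) (U'.smul_mem hg' c))
  -- `algebraMap a = c₀ • (f₁ - μ • g)`
  have ha' : algebraMap A F a = c₀ • (f₁ - μ • g) := by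
    rw [← ha, hc, smul_sub, mul_smul]
  rcases ValuationRing.dvd_total c₀ a with hdvd | hdvd
  · -- `a = c₀ a'`: then `f₁ - a' = μ g`
    obtain ⟨a', rfl⟩ := hdvd
    refine ⟨a', μ, hμ, ?_⟩
    have e2 : c₀ • (f₁ - μ • g - algebraMap A F a') = 0 := by
      rw [smul_sub, ← ha', Algebra.smul_def c₀ (algebraMap A F a'), ← map_mul, sub_self]
    have e3 : f₁ - μ • g - algebraMap A F a' = 0 := (smul_eq_zero_iff_right hc₀).1 e2
    have e4 : f - algebraMap A F a' = μ • g - (f₁ - f) := by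
      linear_combination e3
    rw [e4]
    exact Dvd.sub ⟨g, hg, rfl⟩ h1'
  · -- `c₀ = a ν`: if `ν` is a unit we are in the first case, otherwise `1 ∈ ν U`
    obtain ⟨ν, hν⟩ := hdvd
    have ha0 : a ≠ 0 := by
      rintro rfl
      rw [zero_mul] at hν
      exact hc₀ hν
    by_cases hνu : IsUnit ν
    · -- `a = c₀ ν⁻¹`
      obtain ⟨u, rfl⟩ := hνu
      have hdvd' : c₀ ∣ a := ⟨(↑u⁻¹ : A), by rw [hν, mul_assoc, Units.mul_inv, mul_one]⟩
      obtain ⟨a', rfl⟩ := hdvd'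
      refine ⟨a', μ, hμ, ?_⟩
      have e2 : c₀ • (f₁ - μ • g - algebraMap A F a') = 0 := by
        rw [smul_sub, ← ha', Algebra.smul_def c₀ (algebraMap A F a'), ← map_mul, sub_self]
      have e3 : f₁ - μ • g - algebraMap A F a' = 0 := (smul_eq_zero_iff_right hc₀).1 e2
      have e4 : f - algebraMap A F a' = μ • g - (f₁ - f) := by
        linear_combination e3
      rw [e4]
      exact Dvd.sub ⟨g, hg, rfl⟩ h1'
    · exfalso
      have hνm : ν ∈ maximalIdeal A := (mem_maximalIdeal ν).2 hνu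
      refine hone ν hνm ⟨f₁ - μ • g, U.sub_mem hf₁ (U.smul_mem hg μ), ?_⟩
      have e5 : a • ((1 : F) - ν • (f₁ - μ • g)) = 0 := by
        rw [smul_sub, smul_smul, ← hν, ← ha', Algebra.smul_def, mul_one, sub_self]
      have e6 := (smul_eq_zero_iff_right ha0).1 e5
      exact sub_eq_zero.1 e6

end Fermat.Agent.S33x.H1.IdemConn
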