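import Fermat.Agent.S33x.H1.InstC2
import Fermat.Agent.S33x.H1.IdemConn

/-!
# P-S33 (H1-c), part (c4) and (F2): the special fibre is connected (helper50)

Vocabulary of `S33x/H1/InstC1`: `Lam C a b = L(a C₀ + b C∞) ∩ S.O`, `Boo C = ⋃_b Lam(0,b)`,
`Bzero C = ⋃_a Lam(a,0)`, `Bx C = ⋃ Lam(a,b)`.

* `BooAlg`, `BzeroAlg`, `BxAlg`: the three chart rings as `A`-subalgebras of `F`, with membership
  lemmas `mem_BooAlg`, `mem_BzeroAlg`, `mem_BxAlg`;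
* `exists_const_of_idem_res`: an idempotent of `κ` which is the reduction of an element of `B∞` and
  of an element of `B₀` is a constant (instance of `IdemConn.exists_const_of_idem`);
* `F2_prod`: for `κ = κ₁ × κ₂` with `P(0,0) = k × k`: `red(B∞) ∩ red(B₀) = k (1,1)`.
-/

set_option autoImplicit false
set_option linter.unusedSectionVars false
set_option linter.style.haveILetI false

noncomputable section

namespace Fermat.Agent.S33x.H1.InstC4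

open AlgebraicCurve Module IntermediateField IsLocalRing
open Fermat.Agent.Gateway.C0 Fermat.Agent.S34x Fermat.Agent.S34x.C0two Fermat.Agent.S34x.Lattice2
open Fermat.Agent.S33x.H1.InstC1 Fermat.Agent.S33x.H1.InstC2 Fermat.Agent.S33x.H1

section alg

variable {K : Type*} [Field K] {A : ValuationSubring K} {F : Type*} [Field F] [Algebra K F]
  {S : SmallRing F} {k κ : Type*} [Field k] [CommRing κ] [Algebra k κ]
  {R : RedSetup2 A S k κ} (C : ChartCoord R)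

theorem mem_Boo {x : F} : x ∈ Boo C ↔ ∃ b, x ∈ Lam C 0 b := by
  unfold Boo H1Fg.chartU
  exact Submodule.mem_iSup_of_directed _
    (Monotone.directed_le fun b b' h => Lam_mono C le_rfl h)

theorem mem_Bzero {x : F} : x ∈ Bzero C ↔ ∃ a, x ∈ Lam C a 0 := by
  unfold Bzero H1Fg.chartU'
  exact Submodule.mem_iSup_of_directed _
    (Monotone.directed_le fun a a' h => Lam_mono C h le_rfl)

theorem Bx_eq : Bx C = ⨆ n, Lam C n n := by
  unfold Bx H1Fg.chartX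
  apply le_antisymm
  · refine iSup_le fun a => iSup_le fun c => ?_
    exact le_trans (Lam_mono C (le_max_left a c) (le_max_right a c))
      (le_iSup (fun n => Lam C n n) (max a c))
  · exact iSup_le fun n => H1Fg.le_chartX n n

theorem mem_Bx {x : F} : x ∈ Bx C ↔ ∃ n, x ∈ Lam C n n := by
  rw [Bx_eq]
  exact Submodule.mem_iSup_of_directed _
    (Monotone.directed_le fun n n' h => Lam_mono C h h)

theorem mem_Bx' {x : F} : x ∈ Bx C ↔ ∃ a b, x ∈ Lam C a b := by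
  rw [mem_Bx]
  constructor
  · rintro ⟨n, hn⟩
    exact ⟨n, n, hn⟩
  · rintro ⟨a, b, h⟩
    exact ⟨max a b, Lam_mono C (le_max_left a b) (le_max_right a b) h⟩

theorem algebraMap_mem_Lam (a : A) : algebraMap A F a ∈ Lam C 0 0 := by
  refine ⟨?_, R.algebraMap_mem a⟩
  have h : algebraMap A F a = (a : K) • (1 : F) := by
    rw [Algebra.smul_def, mul_one]
    rfl
  rw [h]
  exact (C.LN 0 0).smul_mem _ C.one_mem_LN

/-- the chart ring `B∞` as a subalgebra -/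
def BooAlg : Subalgebra A F :=
  (Boo C).toSubalgebra ((mem_Boo C).mpr ⟨0, one_mem_Lam C⟩) (by
    intro x y hx hy
    obtain ⟨b, hb⟩ := (mem_Boo C).mp hx
    obtain ⟨b', hb'⟩ := (mem_Boo C).mp hy
    exact (mem_Boo C).mpr ⟨b + b', by simpa using Lam_mul C hb hb'⟩)

/-- the chart ring `B₀` as a subalgebra -/
def BzeroAlg : Subalgebra A F :=
  (Bzero C).toSubalgebra ((mem_Bzero C).mpr ⟨0, one_mem_Lam C⟩) (by
    intro x y hx hy
    obtain ⟨b, hb⟩ := (mem_Bzero C).mp hx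
    obtain ⟨b', hb'⟩ := (mem_Bzero C).mp hy
    exact (mem_Bzero C).mpr ⟨b + b', by simpa using Lam_mul C hb hb'⟩)

/-- the overlap ring `Bx` as a subalgebra -/
def BxAlg : Subalgebra A F :=
  (Bx C).toSubalgebra ((mem_Bx C).mpr ⟨0, one_mem_Lam C⟩) (by
    intro x y hx hy
    obtain ⟨b, hb⟩ := (mem_Bx C).mp hx
    obtain ⟨b', hb'⟩ := (mem_Bx C).mp hy
    exact (mem_Bx C).mpr ⟨b + b', Lam_mul C hb hb'⟩)

@[simp] theorem toSubmodule_BooAlg : Subalgebra.toSubmodule (BooAlg C) = Boo C :=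
  Submodule.toSubalgebra_toSubmodule _ _ _

@[simp] theorem toSubmodule_BzeroAlg : Subalgebra.toSubmodule (BzeroAlg C) = Bzero C :=
  Submodule.toSubalgebra_toSubmodule _ _ _

@[simp] theorem toSubmodule_BxAlg : Subalgebra.toSubmodule (BxAlg C) = Bx C :=
  Submodule.toSubalgebra_toSubmodule _ _ _

theorem mem_BooAlg {x : F} : x ∈ BooAlg C ↔ ∃ b, x ∈ Lam C 0 b := by
  rw [← mem_Boo, ← toSubmodule_BooAlg, Subalgebra.mem_toSubmodule]

theorem mem_BzeroAlg {x : F} : x ∈ BzeroAlg C ↔ ∃ a, x ∈ Lam C a 0 := by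
  rw [← mem_Bzero, ← toSubmodule_BzeroAlg, Subalgebra.mem_toSubmodule]

theorem mem_BxAlg {x : F} : x ∈ BxAlg C ↔ ∃ n, x ∈ Lam C n n := by
  rw [← mem_Bx, ← toSubmodule_BxAlg, Subalgebra.mem_toSubmodule]

theorem mem_BxAlg' {x : F} : x ∈ BxAlg C ↔ ∃ a b, x ∈ Lam C a b := by
  rw [← mem_Bx', ← toSubmodule_BxAlg, Subalgebra.mem_toSubmodule]

theorem BooAlg_le : BooAlg C ≤ BxAlg C := by
  intro x hx
  obtain ⟨b, hb⟩ := (mem_BooAlg C).mp hx
  exact (mem_BxAlg' C).mpr ⟨0, b, hb⟩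

theorem BzeroAlg_le : BzeroAlg C ≤ BxAlg C := by
  intro x hx
  obtain ⟨a, ha⟩ := (mem_BzeroAlg C).mp hx
  exact (mem_BxAlg' C).mpr ⟨a, 0, ha⟩

theorem mem_O_of_mem_BxAlg {x : F} (hx : x ∈ BxAlg C) : x ∈ S.O := by
  obtain ⟨n, hn⟩ := (mem_BxAlg C).mp hx
  exact hn.2

end alg

section F2

variable {K : Type*} [Field K] [IsAlgClosed K] [CharZero K] {A : ValuationSubring K}
  {F : Type*} [Field F] [Algebra K F] {S : SmallRing F}
  {k κ : Type*} [Field k] [CommRing κ] [Algebra k κ] [Nontrivial κ]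
  {R : RedSetup2 A S k κ} (C : ChartCoord R)
  (ht : Transcendental K C.t) [FiniteDimensional K⟮C.t⟯ F]
  {Dt : Divisor K F} (hDt : ∀ v : Place K F, Dt v = v.ord C.t)
  (hcart : ∀ V : Submodule K F, FiniteDimensional K V → (R.lat V).FG)
  [hPfin : ∀ b, FiniteDimensional k (C.Pk 0 b)] {b₀ : ℕ}
  (hgen : ∀ b, b₀ ≤ b → ∀ x ∈ C.Pk 0 (b + 1), ∃ y ∈ C.Pk 0 b, ∃ z ∈ C.Pk 0 b, x = y + C.T * z)

/-- in a valuation ring, three elements of the maximal ideal have a common divisor in the maximal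
ideal which is one of them -/
theorem exists_common_dvd {A : Type*} [CommRing A] [IsDomain A] [ValuationRing A] [IsLocalRing A]
    {x y z : A} (hx : x ∈ maximalIdeal A) (hy : y ∈ maximalIdeal A) (hz : z ∈ maximalIdeal A) :
    ∃ μ ∈ maximalIdeal A, μ ∣ x ∧ μ ∣ y ∧ μ ∣ z := by
  rcases ValuationRing.dvd_total x y with hxy | hyx
  · rcases ValuationRing.dvd_total x z with hxz | hzx
    · exact ⟨x, hx, dvd_rfl, hxy, hxz⟩
    · exact ⟨z, hz, hzx, hzx.trans hxy, dvd_rfl⟩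
  · rcases ValuationRing.dvd_total y z with hyz | hzy
    · exact ⟨y, hy, hyx, dvd_rfl, hyz⟩
    · exact ⟨z, hz, hzy.trans hyx, hzy, dvd_rfl⟩

include ht hDt hcart hgen in
/-- **(F2), idempotent form**: an idempotent of `κ` which is the reduction of an element of `B∞`
and of an element of `B₀` is a constant. -/
theorem exists_const_of_idem_res {e : κ} (he : IsIdempotentElem e)
    {f : F} {b : ℕ} (hf : f ∈ Lam C 0 b) (hfe : R.res ⟨f, hf.2⟩ = e)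
    {f' : F} {a : ℕ} (hf' : f' ∈ Lam C a 0) (hfe' : R.res ⟨f', hf'.2⟩ = e) :
    ∃ c : k, e = algebraMap k κ c := by
  -- the three small elements
  have hfab : f ∈ Lam C a b := Lam_mono C (Nat.zero_le a) le_rfl hf
  have hf'ab : f' ∈ Lam C a b := Lam_mono C le_rfl (Nat.zero_le b) hf'
  obtain ⟨ϖ₁, hϖ₁, y₁, hy₁, h1⟩ := exists_smul_of_res_eq C hfab hf'ab (by
    have e1 : R.res ⟨f, hfab.2⟩ = R.res ⟨f, hf.2⟩ := rfl
    have e2 : R.res ⟨f', hf'ab.2⟩ = R.res ⟨f', hf'.2⟩ := rfl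
    rw [e1, e2, hfe, hfe'])
  have hsq : f ^ 2 ∈ Lam C 0 (b + b) := by
    rw [pow_two]
    simpa using Lam_mul C hf hf
  have hfbb : f ∈ Lam C 0 (b + b) := Lam_mono C le_rfl (Nat.le_add_right b b) hf
  obtain ⟨ϖ₂, hϖ₂, y₂, hy₂, h2⟩ := exists_smul_of_res_eq C hsq hfbb (by
    have e1 : (⟨f ^ 2, hsq.2⟩ : S.O) = ⟨f, hf.2⟩ ^ 2 := rfl
    have e2 : R.res ⟨f, hfbb.2⟩ = R.res ⟨f, hf.2⟩ := rfl
    rw [e1, map_pow, e2, hfe, pow_two, he.eq])
  have hsq' : f' ^ 2 ∈ Lam C (a + a) 0 := by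
    rw [pow_two]
    simpa using Lam_mul C hf' hf'
  have hf'aa : f' ∈ Lam C (a + a) 0 := Lam_mono C (Nat.le_add_right a a) le_rfl hf'
  obtain ⟨ϖ₃, hϖ₃, y₃, hy₃, h3⟩ := exists_smul_of_res_eq C hsq' hf'aa (by
    have e1 : (⟨f' ^ 2, hsq'.2⟩ : S.O) = ⟨f', hf'.2⟩ ^ 2 := rfl
    have e2 : R.res ⟨f', hf'aa.2⟩ = R.res ⟨f', hf'.2⟩ := rfl
    rw [e1, map_pow, e2, hfe', pow_two, he.eq])
  obtain ⟨μ, hμ, d1, d2, d3⟩ := exists_common_dvd hϖ₁ hϖ₂ hϖ₃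
  -- the hypotheses of `IdemConn.exists_const_of_idem`
  have hX : IdemConn.Dvd (BxAlg C) μ (f - f') :=
    IdemConn.Dvd.of_dvd d1 ⟨y₁, (mem_BxAlg' C).mpr ⟨a, b, hy₁⟩, h1⟩
  have hU : IdemConn.Dvd (BooAlg C) μ (f ^ 2 - f) :=
    IdemConn.Dvd.of_dvd d2 ⟨y₂, (mem_BooAlg C).mpr ⟨b + b, hy₂⟩, h2⟩
  have hU' : IdemConn.Dvd (BzeroAlg C) μ (f' ^ 2 - f') :=
    IdemConn.Dvd.of_dvd d3 ⟨y₃, (mem_BzeroAlg C).mpr ⟨a + a, hy₃⟩, h3⟩
  have htors : ∃ c₀ : A, c₀ ≠ 0 ∧ ∀ γ ∈ BxAlg C,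
      (∃ d : A, d ≠ 0 ∧ d • γ ∈ Subalgebra.toSubmodule (BooAlg C) ⊔
        Subalgebra.toSubmodule (BzeroAlg C)) →
      c₀ • γ ∈ Subalgebra.toSubmodule (BooAlg C) ⊔ Subalgebra.toSubmodule (BzeroAlg C) := by
    obtain ⟨c₀, hc₀, h⟩ := exists_ne_zero_smul_mem C ht hDt hcart hgen
    refine ⟨c₀, hc₀, fun γ hγ hd => ?_⟩
    rw [toSubmodule_BooAlg, toSubmodule_BzeroAlg] at hd ⊢
    refine h γ ?_ hd
    rw [← toSubmodule_BxAlg, Subalgebra.mem_toSubmodule]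
    exact hγ
  have hcap : ∀ x, x ∈ BooAlg C → x ∈ BzeroAlg C → ∃ a : A, x = algebraMap A F a := by
    intro x hx hx'
    obtain ⟨b', hb'⟩ := (mem_BooAlg C).mp hx
    obtain ⟨a', ha'⟩ := (mem_BzeroAlg C).mp hx'
    exact exists_eq_algebraMap_of_mem_inf C ht hDt hb' ha'
  have hone : ∀ ν ∈ maximalIdeal A, ¬ IdemConn.Dvd (BooAlg C) ν (1 : F) := by
    rintro ν hν ⟨y, hy, h⟩
    exact not_one_eq_smul (R := R) hν (mem_O_of_mem_BxAlg C (BooAlg_le C hy)) h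
  obtain ⟨c, ν, hν, y, hy, hc⟩ := IdemConn.exists_const_of_idem (BooAlg C) (BzeroAlg C) (BxAlg C)
    (BooAlg_le C) (BzeroAlg_le C) R.rank_one R.exists_ne_zero htors hcap hone hμ
    ((mem_BooAlg C).mpr ⟨b, hf⟩) ((mem_BzeroAlg C).mpr ⟨a, hf'⟩) hX hU hU'
  -- conclusion: `res f = π c`
  refine ⟨R.π c, ?_⟩
  have hyO : y ∈ S.O := mem_O_of_mem_BxAlg C (BooAlg_le C hy)
  have hsmall : Small S (f - algebraMap A F c) := by
    rw [hc]
    exact R.base.small_smul hν hyO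
  have hcong : Cong S f (algebraMap A F c) := hsmall
  have := (R.cong_iff hf.2 (R.algebraMap_mem c)).mp hcong
  rw [← hfe, this, R.res_algebraMap]

end F2

section prod

variable {K : Type*} [Field K] [IsAlgClosed K] [CharZero K] {A : ValuationSubring K}
  {F : Type*} [Field F] [Algebra K F] {S : SmallRing F}
  {k κ₁ κ₂ : Type*} [Field k] [CommRing κ₁] [CommRing κ₂] [Algebra k κ₁] [Algebra k κ₂]
  [Nontrivial κ₁] [Nontrivial κ₂]
  {R : RedSetup2 A S k (κ₁ × κ₂)} (C : ChartCoord R)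
  (ht : Transcendental K C.t) [FiniteDimensional K⟮C.t⟯ F]
  {Dt : Divisor K F} (hDt : ∀ v : Place K F, Dt v = v.ord C.t)
  (hcart : ∀ V : Submodule K F, FiniteDimensional K V → (R.lat V).FG)
  [hPfin : ∀ b, FiniteDimensional k (C.Pk 0 b)] {b₀ : ℕ}
  (hgen : ∀ b, b₀ ≤ b → ∀ x ∈ C.Pk 0 (b + 1), ∃ y ∈ C.Pk 0 b, ∃ z ∈ C.Pk 0 b, x = y + C.T * z)
  (hP00 : ∀ y ∈ C.Pk 0 0, ∃ c₁ c₂ : k, y = (algebraMap k κ₁ c₁, algebraMap k κ₂ c₂))

include ht hDt hcart hgen hP00 in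
/-- **(F2)** on a two-component special fibre with `P(0,0) = k × k`:
`red Lam(0,b) ∩ red Lam(a,0) = k (1,1)`. -/
theorem F2_prod {y : κ₁ × κ₂} {a b : ℕ} (hy : y ∈ R.redLat (C.LN 0 b))
    (hy' : y ∈ R.redLat (C.LN a 0)) : ∃ c : k, y = algebraMap k (κ₁ × κ₂) c := by
  have h00 : y ∈ C.Pk 0 0 := by
    have h := twoPole_inf _ _ (C.redLat_LN_le 0 b hy) (C.redLat_LN_le a 0 hy')
    rwa [Nat.zero_min, Nat.min_zero] at h
  obtain ⟨c₁, c₂, rfl⟩ := hP00 y h00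
  by_cases hcc : c₁ = c₂
  · exact ⟨c₁, by rw [hcc]; rfl⟩
  exfalso
  have hd : c₁ - c₂ ≠ 0 := sub_ne_zero.mpr hcc
  -- the idempotent `(1,0)`
  have hone : ∀ a' b' : ℕ, (1 : κ₁ × κ₂) ∈ R.redLat (C.LN a' b') := fun a' b' =>
    ⟨1, S.O.one_mem, C.LN_mono (Nat.zero_le _) (Nat.zero_le _) C.one_mem_LN, map_one R.res⟩
  have hE : ∀ V : Submodule k (κ₁ × κ₂),
      ((algebraMap k κ₁ c₁, algebraMap k κ₂ c₂) : κ₁ × κ₂) ∈ V → (1 : κ₁ × κ₂) ∈ V →
      ((1 : κ₁), (0 : κ₂)) ∈ V := by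
    intro V h1 h2
    have h3 : (c₁ - c₂)⁻¹ • (((algebraMap k κ₁ c₁, algebraMap k κ₂ c₂) : κ₁ × κ₂) -
        c₂ • (1 : κ₁ × κ₂)) ∈ V := V.smul_mem _ (V.sub_mem h1 (V.smul_mem _ h2))
    have h4 : (c₁ - c₂)⁻¹ • (((algebraMap k κ₁ c₁, algebraMap k κ₂ c₂) : κ₁ × κ₂) -
        c₂ • (1 : κ₁ × κ₂)) = ((1 : κ₁), (0 : κ₂)) := by
      ext
      · show (c₁ - c₂)⁻¹ • (algebraMap k κ₁ c₁ - c₂ • (1 : κ₁)) = 1
        rw [Algebra.smul_def c₂, mul_one, ← map_sub, Algebra.smul_def, ← map_mul,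
          inv_mul_cancel₀ hd, map_one]
      · show (c₁ - c₂)⁻¹ • (algebraMap k κ₂ c₂ - c₂ • (1 : κ₂)) = 0
        rw [Algebra.smul_def c₂, mul_one, sub_self, smul_zero]
    rwa [h4] at h3
  obtain ⟨f, hfO, hfL, hfe⟩ := hE _ hy (hone 0 b)
  obtain ⟨f', hf'O, hf'L, hfe'⟩ := hE _ hy' (hone a 0)
  have he : IsIdempotentElem (((1 : κ₁), (0 : κ₂)) : κ₁ × κ₂) := by
    ext <;> simp [IsIdempotentElem]
  obtain ⟨c, hc⟩ := exists_const_of_idem_res C ht hDt hcart hgen he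
    (f := f) (b := b) ⟨hfL, hfO⟩ hfe (f' := f') (a := a) ⟨hf'L, hf'O⟩ hfe'
  have h1 : (1 : κ₁) = algebraMap k κ₁ c := congrArg Prod.fst hc
  have h2 : (0 : κ₂) = algebraMap k κ₂ c := congrArg Prod.snd hc
  have hc0 : c = 0 := by
    by_contra hne
    have : algebraMap k κ₂ c ≠ 0 := (map_ne_zero_iff _ (algebraMap k κ₂).injective).mpr hne
    exact this h2.symm
  rw [hc0, map_zero] at h1
  exact one_ne_zero h1

end prod

end Fermat.Agent.S33x.H1.InstC4
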