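import Fermat.Agent.S34x.Lattice2.DimBridgeTwoPole

/-!
# P-S33 (H1-c), second (helper26): constants

`k` algebraically closed, `E` a function field over `k`, `x` transcendental with `E / k(x)` finite
separable.

* `exists_algebraMap_eq_of_isIntegral` : an element integral over `k[x]` and over `k[x⁻¹]` is a
  constant (`L(0) = k`, place-free form);
* `exists_const_of_mem_twoPole_zero` : on `E × E`, `T = (x, x ^ q)`:
  `twoPole k T T⁻¹ 0 0 = k × k`.

Used on both sides of the reduction: characteristic `0` (`Lam(a,0) ∩ Lam(0,b) = A`) and the special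
fibre (`Pk 0 0 = k × k`).
-/

set_option autoImplicit false
set_option linter.unusedSectionVars false
set_option linter.style.haveILetI false

noncomputable section

namespace Fermat.Agent.S33x.H1.InstBConst

open AlgebraicCurve Polynomial IntermediateField Module
open Fermat.Agent.Lib.RiemannRoch Fermat.Agent.Lib.RiemannRoch.FunctionFieldRR
open Fermat.Agent.S34x.Lattice2 Fermat.Agent.S34x.Lattice2.Dim
open Fermat.Agent.S34x.Lattice2.DimBridge

variable {k E : Type*} [Field k] [IsAlgClosed k] [Field E] [Algebra k E] {x : E}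
  (hx : Transcendental k x) [FiniteDimensional k⟮x⟯ E] [Algebra.IsSeparable k⟮x⟯ E]

include hx in
/-- Over an algebraically closed field of constants, a function without poles is a constant. -/
theorem exists_algebraMap_eq_of_mem_zero {y : E}
    (hy : y ∈ riemannRochSpace (0 : Divisor k E)) : ∃ c : k, y = algebraMap k E c := by
  haveI := nonempty_place hx
  haveI : ∀ v : Place k E, v.FiniteResidue := FunctionField.finiteResidue k x
  haveI := hasPrincipalDivisors hx
  have hint : IsIntegral k y := (isAlgebraic_of_mem_zero hy).isIntegral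
  have hdeg : (minpoly k y).degree = 1 :=
    IsAlgClosed.degree_eq_one_of_irreducible k (minpoly.irreducible hint)
  obtain ⟨a, ha⟩ := minpoly.mem_range_of_degree_eq_one k y hdeg
  exact ⟨a, ha.symm⟩

include hx in
/-- **`L(0) = k`, place-free**: integral over `k[x]` and over `k[x⁻¹]` implies constant. -/
theorem exists_algebraMap_eq_of_isIntegral {y : E}
    (h1 : IsIntegral (Algebra.adjoin k {x}) y) (h2 : IsIntegral (Algebra.adjoin k {x⁻¹}) y) :
    ∃ c : k, y = algebraMap k E c := by
  obtain ⟨C, hC, -⟩ := exists_poleDiv hx hx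
  have h3 : y ∈ Lb 0 C 0 := by
    rw [mem_Lb_iff_isIntegral hx hC, pow_zero, one_mul]
    exact ⟨h1, h2⟩
  have h4 : y ∈ riemannRochSpace (0 : Divisor k E) := by
    unfold Lb at h3
    simpa using h3
  exact exists_algebraMap_eq_of_mem_zero hx h4

include hx in
/-- **`twoPole k T T⁻¹ 0 0 = k × k`** on `E × E`, `T = (x, x ^ q)`. -/
theorem exists_const_of_mem_twoPole_zero {q : ℕ} (hq : 0 < q) {y : E × E}
    (hy : y ∈ twoPole k ((x, x ^ q) : E × E) (x⁻¹, (x ^ q)⁻¹) 0 0) :
    ∃ c₁ c₂ : k, y = (algebraMap k E c₁, algebraMap k E c₂) := by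
  obtain ⟨h1, h2⟩ := hy
  rw [pow_zero, one_mul] at h1 h2
  obtain ⟨h11, h12⟩ := (isIntegral_prod_iff x (x ^ q) y).mp h1
  obtain ⟨h21, h22⟩ := (isIntegral_prod_iff x⁻¹ (x ^ q)⁻¹ y).mp h2
  obtain ⟨c₁, hc₁⟩ := exists_algebraMap_eq_of_isIntegral hx h11 h21
  have h12' : IsIntegral (Algebra.adjoin k {x}) y.2 := (isIntegral_adjoin_pow_iff x hq y.2).mp h12
  have h22' : IsIntegral (Algebra.adjoin k {x⁻¹}) y.2 := by
    rw [← inv_pow] at h22
    exact (isIntegral_adjoin_pow_iff x⁻¹ hq y.2).mp h22
  obtain ⟨c₂, hc₂⟩ := exists_algebraMap_eq_of_isIntegral hx h12' h22'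
  exact ⟨c₁, c₂, Prod.ext hc₁ hc₂⟩

end Fermat.Agent.S33x.H1.InstBConst
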