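import Fermat.Agent.S33x.H1.InstC1
import Fermat.Agent.S33x.H1.InstBConst

/-!
# P-S33 (H1-c), second (helper26): the chart rings as subalgebras, (c2), (c3), pole separation

Vocabulary of `S33x/H1/InstC1` (helper50): `Lam C a b = L(a C₀ + b C∞) ∩ S.O`,
`Boo C = ⋃_b Lam(0,b)`, `Bzero C = ⋃_a Lam(a,0)`, `Bx C = ⋃ Lam(a,b)`.

* `mem_Boo`, `mem_Bzero`, `mem_Bx` : membership in the unions;
* `BooAlg`, `BzeroAlg`, `BxAlg` : the three chart rings as `Subalgebra A F`;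
* `Lam_sep` (pole separation): `f ∈ Lam(0,b)`, `h ∈ Lam(a,0)`, `f + h ∈ Lam(a',b')` imply
  `f ∈ Lam(0,b')`, `h ∈ Lam(a',0)`; hence `(B∞ + B₀) ∩ Lam(a',b') = Lam(0,b') + Lam(a',0)`;
* (c2) `exists_smul_of_res_eq_zero` : `ker res ∩ Lam(a,b) = 𝔪 Lam(a,b)`;
* (c3) `exists_algebraMap_of_mem_Lam_inf` : `Lam(a,0) ∩ Lam(0,b) = A`.
-/

set_option autoImplicit false
set_option linter.unusedSectionVars false
set_option linter.style.haveILetI false

noncomputable section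

namespace Fermat.Agent.S33x.H1.InstBBasic

open AlgebraicCurve Module IntermediateField IsLocalRing
open Fermat.Agent.Gateway.C0 Fermat.Agent.S34x Fermat.Agent.S34x.C0two Fermat.Agent.S34x.Lattice2
open Fermat.Agent.S33x.H1.InstC1

section twoPole

variable {k : Type*} [Field k] {κ : Type*} [CommRing κ] [Algebra k κ]

/-- **Pole separation** for the place-free pole spaces. -/
theorem twoPole_sep {T Ti : κ} {a b a' b' : ℕ} {f h : κ} (hf : f ∈ twoPole k T Ti 0 b)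
    (hh : h ∈ twoPole k T Ti a 0) (hfh : f + h ∈ twoPole k T Ti a' b') :
    f ∈ twoPole k T Ti 0 b' ∧ h ∈ twoPole k T Ti a' 0 := by
  have hf1 : IsIntegral (Algebra.adjoin k {T}) f := by
    have := hf.1
    rwa [pow_zero, one_mul] at this
  have hh2 : IsIntegral (Algebra.adjoin k {Ti}) h := by
    have := hh.2
    rwa [pow_zero, one_mul] at this
  refine ⟨⟨hf.1, ?_⟩, ⟨?_, hh.2⟩⟩
  · have e : Ti ^ b' * f = Ti ^ b' * (f + h) - Ti ^ b' * h := by ring
    rw [e]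
    exact hfh.2.sub (((isIntegral_gen Ti).pow b').mul hh2)
  · have e : T ^ a' * h = T ^ a' * (f + h) - T ^ a' * f := by ring
    rw [e]
    exact hfh.1.sub (((isIntegral_gen T).pow a').mul hf1)

end twoPole

section formal

variable {K : Type*} [Field K] {A : ValuationSubring K} {F : Type*} [Field F] [Algebra K F]
  {S : SmallRing F} {k κ : Type*} [Field k] [CommRing κ] [Algebra k κ]
  {R : RedSetup2 A S k κ} (C : ChartCoord R)

/-- **Pole separation**: `(B∞ + B₀) ∩ Lam(a',b') = Lam(0,b') + Lam(a',0)`. -/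
theorem Lam_sep {a b a' b' : ℕ} {f h : F} (hf : f ∈ Lam C 0 b) (hh : h ∈ Lam C a 0)
    (hfh : f + h ∈ Lam C a' b') : f ∈ Lam C 0 b' ∧ h ∈ Lam C a' 0 := by
  obtain ⟨h1, h2⟩ := twoPole_sep hf.1 hh.1 hfh.1
  exact ⟨⟨h1, hf.2⟩, ⟨h2, hh.2⟩⟩

theorem mem_Boo {x : F} : x ∈ Boo C ↔ ∃ b, x ∈ Lam C 0 b := by
  unfold Boo H1Fg.chartU
  rw [Submodule.mem_iSup_of_directed]
  exact Monotone.directed_le fun b b' h => Lam_mono C le_rfl h

theorem mem_Bzero {x : F} : x ∈ Bzero C ↔ ∃ a, x ∈ Lam C a 0 := by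
  unfold Bzero H1Fg.chartU'
  rw [Submodule.mem_iSup_of_directed]
  exact Monotone.directed_le fun a a' h => Lam_mono C h le_rfl

theorem mem_Bx {x : F} : x ∈ Bx C ↔ ∃ a b, x ∈ Lam C a b := by
  unfold Bx H1Fg.chartX
  rw [Submodule.mem_iSup_of_directed]
  · refine exists_congr fun a => ?_
    rw [Submodule.mem_iSup_of_directed]
    exact Monotone.directed_le fun b b' h => Lam_mono C le_rfl h
  · exact Monotone.directed_le fun a a' h =>
      iSup_mono fun b => Lam_mono C h le_rfl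

theorem algebraMap_mem_Lam (c : A) : algebraMap A F c ∈ Lam C 0 0 := by
  rw [Algebra.algebraMap_eq_smul_one]
  exact (Lam C 0 0).smul_mem c (one_mem_Lam C)

/-- the chart ring `B∞` as a subalgebra -/
def BooAlg : Subalgebra A F where
  carrier := {x | ∃ b, x ∈ Lam C 0 b}
  mul_mem' := by
    rintro x y ⟨b, hx⟩ ⟨b', hy⟩
    exact ⟨b + b', by simpa using Lam_mul C hx hy⟩
  add_mem' := by
    rintro x y ⟨b, hx⟩ ⟨b', hy⟩
    exact ⟨max b b', (Lam C 0 (max b b')).add_mem (Lam_mono C le_rfl (le_max_left _ _) hx)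
      (Lam_mono C le_rfl (le_max_right _ _) hy)⟩
  algebraMap_mem' := fun c => ⟨0, algebraMap_mem_Lam C c⟩

/-- the chart ring `B₀` as a subalgebra -/
def BzeroAlg : Subalgebra A F where
  carrier := {x | ∃ a, x ∈ Lam C a 0}
  mul_mem' := by
    rintro x y ⟨a, hx⟩ ⟨a', hy⟩
    exact ⟨a + a', by simpa using Lam_mul C hx hy⟩
  add_mem' := by
    rintro x y ⟨a, hx⟩ ⟨a', hy⟩
    exact ⟨max a a', (Lam C (max a a') 0).add_mem (Lam_mono C (le_max_left _ _) le_rfl hx)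
      (Lam_mono C (le_max_right _ _) le_rfl hy)⟩
  algebraMap_mem' := fun c => ⟨0, algebraMap_mem_Lam C c⟩

/-- the overlap ring `Bx` as a subalgebra -/
def BxAlg : Subalgebra A F where
  carrier := {x | ∃ a b, x ∈ Lam C a b}
  mul_mem' := by
    rintro x y ⟨a, b, hx⟩ ⟨a', b', hy⟩
    exact ⟨a + a', b + b', Lam_mul C hx hy⟩
  add_mem' := by
    rintro x y ⟨a, b, hx⟩ ⟨a', b', hy⟩
    exact ⟨max a a', max b b',
      (Lam C (max a a') (max b b')).add_mem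
        (Lam_mono C (le_max_left _ _) (le_max_left _ _) hx)
        (Lam_mono C (le_max_right _ _) (le_max_right _ _) hy)⟩
  algebraMap_mem' := fun c => ⟨0, 0, algebraMap_mem_Lam C c⟩

theorem mem_BooAlg {x : F} : x ∈ BooAlg C ↔ ∃ b, x ∈ Lam C 0 b := Iff.rfl

theorem mem_BzeroAlg {x : F} : x ∈ BzeroAlg C ↔ ∃ a, x ∈ Lam C a 0 := Iff.rfl

theorem mem_BxAlg {x : F} : x ∈ BxAlg C ↔ ∃ a b, x ∈ Lam C a b := Iff.rfl

theorem BooAlg_toSubmodule : Subalgebra.toSubmodule (BooAlg C) = Boo C := by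
  ext x
  rw [Subalgebra.mem_toSubmodule, mem_BooAlg, mem_Boo]

theorem BzeroAlg_toSubmodule : Subalgebra.toSubmodule (BzeroAlg C) = Bzero C := by
  ext x
  rw [Subalgebra.mem_toSubmodule, mem_BzeroAlg, mem_Bzero]

theorem BxAlg_toSubmodule : Subalgebra.toSubmodule (BxAlg C) = Bx C := by
  ext x
  rw [Subalgebra.mem_toSubmodule, mem_BxAlg, mem_Bx]

theorem BooAlg_le_BxAlg : BooAlg C ≤ BxAlg C := fun _ ⟨b, hx⟩ => ⟨0, b, hx⟩

theorem BzeroAlg_le_BxAlg : BzeroAlg C ≤ BxAlg C := fun _ ⟨a, hx⟩ => ⟨a, 0, hx⟩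

theorem BxAlg_le_O {x : F} (hx : x ∈ BxAlg C) : x ∈ S.O := by
  obtain ⟨a, b, hx⟩ := hx
  exact hx.2

/-- (c2) **`ker res ∩ Lam(a,b) = 𝔪 Lam(a,b)`** (`S` is unramified over `A`; `Lam` is saturated). -/
theorem exists_smul_of_res_eq_zero {a b : ℕ} {x : F} (hx : x ∈ Lam C a b)
    (h0 : R.res ⟨x, hx.2⟩ = 0) : ∃ ϖ ∈ maximalIdeal A, ∃ y ∈ Lam C a b, x = ϖ • y := by
  have hsmall : Small S x := (R.small_iff hx.2).mpr h0
  obtain ⟨ϖ, hϖ, y, hy, hxy⟩ := R.base.unram x hsmall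
  by_cases hϖ0 : ϖ = 0
  · refine ⟨ϖ, hϖ, 0, (Lam C a b).zero_mem, ?_⟩
    rw [hxy, hϖ0, zero_smul, smul_zero]
  · refine ⟨ϖ, hϖ, y, ⟨?_, hy⟩, hxy⟩
    have h1 : y = ((ϖ : K))⁻¹ • x := by
      rw [hxy]
      have h3 : ϖ • y = (ϖ : K) • y := rfl
      rw [h3, smul_smul, inv_mul_cancel₀ (by exact_mod_cast hϖ0), one_smul]
    rw [h1]
    exact (C.LN a b).smul_mem _ hx.1

/-- conversely, `𝔪 S.O` reduces to `0` -/
theorem res_smul_eq_zero {ϖ : A} (hϖ : ϖ ∈ maximalIdeal A) {y : F} (hy : y ∈ S.O) :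
    R.res ⟨ϖ • y, R.smul_mem_O ϖ hy⟩ = 0 := by
  rw [R.res_smul ϖ hy, (R.π_eq_zero_iff ϖ).mpr hϖ, zero_smul]

/-- `K ∩ S.O = A` -/
theorem mem_of_algebraMap_mem_O [Nontrivial κ] (R : RedSetup2 A S k κ) {c : K}
    (hc : algebraMap K F c ∈ S.O) : c ∈ A := by
  by_contra hcA
  have hci : c⁻¹ ∈ A := (A.mem_or_inv_mem c).resolve_left hcA
  have hc0 : c ≠ 0 := by
    rintro rfl
    exact hcA A.zero_mem
  have hcm : (⟨c⁻¹, hci⟩ : A) ∈ maximalIdeal A := by
    rw [mem_maximalIdeal, mem_nonunits_iff]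
    intro hu
    apply hcA
    have := (A.valuation_eq_one_iff ⟨c⁻¹, hci⟩).mp hu
    have h2 : A.valuation c = 1 := by
      have h3 : A.valuation (c⁻¹) = 1 := this
      rw [map_inv₀, inv_eq_one] at h3
      exact h3
    exact (A.valuation_le_one_iff c).mp h2.le
  have h1 : R.res ⟨(⟨c⁻¹, hci⟩ : A) • algebraMap K F c,
      R.smul_mem_O _ hc⟩ = 0 := res_smul_eq_zero (R := R) hcm hc
  have h2 : (⟨c⁻¹, hci⟩ : A) • algebraMap K F c = 1 := by
    rw [R.smul_eq]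
    show algebraMap K F c⁻¹ * algebraMap K F c = 1
    rw [← map_mul, inv_mul_cancel₀ hc0, map_one]
  have h3 : R.res ⟨(⟨c⁻¹, hci⟩ : A) • algebraMap K F c, R.smul_mem_O _ hc⟩ = 1 := by
    have : (⟨(⟨c⁻¹, hci⟩ : A) • algebraMap K F c, R.smul_mem_O _ hc⟩ : S.O) = 1 :=
      Subtype.ext h2
    rw [this, map_one]
  rw [h1] at h3
  exact zero_ne_one h3

end formal

section main

variable {K : Type*} [Field K] [IsAlgClosed K] [CharZero K] {A : ValuationSubring K}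
  {F : Type*} [Field F] [Algebra K F] {S : SmallRing F}
  {k κ : Type*} [Field k] [CommRing κ] [Algebra k κ] [Nontrivial κ]
  {R : RedSetup2 A S k κ} (C : ChartCoord R)
  (ht : Transcendental K C.t) [FiniteDimensional K⟮C.t⟯ F]

include ht in
/-- `L(0) = K` in the place-free vocabulary -/
theorem exists_algebraMap_of_mem_LN_zero {x : F} (hx : x ∈ C.LN 0 0) :
    ∃ c : K, x = algebraMap K F c := by
  haveI := isSeparable_adjoin_of_charZero (K := K) C.t
  obtain ⟨h1, h2⟩ := hx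
  rw [pow_zero, one_mul] at h1 h2
  exact InstBConst.exists_algebraMap_eq_of_isIntegral ht h1 h2

include ht in
/-- (c3) **`Lam(a,0) ∩ Lam(0,b) = A`**: global functions are constants. -/
theorem exists_algebraMap_of_mem_Lam_inf {a b : ℕ} {x : F} (hx : x ∈ Lam C a 0)
    (hx' : x ∈ Lam C 0 b) : ∃ c : A, x = algebraMap A F c := by
  have h0 : x ∈ Lam C 0 0 := by
    have := Lam_inf C hx hx'
    simpa using this
  obtain ⟨c, rfl⟩ := exists_algebraMap_of_mem_LN_zero C ht h0.1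
  exact ⟨⟨c, mem_of_algebraMap_mem_O R h0.2⟩, rfl⟩

include ht in
/-- (c3) for the chart rings: `B∞ ∩ B₀ = A`. -/
theorem exists_algebraMap_of_mem_Boo_of_mem_Bzero {x : F} (hx : x ∈ BooAlg C)
    (hx' : x ∈ BzeroAlg C) : ∃ c : A, x = algebraMap A F c := by
  obtain ⟨b, hb⟩ := hx
  obtain ⟨a, ha⟩ := hx'
  exact exists_algebraMap_of_mem_Lam_inf C ht ha hb

end main

end Fermat.Agent.S33x.H1.InstBBasic
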