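/-
P-S33 (blueprint v2), dir `S33x/H1`, leaf (H1-b): the ABSTRACT core of (F1).

`A` a local ring, `X` a finite free `A`-module (the lattice `Lam(a,b)`), `N ≤ X` a finitely
generated submodule which is SATURATED modulo the maximal ideal (`N ∩ 𝔪 X ≤ 𝔪 N`).  Then `X ⧸ N`
is a FREE `A`-module of finite rank, and lifts `a_i ∈ X` of a basis give
`X = N + ∑ A a_i` with uniqueness of the coefficients (`exists_lifts`).

For `N = U ⊔ V` (`U = Lam(a,0)`, `V = Lam(0,b)`) the saturation follows from the reduction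
statement (F2) in the lattice form `sat_sup`.

No dimension count, no genus.  Mathlib only.
-/
import Mathlib

set_option autoImplicit false

namespace Fermat.Agent.S33x.H1.FreeQuot

open IsLocalRing TensorProduct

variable {A : Type*} [CommRing A] [IsLocalRing A]
variable {X : Type*} [AddCommGroup X] [Module A X]

/-- **Free quotient**: a finitely generated submodule of a finite free module over a local ring
which is saturated modulo the maximal ideal has a free quotient. -/
theorem free_quotient [Module.Finite A X] [Module.Free A X] (N : Submodule A X) (hN : N.FG)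
    (hsat : ∀ x ∈ N, x ∈ maximalIdeal A • (⊤ : Submodule A X) → x ∈ maximalIdeal A • N) :
    Module.Free A (X ⧸ N) := by
  haveI : Module.Finite A N := Module.Finite.iff_fg.mpr hN
  refine Module.free_of_lTensor_residueField_injective N.subtype N.mkQ
    (Submodule.mkQ_surjective N) (LinearMap.exact_subtype_mkQ N) ?_
  rw [injective_iff_map_eq_zero]
  intro z hz
  obtain ⟨y, rfl⟩ := TensorProduct.mk_surjective A N (ResidueField A)
    Ideal.Quotient.mk_surjective z
  have h1 : (TensorProduct.mk A (ResidueField A) X 1) (y : X) = 0 := by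
    have := hz
    simpa using this
  have h2 : (y : X) ∈ maximalIdeal A • (⊤ : Submodule A X) := by
    rw [← LinearMap.ker_tensorProductMk]
    exact h1
  have h3 : (y : X) ∈ maximalIdeal A • N := hsat _ y.2 h2
  have h4 : y ∈ maximalIdeal A • (⊤ : Submodule A N) := (Submodule.mem_smul_top_iff _ _ y).mpr h3
  rw [← LinearMap.ker_tensorProductMk] at h4
  exact h4

/-- **Lifts of a basis of the quotient**: generation and uniqueness. -/
theorem exists_lifts [Module.Finite A X] [Module.Free A X] (N : Submodule A X) (hN : N.FG)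
    (hsat : ∀ x ∈ N, x ∈ maximalIdeal A • (⊤ : Submodule A X) → x ∈ maximalIdeal A • N) :
    ∃ (n : ℕ) (a : Fin n → X),
      (∀ x : X, ∃ y ∈ N, ∃ s : Fin n → A, x = y + ∑ i, s i • a i) ∧
      (∀ y ∈ N, ∀ s : Fin n → A, y + ∑ i, s i • a i = 0 → s = 0) ∧
      (∀ (c : A) (y : X) (s : Fin n → A), y ∈ N →
        (∃ x : X, y + ∑ i, s i • a i = c • x) → ∀ i, c ∣ s i) := by
  haveI : Module.Free A (X ⧸ N) := free_quotient N hN hsat
  haveI : Module.Finite A (X ⧸ N) := Module.Finite.of_surjective N.mkQ (Submodule.mkQ_surjective N)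
  let b := Module.finBasis A (X ⧸ N)
  choose a ha using fun i => Submodule.mkQ_surjective N (b i)
  have hrepr : ∀ s : Fin _ → A, N.mkQ (∑ i, s i • a i) = ∑ i, s i • b i := by
    intro s
    rw [map_sum]
    refine Finset.sum_congr rfl fun i _ => ?_
    rw [map_smul, ha]
  refine ⟨_, a, ?_, ?_, ?_⟩
  · intro x
    set s : Fin _ → A := fun i => b.repr (N.mkQ x) i with hs
    have h1 : N.mkQ (x - ∑ i, s i • a i) = 0 := by
      rw [map_sub, hrepr, hs]
      rw [b.sum_repr, sub_self]
    refine ⟨x - ∑ i, s i • a i, ?_, s, by abel⟩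
    rwa [Submodule.mkQ_apply, Submodule.Quotient.mk_eq_zero] at h1
  · intro y hy s h0
    have h1 : N.mkQ (y + ∑ i, s i • a i) = 0 := by rw [h0, map_zero]
    rw [map_add, hrepr, Submodule.mkQ_apply, (Submodule.Quotient.mk_eq_zero N).mpr hy,
      zero_add] at h1
    have := (Fintype.linearIndependent_iff.mp b.linearIndependent) s h1
    exact funext this
  · rintro c y s hy ⟨x, hx⟩ i
    have h1 : N.mkQ (y + ∑ i, s i • a i) = c • N.mkQ x := by rw [hx, map_smul]
    rw [map_add, hrepr, Submodule.mkQ_apply, (Submodule.Quotient.mk_eq_zero N).mpr hy,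
      zero_add] at h1
    set t : Fin _ → A := fun j => b.repr (N.mkQ x) j with ht
    have h2 : ∑ j, (s j - c * t j) • b j = 0 := by
      simp_rw [sub_smul, mul_smul]
      rw [Finset.sum_sub_distrib, h1, ← Finset.smul_sum, ht, b.sum_repr, sub_self]
    have h3 := (Fintype.linearIndependent_iff.mp b.linearIndependent) _ h2 i
    exact ⟨t i, (sub_eq_zero.mp h3)⟩

/-- The saturation of `U ⊔ V` from the reduction statement (F2) in lattice form. -/
theorem sat_sup (U V : Submodule A X)
    (h : ∀ u ∈ U, ∀ v ∈ V, u + v ∈ maximalIdeal A • (⊤ : Submodule A X) →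
      ∃ w ∈ U ⊓ V, u - w ∈ maximalIdeal A • U ∧ v + w ∈ maximalIdeal A • V) :
    ∀ x ∈ U ⊔ V, x ∈ maximalIdeal A • (⊤ : Submodule A X) → x ∈ maximalIdeal A • (U ⊔ V) := by
  intro x hx hxm
  obtain ⟨u, hu, v, hv, rfl⟩ := Submodule.mem_sup.mp hx
  obtain ⟨w, -, h1, h2⟩ := h u hu v hv hxm
  have : u + v = (u - w) + (v + w) := by abel
  rw [this]
  exact Submodule.add_mem _ (Submodule.smul_mono le_rfl le_sup_left h1)
    (Submodule.smul_mono le_rfl le_sup_right h2)

/-- **(F1), abstract form**: `X = U + V + ∑ A a_i` with unique coefficients `s_i`, saturated. -/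
theorem exists_lifts_sup [Module.Finite A X] [Module.Free A X] (U V : Submodule A X)
    (hU : U.FG) (hV : V.FG)
    (h : ∀ u ∈ U, ∀ v ∈ V, u + v ∈ maximalIdeal A • (⊤ : Submodule A X) →
      ∃ w ∈ U ⊓ V, u - w ∈ maximalIdeal A • U ∧ v + w ∈ maximalIdeal A • V) :
    ∃ (n : ℕ) (a : Fin n → X),
      (∀ x : X, ∃ u ∈ U, ∃ v ∈ V, ∃ s : Fin n → A, x = u + v + ∑ i, s i • a i) ∧
      (∀ u ∈ U, ∀ v ∈ V, ∀ s : Fin n → A, u + v + ∑ i, s i • a i = 0 → s = 0) ∧
      (∀ (c : A), ∀ u ∈ U, ∀ v ∈ V, ∀ s : Fin n → A,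
        (∃ x : X, u + v + ∑ i, s i • a i = c • x) → ∀ i, c ∣ s i) := by
  obtain ⟨n, a, h1, h2, h3⟩ := exists_lifts (U ⊔ V) (hU.sup hV) (sat_sup U V h)
  refine ⟨n, a, ?_, ?_, ?_⟩
  · intro x
    obtain ⟨y, hy, s, rfl⟩ := h1 x
    obtain ⟨u, hu, v, hv, rfl⟩ := Submodule.mem_sup.mp hy
    exact ⟨u, hu, v, hv, s, rfl⟩
  · intro u hu v hv s h0
    exact h2 (u + v) (Submodule.add_mem_sup hu hv) s h0
  · intro c u hu v hv s hx
    exact h3 c (u + v) s (Submodule.add_mem_sup hu hv) hx

end Fermat.Agent.S33x.H1.FreeQuot
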