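/-
P-S33 (blueprint v2), dir `S33x/H1`, leaf (H1-c5, abstract part): ASSEMBLY of the literal export
`Cech.OfDirectSum.DirectSum Bx Boo B0 a` of block H1 from level-wise data.

`Lam : ℕ → ℕ → Submodule A F` a doubly filtered family of lattices (`Lam a b = L(a C₀ + b C∞) ∩ O`),
monotone, with `Lam a b ∩ Lam a' b' = Lam (min a a') (min b b')` and `Lam 0 0 = A · 1`;
`Boo = ⋃ Lam 0 c`, `B0 = ⋃ Lam a 0`, `Bx = ⋃ Lam a c`.  Given ONE level `b₁` with

* `Lam a c ≤ Lam b₁ b₁ ⊔ Lam 0 c ⊔ Lam a 0` for all `a, c` (the truncated Cech `H¹` stabilises),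
* `Lam b₁ b₁` finite free, `Lam b₁ 0`, `Lam 0 b₁` finitely generated,
* the saturation statement (sat) for `U = Lam b₁ 0`, `V = Lam 0 b₁` inside `X = Lam b₁ b₁`
  (a consequence of the connectedness statement (F2)),

there are `a₁, …, a_g ∈ Lam b₁ b₁` with `Bx = Boo + B0 + ∑ A aᵢ`, uniqueness of the coefficients of the
`aᵢ`, and `Boo`-component constant whenever the sum vanishes.

Imports only `H1/FreeQuot` (the abstract (F1)-core) and `Cech/OfDirectSum` (the interface structure).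
-/
import Fermat.Agent.S33x.H1.FreeQuot
import Fermat.Agent.S33x.Cech.OfDirectSum

set_option autoImplicit false

namespace Fermat.Agent.S33x.H1.Assemble

open IsLocalRing Fermat.Agent.S33x.Cech.OfDirectSum

section relative

variable {A : Type*} [CommRing A]
variable {M : Type*} [AddCommGroup M] [Module A M]

/-- membership in `I • (U.comap X.subtype)` read in the ambient module -/
theorem mem_smul_comap_iff (I : Ideal A) (X U : Submodule A M) (hUX : U ≤ X) (x : X) :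
    x ∈ I • (U.comap X.subtype) ↔ (x : M) ∈ I • U := by
  have hmap : (U.comap X.subtype).map X.subtype = U := by
    rw [Submodule.map_comap_subtype]
    exact inf_eq_right.mpr hUX
  have h1 : (I • (U.comap X.subtype)).map X.subtype = I • U := by
    rw [Submodule.map_smul'', hmap]
  constructor
  · intro hx
    rw [← h1]
    exact Submodule.mem_map_of_mem hx
  · intro hx
    rw [← h1] at hx
    obtain ⟨y, hy, hyx⟩ := hx
    have : y = x := Subtype.ext hyx
    exact this ▸ hy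

/-- **Relative form of `FreeQuot.exists_lifts_sup`**: `U, V ≤ X` submodules of an ambient module, `X`
finite free, `U`, `V` finitely generated, (sat) stated in the ambient module. -/
theorem exists_lifts_sup_rel [IsLocalRing A] (X U V : Submodule A M) (hUX : U ≤ X) (hVX : V ≤ X)
    [Module.Finite A X] [Module.Free A X] (hU : U.FG) (hV : V.FG)
    (hsat : ∀ u ∈ U, ∀ v ∈ V, u + v ∈ maximalIdeal A • X →
      ∃ w, w ∈ U ∧ w ∈ V ∧ u - w ∈ maximalIdeal A • U ∧ v + w ∈ maximalIdeal A • V) :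
    ∃ (n : ℕ) (a : Fin n → M), (∀ i, a i ∈ X) ∧
      (∀ x ∈ X, ∃ u ∈ U, ∃ v ∈ V, ∃ s : Fin n → A, x = u + v + ∑ i, s i • a i) ∧
      (∀ u ∈ U, ∀ v ∈ V, ∀ s : Fin n → A, u + v + ∑ i, s i • a i = 0 → s = 0) := by
  set U' : Submodule A X := U.comap X.subtype with hU'
  set V' : Submodule A X := V.comap X.subtype with hV'
  have hmapU : U'.map X.subtype = U := by
    rw [hU', Submodule.map_comap_subtype]
    exact inf_eq_right.mpr hUX
  have hmapV : V'.map X.subtype = V := by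
    rw [hV', Submodule.map_comap_subtype]
    exact inf_eq_right.mpr hVX
  have hU'fg : U'.FG :=
    Submodule.fg_of_fg_map_injective X.subtype X.injective_subtype (hmapU.symm ▸ hU)
  have hV'fg : V'.FG :=
    Submodule.fg_of_fg_map_injective X.subtype X.injective_subtype (hmapV.symm ▸ hV)
  have hsat' : ∀ u ∈ U', ∀ v ∈ V', u + v ∈ maximalIdeal A • (⊤ : Submodule A X) →
      ∃ w ∈ U' ⊓ V', u - w ∈ maximalIdeal A • U' ∧ v + w ∈ maximalIdeal A • V' := by
    intro u hu v hv huv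
    have huv' : ((u + v : X) : M) ∈ maximalIdeal A • X :=
      (Submodule.mem_smul_top_iff _ _ _).mp huv
    obtain ⟨w, hwU, hwV, h1, h2⟩ := hsat u hu v hv (by simpa using huv')
    refine ⟨⟨w, hUX hwU⟩, ⟨hwU, hwV⟩, ?_, ?_⟩
    · rw [hU', mem_smul_comap_iff _ X U hUX]
      simpa using h1
    · rw [hV', mem_smul_comap_iff _ X V hVX]
      simpa using h2
  obtain ⟨n, a, hgen, huniq, -⟩ := FreeQuot.exists_lifts_sup U' V' hU'fg hV'fg hsat'
  have hsum : ∀ s : Fin n → A, ((∑ i, s i • a i : X) : M) = ∑ i, s i • (a i : M) := by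
    intro s
    simp
  refine ⟨n, fun i => (a i : M), fun i => (a i).2, ?_, ?_⟩
  · intro x hx
    obtain ⟨u, hu, v, hv, s, hs⟩ := hgen ⟨x, hx⟩
    refine ⟨u, hu, v, hv, s, ?_⟩
    have := congrArg (Subtype.val) hs
    rw [Submodule.coe_add, Submodule.coe_add, hsum] at this
    exact this
  · intro u hu v hv s hs
    refine huniq ⟨u, hUX hu⟩ hu ⟨v, hVX hv⟩ hv s ?_
    apply Subtype.ext
    rw [Submodule.coe_add, Submodule.coe_add, hsum]
    exact hs

end relative

section free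

variable {A : Type*} [CommRing A] [IsDomain A] [ValuationRing A]
variable {M : Type*} [AddCommGroup M] [Module A M] [NoZeroSMulDivisors A M]

/-- a finitely generated submodule of a torsion-free module over a valuation domain is free -/
theorem free_of_fg (N : Submodule A M) (hN : N.FG) : Module.Free A N := by
  haveI : Module.Finite A N := Module.Finite.iff_fg.mpr hN
  haveI : Module.Flat A N := by
    rw [Module.Flat.flat_iff_torsion_eq_bot_of_isBezout]
    rw [Submodule.eq_bot_iff]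
    intro x hx
    rw [Submodule.mem_torsion_iff] at hx
    obtain ⟨c, hc⟩ := hx
    have hc' : (c : A) • x = 0 := hc
    rcases smul_eq_zero.mp hc' with h | h
    · exact absurd h (nonZeroDivisors.coe_ne_zero c)
    · exact h
  exact Module.free_of_flat_of_isLocalRing

end free

section assemble

variable {A : Type*} [CommRing A] [IsLocalRing A] {F : Type*} [Field F] [Algebra A F]

/-- **Assembly of the export of block H1.** -/
theorem directSum_of_levels (Lam : ℕ → ℕ → Submodule A F)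
    (hmono : ∀ a b a' b', a ≤ a' → b ≤ b' → Lam a b ≤ Lam a' b')
    (hinf : ∀ a b a' b' x, x ∈ Lam a b → x ∈ Lam a' b' → x ∈ Lam (min a a') (min b b'))
    (hconst : ∀ x ∈ Lam 0 0, ∃ α : A, x = algebraMap A F α)
    (Bx Boo B0 : Subalgebra A F)
    (hBoo : ∀ x, x ∈ Boo ↔ ∃ c, x ∈ Lam 0 c)
    (hB0 : ∀ x, x ∈ B0 ↔ ∃ a, x ∈ Lam a 0)
    (hBx : ∀ x, x ∈ Bx ↔ ∃ a c, x ∈ Lam a c)
    (b₁ : ℕ) (h3 : ∀ a c, Lam a c ≤ Lam b₁ b₁ ⊔ Lam 0 c ⊔ Lam a 0)
    [Module.Finite A (Lam b₁ b₁)] [Module.Free A (Lam b₁ b₁)]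
    (hU : (Lam b₁ 0).FG) (hV : (Lam 0 b₁).FG)
    (hsat : ∀ u ∈ Lam b₁ 0, ∀ v ∈ Lam 0 b₁, u + v ∈ maximalIdeal A • Lam b₁ b₁ →
      ∃ w, w ∈ Lam b₁ 0 ∧ w ∈ Lam 0 b₁ ∧ u - w ∈ maximalIdeal A • Lam b₁ 0 ∧
        v + w ∈ maximalIdeal A • Lam 0 b₁) :
    ∃ (g : ℕ) (a : Fin g → F), (∀ i, a i ∈ Lam b₁ b₁) ∧ DirectSum Bx Boo B0 a := by
  obtain ⟨g, a, haX, hgen, huniq⟩ := exists_lifts_sup_rel (Lam b₁ b₁) (Lam b₁ 0) (Lam 0 b₁)
    (hmono _ _ _ _ le_rfl (Nat.zero_le _)) (hmono _ _ _ _ (Nat.zero_le _) le_rfl) hU hV hsat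
  refine ⟨g, a, haX, ?_⟩
  have hsumX : ∀ s : Fin g → A, ∑ i, s i • a i ∈ Lam b₁ b₁ := fun s =>
    Submodule.sum_mem _ fun i _ => Submodule.smul_mem _ _ (haX i)
  refine ⟨?_, ?_, ?_, ?_, ?_⟩
  · intro x hx
    obtain ⟨c, hc⟩ := (hBoo x).mp hx
    exact (hBx x).mpr ⟨0, c, hc⟩
  · intro x hx
    obtain ⟨c, hc⟩ := (hB0 x).mp hx
    exact (hBx x).mpr ⟨c, 0, hc⟩
  · intro i
    exact (hBx _).mpr ⟨b₁, b₁, haX i⟩
  · -- generation
    intro x hx
    obtain ⟨p, c, hpc⟩ := (hBx x).mp hx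
    have hx3 := h3 p c hpc
    obtain ⟨y, hy, h, hh, rfl⟩ := Submodule.mem_sup.mp hx3
    obtain ⟨x₀, hx₀, f, hf, rfl⟩ := Submodule.mem_sup.mp hy
    obtain ⟨u, hu, v, hv, s, hs⟩ := hgen x₀ hx₀
    refine ⟨f + v, ?_, h + u, ?_, s, ?_⟩
    · exact Boo.add_mem ((hBoo f).mpr ⟨c, hf⟩) ((hBoo v).mpr ⟨b₁, hv⟩)
    · exact B0.add_mem ((hB0 h).mpr ⟨p, hh⟩) ((hB0 u).mpr ⟨b₁, hu⟩)
    · rw [hs]
      abel
  · -- uniqueness
    intro f hf h hh s hrel
    obtain ⟨c, hc⟩ := (hBoo f).mp hf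
    obtain ⟨p, hp⟩ := (hB0 h).mp hh
    -- `f + h ∈ Lam b₁ b₁`
    have hy : f + h ∈ Lam b₁ b₁ := by
      have : f + h = -∑ i, s i • a i := by
        rw [eq_neg_iff_add_eq_zero]
        exact hrel
      rw [this]
      exact Submodule.neg_mem _ (hsumX s)
    -- `f ∈ Lam 0 b₁`
    have hf1 : f ∈ Lam 0 b₁ := by
      have h1 : f ∈ Lam (max p b₁) b₁ := by
        have : f = (f + h) - h := by abel
        rw [this]
        exact Submodule.sub_mem _ (hmono _ _ _ _ (le_max_right _ _) le_rfl hy)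
          (hmono _ _ _ _ (le_max_left _ _) (Nat.zero_le _) hp)
      have h2 := hinf _ _ _ _ f hc h1
      rw [Nat.zero_min] at h2
      exact hmono _ _ _ _ le_rfl (min_le_right _ _) h2
    -- `h ∈ Lam b₁ 0`
    have hh1 : h ∈ Lam b₁ 0 := by
      have h1 : h ∈ Lam b₁ (max c b₁) := by
        have : h = (f + h) - f := by abel
        rw [this]
        exact Submodule.sub_mem _ (hmono _ _ _ _ le_rfl (le_max_right _ _) hy)
          (hmono _ _ _ _ (Nat.zero_le _) (le_max_left _ _) hc)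
      have h2 := hinf _ _ _ _ h hp h1
      rw [Nat.zero_min] at h2
      exact hmono _ _ _ _ (min_le_right _ _) le_rfl h2
    have hs0 : s = 0 := huniq h hh1 f hf1 s (by rw [add_comm h f]; exact hrel)
    refine ⟨hs0, ?_⟩
    have hfh : f + h = 0 := by
      rw [hs0] at hrel
      simpa using hrel
    have hfeq : f = -h := eq_neg_of_add_eq_zero_left hfh
    have hf2 : f ∈ Lam b₁ 0 := hfeq ▸ Submodule.neg_mem _ hh1
    have hf0 := hinf _ _ _ _ f hf1 hf2
    rw [Nat.zero_min, Nat.min_zero] at hf0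
    exact hconst f hf0

end assemble

end Fermat.Agent.S33x.H1.Assemble
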