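import Fermat.Agent.S33x.H1.InstSat
import Fermat.Agent.S33x.H1.Assemble

/-!
# P-S33 (H1-c5): FINAL EXPORT of block H1 on the two-chart lattice system (helper50)

`R : RedSetup2 A S k (κ₁ × κ₂)`, `C : Lattice2.ChartCoord R`, `Lam C a b = L(a C₀ + b C∞) ∩ S.O`
(`S33x/H1/InstC1`), chart rings `BxAlg C`, `BooAlg C`, `BzeroAlg C : Subalgebra A F`
(`S33x/H1/InstC4`).  Under the hypotheses of `S34x/Lattice2/AssembleCounts` (`ht`, `hDt`, `hcart`,
`hPfin`, `hgen`) and `hP00 : P(0,0) = k × k`: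

* `free_Lam`, `finite_Lam`: the lattices `Lam C a b` are finite free `A`-modules;
* `exists_directSum`: **(F1)** there are `b₁`, `g` and `a₁, …, a_g ∈ Lam C b₁ b₁` with
  `Cech.OfDirectSum.DirectSum (BxAlg C) (BooAlg C) (BzeroAlg C) a`
  (instance of `H1/Assemble.directSum_of_levels`).
-/

set_option autoImplicit false
set_option linter.unusedSectionVars false
set_option linter.style.haveILetI false

noncomputable section

namespace Fermat.Agent.S33x.H1.Inst

open AlgebraicCurve Module IntermediateField IsLocalRing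
open Fermat.Agent.Gateway.C0 Fermat.Agent.S34x Fermat.Agent.S34x.C0two Fermat.Agent.S34x.Lattice2
open Fermat.Agent.S33x.H1.InstC1 Fermat.Agent.S33x.H1.InstC2 Fermat.Agent.S33x.H1.InstC4
open Fermat.Agent.S33x.H1.InstSat

section main

variable {K : Type*} [Field K] [IsAlgClosed K] [CharZero K] {A : ValuationSubring K}
  {F : Type*} [Field F] [Algebra K F] {S : SmallRing F}
  {k κ₁ κ₂ : Type*} [Field k] [CommRing κ₁] [CommRing κ₂] [Algebra k κ₁] [Algebra k κ₂]
  [Nontrivial κ₁] [Nontrivial κ₂]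
  {R : RedSetup2 A S k (κ₁ × κ₂)} (C : ChartCoord R)
  (ht : Transcendental K C.t) [FiniteDimensional K⟮C.t⟯ F]
  {Dt : Divisor K F} (hDt : ∀ v : Place K F, Dt v = v.ord C.t)
  (hcart : ∀ V : Submodule K F, FiniteDimensional K V → (R.lat V).FG)
  [hPfin : ∀ b, FiniteDimensional k (C.Pk 0 b)] {b₀ : ℕ}
  (hgen : ∀ b, b₀ ≤ b → ∀ x ∈ C.Pk 0 (b + 1), ∃ y ∈ C.Pk 0 b, ∃ z ∈ C.Pk 0 b, x = y + C.T * z)
  (hP00 : ∀ y ∈ C.Pk 0 0, ∃ c₁ c₂ : k, y = (algebraMap k κ₁ c₁, algebraMap k κ₂ c₂))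

include ht hDt hcart in
theorem finite_Lam (a b : ℕ) : Module.Finite A (Lam C a b) :=
  Module.Finite.iff_fg.mpr (fg_Lam C ht hDt hcart a b)

include ht hDt hcart in
theorem free_Lam (a b : ℕ) : Module.Free A (Lam C a b) := by
  haveI := finite_Lam C ht hDt hcart a b
  haveI : Module.Flat A (Lam C a b) :=
    Module.Flat.flat_iff_torsion_eq_bot_of_isBezout.mpr
      (Submodule.isTorsionFree_iff_torsion_eq_bot.mp inferInstance)
  exact Module.free_of_flat_of_isLocalRing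

include ht hDt hcart hgen hP00 in
/-- **(F1), final export of block H1**: the Cech direct sum decomposition
`Bx = B∞ + B₀ + ⊕ A aᵢ` of the two-chart lattice system, with the `aᵢ` at one level `b₁`. -/
theorem exists_directSum : ∃ (b₁ g : ℕ) (a : Fin g → F), (∀ i, a i ∈ Lam C b₁ b₁) ∧
    Cech.OfDirectSum.DirectSum (BxAlg C) (BooAlg C) (BzeroAlg C) a := by
  obtain ⟨b₁, h3⟩ := exists_le_sup_three C ht hDt hcart hgen
  haveI := finite_Lam C ht hDt hcart b₁ b₁
  haveI := free_Lam C ht hDt hcart b₁ b₁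
  obtain ⟨g, a, ha, H⟩ := Assemble.directSum_of_levels (Lam C)
    (fun a b a' b' h h' => Lam_mono C h h')
    (fun a b a' b' x hx hx' => Lam_inf C hx hx')
    (fun x hx => exists_eq_algebraMap_of_mem_Lam_zero C ht hDt hx)
    (BxAlg C) (BooAlg C) (BzeroAlg C)
    (fun x => mem_BooAlg C) (fun x => mem_BzeroAlg C) (fun x => mem_BxAlg' C)
    b₁ h3 (fg_Lam C ht hDt hcart b₁ 0) (fg_Lam C ht hDt hcart 0 b₁)
    (sat_prod C ht hDt hcart hgen hP00 b₁ b₁)
  exact ⟨b₁, g, a, ha, H⟩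

end main

end Fermat.Agent.S33x.H1.Inst
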