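import Fermat.Agent.S33x.H1.InstBF2
import Fermat.Agent.S33x.H1.Assemble
import Fermat.Agent.S34x.Lattice2.AssembleProd

/-!
# P-S33 (H1-c), second (helper26): (c5) = (F1), the export of block H1

`R : RedSetup2 A S k (κ₁ × κ₂)`, `C : ChartCoord R`; `Lam`, `BooAlg`, `BzeroAlg`, `BxAlg` as in
`InstC1` / `InstBBasic`.  Under the hypotheses of `InstC1` (graded Nakayama inputs `hcart`, `hgen`)
and `hconst : Pk 0 0 ⊆ k × k`:

* `sat_levels` : the saturation statement (sat) of `Assemble.directSum_of_levels` at every level;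
* `exists_directSum` : there are `b₁`, `g` and `a₁, …, a_g ∈ Lam(b₁,b₁)` with
  `Cech.OfDirectSum.DirectSum (BxAlg C) (BooAlg C) (BzeroAlg C) a`, i.e.
  `Bx = B∞ + B₀ + ∑ A aᵢ` with unique `H¹`-coordinates and `B∞ ∩ B₀ = A`;
* `exists_directSum_prod` : the same for `κ = E × E`, `T̄ = (x, x ^ q)` with `hconst`, `hgen`,
  `hPfin` discharged.
-/

set_option autoImplicit false
set_option linter.unusedSectionVars false
set_option linter.style.haveILetI false

noncomputable section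

namespace Fermat.Agent.S33x.H1.InstBF1

open AlgebraicCurve Module IntermediateField IsLocalRing
open Fermat.Agent.Gateway.C0 Fermat.Agent.S34x Fermat.Agent.S34x.C0two Fermat.Agent.S34x.Lattice2
open Fermat.Agent.S33x.H1.InstC1 Fermat.Agent.S33x.H1.InstBBasic Fermat.Agent.S33x.H1.InstBF2
open Fermat.Agent.S33x.Cech.OfDirectSum

section small

variable {K : Type*} [Field K] {A : ValuationSubring K} {F : Type*} [Field F] [Algebra K F]
  {S : SmallRing F} {k κ : Type*} [Field k] [CommRing κ] [Algebra k κ]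
  {R : RedSetup2 A S k κ} (C : ChartCoord R)

/-- elements of `𝔪 Lam(a,b)` are small -/
theorem small_of_mem_smul {a b : ℕ} {z : F} (hz : z ∈ maximalIdeal A • Lam C a b) :
    Small S z := by
  refine Submodule.smul_induction_on hz (fun ϖ hϖ y hy => ?_) (fun x y hx hy => hx.add hy)
  exact R.base.small_smul hϖ hy.2

end small

section F1

variable {K : Type*} [Field K] [IsAlgClosed K] [CharZero K] {A : ValuationSubring K}
  {F : Type*} [Field F] [Algebra K F] {S : SmallRing F}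
  {k κ₁ κ₂ : Type*} [Field k] [CommRing κ₁] [CommRing κ₂] [Algebra k κ₁] [Algebra k κ₂]
  [Nontrivial κ₁] [Nontrivial κ₂]
  {R : RedSetup2 A S k (κ₁ × κ₂)} (C : ChartCoord R)
  (ht : Transcendental K C.t) [FiniteDimensional K⟮C.t⟯ F]
  {Dt : Divisor K F} (hDt : ∀ v : Place K F, Dt v = v.ord C.t)
  (hcart : ∀ V : Submodule K F, FiniteDimensional K V → (R.lat V).FG)
  [hPfin : ∀ b, FiniteDimensional k (C.Pk 0 b)] {b₀ : ℕ}
  (hgen : ∀ b, b₀ ≤ b → ∀ x ∈ C.Pk 0 (b + 1), ∃ y ∈ C.Pk 0 b, ∃ z ∈ C.Pk 0 b, x = y + C.T * z)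
  (hconst : ∀ y ∈ C.Pk 0 0, ∃ c₁ c₂ : k, y = (algebraMap k κ₁ c₁, algebraMap k κ₂ c₂))

include ht hDt hcart hgen hconst in
/-- **(sat)** at every level: `u ∈ Lam(a,0)`, `v ∈ Lam(0,b)`, `u + v ∈ 𝔪 Lam(a',b')` imply
`u - w ∈ 𝔪 Lam(a,0)`, `v + w ∈ 𝔪 Lam(0,b)` for a constant `w`. -/
theorem sat_levels {a b a' b' : ℕ} {u v : F} (hu : u ∈ Lam C a 0) (hv : v ∈ Lam C 0 b)
    (huv : u + v ∈ maximalIdeal A • Lam C a' b') :
    ∃ w, w ∈ Lam C a 0 ∧ w ∈ Lam C 0 b ∧ u - w ∈ maximalIdeal A • Lam C a 0 ∧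
      v + w ∈ maximalIdeal A • Lam C 0 b := by
  have h0 : R.res ⟨u + v, S.O.add_mem hu.2 hv.2⟩ = 0 :=
    (R.small_iff _).mp (small_of_mem_smul C huv)
  obtain ⟨c, hc1, hc2⟩ := exists_const_of_res_add_eq_zero C ht hDt hcart hgen hconst hu hv h0
  have hw0 : algebraMap A F c ∈ Lam C 0 0 := algebraMap_mem_Lam C c
  have hwa : algebraMap A F c ∈ Lam C a 0 := Lam_mono C (Nat.zero_le a) le_rfl hw0
  have hwb : algebraMap A F c ∈ Lam C 0 b := Lam_mono C le_rfl (Nat.zero_le b) hw0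
  refine ⟨algebraMap A F c, hwa, hwb, ?_, ?_⟩
  · obtain ⟨ϖ, hϖ, y, hy, hxy⟩ :=
      exists_smul_of_res_eq_zero C ((Lam C a 0).sub_mem hu hwa) hc1
    rw [hxy]
    exact Submodule.smul_mem_smul hϖ hy
  · obtain ⟨ϖ, hϖ, y, hy, hxy⟩ :=
      exists_smul_of_res_eq_zero C ((Lam C 0 b).add_mem hv hwb) hc2
    rw [hxy]
    exact Submodule.smul_mem_smul hϖ hy

include ht hDt hcart in
theorem free_Lam (a b : ℕ) : Module.Free A (Lam C a b) := by
  haveI : Module.Finite A (Lam C a b) := Module.Finite.iff_fg.mpr (fg_Lam C ht hDt hcart a b)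
  haveI : Module.Flat A (Lam C a b) :=
    Module.Flat.flat_iff_torsion_eq_bot_of_isBezout.mpr
      (Submodule.isTorsionFree_iff_torsion_eq_bot.mp inferInstance)
  exact Module.free_of_flat_of_isLocalRing

include ht hDt hcart hgen hconst in
/-- **(c5) = the export of block H1**: `Bx = B∞ + B₀ + ∑ A aᵢ` with `aᵢ ∈ Lam(b₁,b₁)`, unique
`H¹`-coordinates, and `B∞ ∩ B₀ = A`. -/
theorem exists_directSum :
    ∃ (b₁ g : ℕ) (a : Fin g → F), (∀ i, a i ∈ Lam C b₁ b₁) ∧
      DirectSum (BxAlg C) (BooAlg C) (BzeroAlg C) a := by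
  obtain ⟨b₁, h3⟩ := InstC1.exists_le_sup_three C ht hDt hcart hgen
  haveI : Module.Finite A (Lam C b₁ b₁) :=
    Module.Finite.iff_fg.mpr (fg_Lam C ht hDt hcart b₁ b₁)
  haveI : Module.Free A (Lam C b₁ b₁) := free_Lam C ht hDt hcart b₁ b₁
  obtain ⟨g, a, ha, H⟩ := Assemble.directSum_of_levels (Lam C)
    (fun a b a' b' ha hb => Lam_mono C ha hb)
    (fun a b a' b' x hx hx' => Lam_inf C hx hx')
    (fun x hx => exists_algebraMap_of_mem_Lam_inf C ht (a := 0) (b := 0) hx hx)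
    (BxAlg C) (BooAlg C) (BzeroAlg C) (fun x => mem_BooAlg C) (fun x => mem_BzeroAlg C)
    (fun x => mem_BxAlg C) b₁ h3 (fg_Lam C ht hDt hcart b₁ 0) (fg_Lam C ht hDt hcart 0 b₁)
    (fun u hu v hv huv => sat_levels C ht hDt hcart hgen hconst hu hv huv)
  exact ⟨b₁, g, a, ha, H⟩

end F1

section prod

variable {K : Type*} [Field K] [IsAlgClosed K] [CharZero K] {A : ValuationSubring K}
  {F : Type*} [Field F] [Algebra K F] {S : SmallRing F}
  {k : Type*} [Field k] [IsAlgClosed k] {E : Type*} [Field E] [Algebra k E] {x : E}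
  (hx : Transcendental k x) [FiniteDimensional k⟮x⟯ E] [Algebra.IsSeparable k⟮x⟯ E]
  {q : ℕ} (hq : 0 < q)
  {R : RedSetup2 A S k (E × E)} (C : ChartCoord R) (hT : C.T = (x, x ^ q))
  (ht : Transcendental K C.t) [FiniteDimensional K⟮C.t⟯ F]
  {Dt : Divisor K F} (hDt : ∀ v : Place K F, Dt v = v.ord C.t)
  (hcart : ∀ V : Submodule K F, FiniteDimensional K V → (R.lat V).FG)

include hx hq hT ht hDt hcart in
/-- **(c5) at a two-component special fibre `E × E`, `T̄ = (x, x ^ q)`**: only the cartesian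
property `hcart` remains as a hypothesis. -/
theorem exists_directSum_prod :
    ∃ (b₁ g : ℕ) (a : Fin g → F), (∀ i, a i ∈ Lam C b₁ b₁) ∧
      DirectSum (BxAlg C) (BooAlg C) (BzeroAlg C) a := by
  haveI hPfin : ∀ b, FiniteDimensional k (C.Pk 0 b) :=
    fun b => Inst.CountsInst.finite_Pk hx hq C hT 0 b
  obtain ⟨b₀, hgen⟩ := exists_hgen_prod hx hq C hT
  exact exists_directSum C ht hDt hcart hgen
    (fun y hy => exists_const_of_mem_Pk_zero hx hq C hT hy)

end prod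

end Fermat.Agent.S33x.H1.InstBF1
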