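/-
P-S33 (H1-c), second (helper26): the export of block H1 at the CONCRETE level `M q`.

Mirror of `S33x/L1/OneMq` / `S34x/Inst/TheoremBMq`: for the concrete `RedSetup2` at level `M q`
(`redSetup2 H hA`) and any chart `C` with coordinate `t = alpha t'` (e.g. `TheoremBMq.chart`), the
three chart rings `BooAlg C`, `BzeroAlg C`, `BxAlg C` (subalgebras of the function field
`FL L (M * q)` over the valuation ring `A`) satisfy

  `Bx = Boo + Bzero + sum A a_i`   (`Cech.OfDirectSum.DirectSum`)

with `a_i` in `Lam C b1 b1`, unique `H^1`-coordinates and `Boo cap Bzero = A`.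
No hypothesis is left except the good level facts `Hx` (no `YFacts`, no (N1), no (L2)).
-/
import Fermat.Agent.S34x.Inst.TheoremBMq
import Fermat.Agent.S33x.H1.InstBF1

set_option autoImplicit false
set_option linter.style.haveILetI false
set_option linter.unusedSectionVars false

noncomputable section

namespace Fermat.Agent.S33x.H1.InstBMq

open ModularCurve AlgebraicCurve IntermediateField IsLocalRing Module
open Fermat.Agent.Gateway.Hecke Fermat.Agent.Gateway.ESC
open Fermat.Agent.Gateway.Red Fermat.Agent.Gateway.GoodRed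
open Fermat.Agent.Gateway.GoodRed.ConjFamily
open Fermat.Agent.Gateway.C0
open Fermat.Agent.S34x.TwoVal Fermat.Agent.S34x.C0two Fermat.Agent.S34x.Lattice2
open Fermat.Agent.S34x.Inst.L2 Fermat.Agent.S34x.Inst.IsL2Inst
open Fermat.Agent.S34x.Inst.RedSetupInst Fermat.Agent.S34x.Inst.ElementYRed
open Fermat.Agent.S34x.Inst.ElementYInt Fermat.Agent.S34x.Inst.Charts
open Fermat.Agent.S34x.Inst Fermat.Agent.S34x.Inst.TheoremBMq
open Fermat.Agent.S33x.H1.InstC1 Fermat.Agent.S33x.H1.InstBBasic Fermat.Agent.S33x.H1.InstBF1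
open Fermat.Agent.S33x.Cech.OfDirectSum

attribute [-instance] IsScalarTower.of_algHom

section GenericProd

variable {K : Type*} [Field K] [IsAlgClosed K] [CharZero K] {A : ValuationSubring K}
  {F : Type*} [Field F] [Algebra K F] {S : SmallRing F}
  {k : Type*} [Field k] [IsAlgClosed k] {E : Type*} [Field E] [Algebra k E] {x : E}
  (hx : Transcendental k x) [FiniteDimensional k⟮x⟯ E] [Algebra.IsSeparable k⟮x⟯ E]
  {q : ℕ} (hq : 0 < q)
  {R : RedSetup2 A S k (E × E)} (C : ChartCoord R) (hT : C.T = (x, x ^ q))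
  (ht : Transcendental K C.t) [FiniteDimensional K⟮C.t⟯ F]
  {Dt : Divisor K F} (hDt : ∀ v : Place K F, Dt v = v.ord C.t)
  (hcart : ∀ V : Submodule K F, FiniteDimensional K V → (R.lat V).FG)

include hx hq hT ht hDt hcart in
/-- (sat) at every level for `kappa = E x E`, `T = (x, x ^ q)`. -/
theorem sat_levels_prod {a b a' b' : ℕ} {u v : F} (hu : u ∈ Lam C a 0)
    (hv : v ∈ Lam C 0 b) (huv : u + v ∈ maximalIdeal A • Lam C a' b') :
    ∃ w, w ∈ Lam C a 0 ∧ w ∈ Lam C 0 b ∧ u - w ∈ maximalIdeal A • Lam C a 0 ∧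
      v + w ∈ maximalIdeal A • Lam C 0 b := by
  haveI hPfin : ∀ b, FiniteDimensional k (C.Pk 0 b) :=
    fun b => Fermat.Agent.S34x.Inst.CountsInst.finite_Pk hx hq C hT 0 b
  obtain ⟨b₀, hgen⟩ := exists_hgen_prod hx hq C hT
  exact sat_levels C ht hDt hcart hgen
    (fun y hy => InstBF2.exists_const_of_mem_Pk_zero hx hq C hT hy) hu hv huv

include hx hq hT ht hDt hcart in
/-- the lattices `Lam(a,b)` are finitely generated, for `kappa = E x E`, `T = (x, x ^ q)`. -/
theorem fg_Lam_prod (a b : ℕ) : (Lam C a b).FG := by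
  haveI hPfin : ∀ b, FiniteDimensional k (C.Pk 0 b) :=
    fun b => Fermat.Agent.S34x.Inst.CountsInst.finite_Pk hx hq C hT 0 b
  exact fg_Lam C ht hDt hcart a b

end GenericProd

variable {L : Type} [Field L] [Algebra ℚ L] [IsAlgClosed L] [Algebra.IsAlgebraic ℚ L]
  {A : ValuationSubring L} {k : Type} [Field k] {π : A →+* k} [IsAlgClosed k]
variable {M q : ℕ} [NeZero M] [NeZero q] [Fact q.Prime] [CharP k q]
variable {hdeg : finrankAlong L (heckeAlphaBar L M q) = q + 1} {hq : q.Prime} {hqM : ¬ q ∣ M}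
variable {hrk : ∀ x ∈ maximalIdeal A, ∀ c : A, c ≠ 0 → ∃ j : ℕ, c ∣ x ^ j}
  {hπ : Function.Surjective π}
variable (H : ResidueFacts A π M q hdeg hq hqM hrk hπ) (hA : A.LiesOverPrime q)
  (x : LaurentSeries ℤ) (hx : coeffMap (Int.castRingHom L) x ∈ FBar L M)
  (Hx : GoodLevelFactsT A π M q hπ hqM (tInt M x hx))

section General

variable (C : ChartCoord (redSetup2 H hA)) (hCt : C.t = tA M q x hx)

include Hx hCt hA in
/-- **The export of block H1 at level `M q`** for a chart with coordinate `t = alpha t'`. -/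
theorem exists_directSum_Mq :
    ∃ (b₁ g : ℕ) (a : Fin g → FL L (M * q)), (∀ i, a i ∈ Lam C b₁ b₁) ∧
      DirectSum (BxAlg C) (BooAlg C) (BzeroAlg C) a := by
  haveI : CharZero L := algebraRat.charZero L
  haveI := Hx.finite
  have hqpos : 0 < q := (Fact.out : q.Prime).pos
  -- the `k`-side coordinate
  have hT1 := T_fst_eq H hA x hx Hx C hCt
  have hxtr : Transcendental k C.T.1 := by rw [hT1]; exact Hx.trans_res
  haveI hxfin : FiniteDimensional k⟮C.T.1⟯ (Fk k M) := by rw [hT1]; exact Hx.finite_res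
  haveI hxsep : Algebra.IsSeparable k⟮C.T.1⟯ (Fk k M) := by rw [hT1]; exact Hx.sep_res
  -- the `L`-side coordinate
  have ht : Transcendental L C.t := by
    rw [hCt]; exact Charts.transcendental_tα L M q Hx.trans
  haveI htfin : FiniteDimensional L⟮C.t⟯ (FL L (M * q)) := by
    rw [hCt]; exact finiteDimensional_tA x hx Hx
  exact exists_directSum_prod hxtr hqpos C (T_eq H hA x hx Hx C hCt) ht (Charts.divT_apply ht)
    (fun V hV => cartesian H hA x hx Hx V hV)

set_option synthInstance.maxHeartbeats 400000 in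
include Hx hCt hA in
/-- (sat) at every level, at level `M q`. -/
theorem sat_levels_Mq {a b a' b' : ℕ} {u v : FL L (M * q)} (hu : u ∈ Lam C a 0)
    (hv : v ∈ Lam C 0 b) (huv : u + v ∈ maximalIdeal A • Lam C a' b') :
    ∃ w, w ∈ Lam C a 0 ∧ w ∈ Lam C 0 b ∧ u - w ∈ maximalIdeal A • Lam C a 0 ∧
      v + w ∈ maximalIdeal A • Lam C 0 b := by
  haveI : CharZero L := algebraRat.charZero L
  haveI := Hx.finite
  have hqpos : 0 < q := (Fact.out : q.Prime).pos
  have hT1 := T_fst_eq H hA x hx Hx C hCt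
  have hxtr : Transcendental k C.T.1 := by rw [hT1]; exact Hx.trans_res
  haveI hxfin : FiniteDimensional k⟮C.T.1⟯ (Fk k M) := by rw [hT1]; exact Hx.finite_res
  haveI hxsep : Algebra.IsSeparable k⟮C.T.1⟯ (Fk k M) := by rw [hT1]; exact Hx.sep_res
  have ht : Transcendental L C.t := by
    rw [hCt]; exact Charts.transcendental_tα L M q Hx.trans
  haveI htfin : FiniteDimensional L⟮C.t⟯ (FL L (M * q)) := by
    rw [hCt]; exact finiteDimensional_tA x hx Hx
  exact sat_levels_prod hxtr hqpos C (T_eq H hA x hx Hx C hCt) ht (Charts.divT_apply ht)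
    (fun V hV => cartesian H hA x hx Hx V hV) hu hv huv

include Hx hCt hA in
/-- the lattices `Lam(a,b)` are finitely generated (hence finite free) at level `M q` -/
theorem fg_Lam_Mq (a b : ℕ) : (Lam C a b).FG := by
  haveI : CharZero L := algebraRat.charZero L
  haveI := Hx.finite
  have hqpos : 0 < q := (Fact.out : q.Prime).pos
  have hT1 := T_fst_eq H hA x hx Hx C hCt
  have hxtr : Transcendental k C.T.1 := by rw [hT1]; exact Hx.trans_res
  haveI hxfin : FiniteDimensional k⟮C.T.1⟯ (Fk k M) := by rw [hT1]; exact Hx.finite_res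
  haveI hxsep : Algebra.IsSeparable k⟮C.T.1⟯ (Fk k M) := by rw [hT1]; exact Hx.sep_res
  have ht : Transcendental L C.t := by
    rw [hCt]; exact Charts.transcendental_tα L M q Hx.trans
  haveI htfin : FiniteDimensional L⟮C.t⟯ (FL L (M * q)) := by
    rw [hCt]; exact finiteDimensional_tA x hx Hx
  exact fg_Lam_prod hxtr hqpos C (T_eq H hA x hx Hx C hCt) ht (Charts.divT_apply ht)
    (fun V hV => cartesian H hA x hx Hx V hV) a b

end General

section Chart

include Hx hA in
/-- **The export of block H1 at level `M q`, for the concrete chart `TheoremBMq.chart`.** -/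
theorem exists_directSum_chart :
    ∃ (b₁ g : ℕ) (a : Fin g → FL L (M * q)),
      (∀ i, a i ∈ Lam (chart H hA x hx Hx) b₁ b₁) ∧
      DirectSum (BxAlg (chart H hA x hx Hx)) (BooAlg (chart H hA x hx Hx))
        (BzeroAlg (chart H hA x hx Hx)) a :=
  exists_directSum_Mq H hA x hx Hx (chart H hA x hx Hx) (chart_t H hA x hx Hx)

end Chart

end Fermat.Agent.S33x.H1.InstBMq
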