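/-
P-S33 (H1-c), bridge (helper26): the export of block H1 at the CONCRETE level `M q` for the chart
rings of `S33x/H1/InstC4` (helper50), which are the ones used by Layer 2.

* `BooAlg_eq`, `BzeroAlg_eq`, `BxAlg_eq` : the rings of `InstC4` and of `InstBBasic` coincide;
* `exists_directSum_prod` : `Inst.exists_directSum` (helper50) at `kappa = E x E`, `T = (x, x ^ q)`
  with `hPfin`, `hgen`, `hP00` discharged (only `hcart` left);
* `exists_directSum_Mq`, `exists_directSum_chart` : the same in the variable context of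
  `S34x/Inst/TheoremBMq` (only the good level facts `Hx` left).
-/
import Fermat.Agent.S33x.H1.Inst
import Fermat.Agent.S33x.H1.InstBMq

set_option autoImplicit false
set_option linter.style.haveILetI false
set_option linter.unusedSectionVars false

noncomputable section

namespace Fermat.Agent.S33x.H1.InstBridge

open ModularCurve AlgebraicCurve IntermediateField IsLocalRing Module
open Fermat.Agent.Gateway.Hecke Fermat.Agent.Gateway.ESC
open Fermat.Agent.Gateway.Red Fermat.Agent.Gateway.GoodRed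
open Fermat.Agent.Gateway.GoodRed.ConjFamily
open Fermat.Agent.Gateway.C0
open Fermat.Agent.S34x.TwoVal Fermat.Agent.S34x.C0two Fermat.Agent.S34x.Lattice2
open Fermat.Agent.S34x.Inst.L2 Fermat.Agent.S34x.Inst.IsL2Inst
open Fermat.Agent.S34x.Inst.RedSetupInst Fermat.Agent.S34x.Inst.ElementYRed
open Fermat.Agent.S34x.Inst.ElementYInt Fermat.Agent.S34x.Inst.Charts
open Fermat.Agent.S34x.Inst Fermat.Agent.S34x.Inst.TheoremBMq
open Fermat.Agent.S33x.H1.InstC1
open Fermat.Agent.S33x.Cech.OfDirectSum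

attribute [-instance] IsScalarTower.of_algHom

section eq

variable {K : Type*} [Field K] {A : ValuationSubring K} {F : Type*} [Field F] [Algebra K F]
  {S : SmallRing F} {k κ : Type*} [Field k] [CommRing κ] [Algebra k κ]
  {R : RedSetup2 A S k κ} (C : ChartCoord R)

theorem BooAlg_eq : InstC4.BooAlg C = InstBBasic.BooAlg C := by
  ext x
  rw [InstC4.mem_BooAlg, InstBBasic.mem_BooAlg]

theorem BzeroAlg_eq : InstC4.BzeroAlg C = InstBBasic.BzeroAlg C := by
  ext x
  rw [InstC4.mem_BzeroAlg, InstBBasic.mem_BzeroAlg]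

theorem BxAlg_eq : InstC4.BxAlg C = InstBBasic.BxAlg C := by
  ext x
  rw [InstC4.mem_BxAlg', InstBBasic.mem_BxAlg]

end eq

section GenericProd

variable {K : Type*} [Field K] [IsAlgClosed K] [CharZero K] {A : ValuationSubring K}
  {F : Type*} [Field F] [Algebra K F] {S : SmallRing F}
  {k : Type*} [Field k] [IsAlgClosed k] {E : Type*} [Field E] [Algebra k E] {x : E}
  (hx : Transcendental k x) [FiniteDimensional k⟮x⟯ E] [Algebra.IsSeparable k⟮x⟯ E]
  {q : ℕ} (hq : 0 < q)
  {R : RedSetup2 A S k (E × E)} (C : ChartCoord R) (hT : C.T = (x, x ^ q))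
  (ht : Transcendental K C.t) [FiniteDimensional K⟮C.t⟯ F]
  {Dt : Divisor K F} (hDt : ∀ v : Place K F, Dt v = v.ord C.t)
  (hcart : ∀ V : Submodule K F, FiniteDimensional K V → (R.lat V).FG)

include hx hq hT ht hDt hcart in
/-- `Inst.exists_directSum` at `kappa = E x E`, `T = (x, x ^ q)`: only `hcart` left. -/
theorem exists_directSum_prod :
    ∃ (b₁ g : ℕ) (a : Fin g → F), (∀ i, a i ∈ Lam C b₁ b₁) ∧
      DirectSum (InstC4.BxAlg C) (InstC4.BooAlg C) (InstC4.BzeroAlg C) a := by
  haveI hPfin : ∀ b, FiniteDimensional k (C.Pk 0 b) :=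
    fun b => Fermat.Agent.S34x.Inst.CountsInst.finite_Pk hx hq C hT 0 b
  obtain ⟨b₀, hgen⟩ := exists_hgen_prod hx hq C hT
  exact Inst.exists_directSum C ht hDt hcart hgen
    (fun y hy => InstBF2.exists_const_of_mem_Pk_zero hx hq C hT hy)

end GenericProd

variable {L : Type} [Field L] [Algebra ℚ L] [IsAlgClosed L] [Algebra.IsAlgebraic ℚ L]
  {A : ValuationSubring L} {k : Type} [Field k] {π : A →+* k} [IsAlgClosed k]
variable {M q : ℕ} [NeZero M] [NeZero q] [Fact q.Prime] [CharP k q]
variable {hdeg : finrankAlong L (heckeAlphaBar L M q) = q + 1} {hq : q.Prime} {hqM : ¬ q ∣ M}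
variable {hrk : ∀ x ∈ maximalIdeal A, ∀ c : A, c ≠ 0 → ∃ j : ℕ, c ∣ x ^ j}
  {hπ : Function.Surjective π}
variable (H : ResidueFacts A π M q hdeg hq hqM hrk hπ) (hA : A.LiesOverPrime q)
  (x : LaurentSeries ℤ) (hx : coeffMap (Int.castRingHom L) x ∈ FBar L M)
  (Hx : GoodLevelFactsT A π M q hπ hqM (tInt M x hx))

section General

variable (C : ChartCoord (redSetup2 H hA)) (hCt : C.t = tA M q x hx)

include Hx hCt hA in
/-- **The export of block H1 at level `M q`** for the chart rings of `InstC4`. -/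
theorem exists_directSum_Mq :
    ∃ (b₁ g : ℕ) (a : Fin g → FL L (M * q)), (∀ i, a i ∈ Lam C b₁ b₁) ∧
      DirectSum (InstC4.BxAlg C) (InstC4.BooAlg C) (InstC4.BzeroAlg C) a := by
  rw [BxAlg_eq, BooAlg_eq, BzeroAlg_eq]
  exact InstBMq.exists_directSum_Mq H hA x hx Hx C hCt

end General

section Chart

include Hx hA in
/-- **The export of block H1 at level `M q`**, chart rings of `InstC4`, for the concrete chart
`TheoremBMq.chart`. -/
theorem exists_directSum_chart :
    ∃ (b₁ g : ℕ) (a : Fin g → FL L (M * q)),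
      (∀ i, a i ∈ Lam (chart H hA x hx Hx) b₁ b₁) ∧
      DirectSum (InstC4.BxAlg (chart H hA x hx Hx)) (InstC4.BooAlg (chart H hA x hx Hx))
        (InstC4.BzeroAlg (chart H hA x hx Hx)) a :=
  exists_directSum_Mq H hA x hx Hx (chart H hA x hx Hx) (chart_t H hA x hx Hx)

end Chart

end Fermat.Agent.S33x.H1.InstBridge
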