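/-
P-S33 (H1-c), bridge (helper26): the export of block H1 INSIDE the context bundle
`Cech.CtxMq.Ctx R C p q x Dt` (helper43), for the chart rings of `S33x/H1/InstC4` (helper50).

* `exists_directSum (h : Ctx R C p q x Dt)` : there are `b1`, `g`, `a : Fin g -> F` with
  `a i` in `Lam C b1 b1` and `DirectSum (InstC4.BxAlg C) (InstC4.BooAlg C) (InstC4.BzeroAlg C) a`;
* `exists_directSum'` : the same for the rings of `InstBBasic`;
* `fg_Lam`, `finite_Lam`, `free_Lam`, `sat_levels` : the level-wise inputs.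
-/
import Fermat.Agent.S33x.Cech.CtxMq
import Fermat.Agent.S33x.H1.InstBridge

set_option autoImplicit false
set_option linter.style.haveILetI false
set_option linter.unusedSectionVars false

noncomputable section

namespace Fermat.Agent.S33x.H1.InstCtx

open AlgebraicCurve Module IntermediateField IsLocalRing
open Fermat.Agent.Gateway.C0 Fermat.Agent.S34x.C0two Fermat.Agent.S34x.Lattice2
open Fermat.Agent.S33x.Cech.CtxMq Fermat.Agent.S33x.H1.InstC1
open Fermat.Agent.S33x.Cech.OfDirectSum

variable {K : Type*} [Field K] [IsAlgClosed K] [CharZero K] {A : ValuationSubring K}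
  {F : Type*} [Field F] [Algebra K F] {S : SmallRing F}
  {k : Type*} [Field k] [IsAlgClosed k] {E : Type*} [Field E] [Algebra k E]
  {R : RedSetup2 A S k (E × E)} {C : ChartCoord R} {p q : ℕ} {x : E} {Dt : Divisor K F}
  (h : Ctx R C p q x Dt)

include h

/-- **The export of block H1 in the context bundle** (chart rings of `InstC4`). -/
theorem exists_directSum :
    ∃ (b₁ g : ℕ) (a : Fin g → F), (∀ i, a i ∈ Lam C b₁ b₁) ∧
      DirectSum (InstC4.BxAlg C) (InstC4.BooAlg C) (InstC4.BzeroAlg C) a := by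
  haveI := h.fin_x
  haveI := h.sep_x
  haveI := h.fin_t
  exact InstBridge.exists_directSum_prod h.hx h.hq C h.hT h.ht h.hDt h.hcart

/-- The same for the chart rings of `InstBBasic`. -/
theorem exists_directSum' :
    ∃ (b₁ g : ℕ) (a : Fin g → F), (∀ i, a i ∈ Lam C b₁ b₁) ∧
      DirectSum (InstBBasic.BxAlg C) (InstBBasic.BooAlg C) (InstBBasic.BzeroAlg C) a := by
  haveI := h.fin_x
  haveI := h.sep_x
  haveI := h.fin_t
  exact InstBF1.exists_directSum_prod h.hx h.hq C h.hT h.ht h.hDt h.hcart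

/-- the lattices `Lam(a,b)` are finitely generated -/
theorem fg_Lam (a b : ℕ) : (Lam C a b).FG := by
  haveI := h.fin_x
  haveI := h.sep_x
  haveI := h.fin_t
  exact InstBMq.fg_Lam_prod h.hx h.hq C h.hT h.ht h.hDt h.hcart a b

theorem finite_Lam (a b : ℕ) : Module.Finite A (Lam C a b) :=
  Module.Finite.iff_fg.mpr (fg_Lam h a b)

/-- the lattices `Lam(a,b)` are finite free -/
theorem free_Lam (a b : ℕ) : Module.Free A (Lam C a b) := by
  haveI := finite_Lam h a b
  haveI : Module.Flat A (Lam C a b) :=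
    Module.Flat.flat_iff_torsion_eq_bot_of_isBezout.mpr
      (Submodule.isTorsionFree_iff_torsion_eq_bot.mp inferInstance)
  exact Module.free_of_flat_of_isLocalRing

/-- (sat) at every level -/
theorem sat_levels {a b a' b' : ℕ} {u v : F} (hu : u ∈ Lam C a 0)
    (hv : v ∈ Lam C 0 b) (huv : u + v ∈ maximalIdeal A • Lam C a' b') :
    ∃ w, w ∈ Lam C a 0 ∧ w ∈ Lam C 0 b ∧ u - w ∈ maximalIdeal A • Lam C a 0 ∧
      v + w ∈ maximalIdeal A • Lam C 0 b := by
  haveI := h.fin_x
  haveI := h.sep_x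
  haveI := h.fin_t
  exact InstBMq.sat_levels_prod h.hx h.hq C h.hT h.ht h.hDt h.hcart hu hv huv

/-- `P(0,0) = k x k` -/
theorem exists_const_of_mem_Pk_zero {y : E × E} (hy : y ∈ C.Pk 0 0) :
    ∃ c₁ c₂ : k, y = (algebraMap k E c₁, algebraMap k E c₂) := by
  haveI := h.fin_x
  haveI := h.sep_x
  exact InstBF2.exists_const_of_mem_Pk_zero h.hx h.hq C h.hT hy

end Fermat.Agent.S33x.H1.InstCtx
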