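import Fermat.Agent.S33x.Cech.OfDirectSum

/-!
# P-S33 (H1, leaf (B1) support): change of lifts in a Cech direct sum decomposition (helper50)

`Cech.OfDirectSum.DirectSum Bx Boo B0 a` over a LOCAL ring `A` is insensitive to a change of the `aᵢ`
modulo `𝔪_A • Bx`: if `a'ᵢ = aᵢ + ϖᵢ yᵢ` with `ϖᵢ ∈ 𝔪_A`, `yᵢ ∈ Bx`, then
`DirectSum Bx Boo B0 a'` (`directSum_of_congr`).  Proof: decompose the `yᵢ`; the transition matrix
is `≡ 1` modulo `𝔪_A`, hence invertible.

Purely formal: Mathlib + `Cech/OfDirectSum` only.  Use: replace the `aᵢ` by inertia-FIXED lifts of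
their reductions (`H1/InstFixed.lean`).
-/

set_option autoImplicit false

namespace Fermat.Agent.S33x.H1.ChangeLifts

open IsLocalRing Matrix Fermat.Agent.S33x.Cech.OfDirectSum

variable {A : Type*} [CommRing A] {F : Type*} [Field F] [Algebra A F]
variable {Bx Boo B0 : Subalgebra A F} {g : ℕ}

/-- a square matrix over a local ring which is `≡ 1` modulo the maximal ideal is invertible -/
theorem isUnit_one_add_of_mem [IsLocalRing A] (E : Matrix (Fin g) (Fin g) A)
    (hE : ∀ i j, E i j ∈ maximalIdeal A) : IsUnit (1 + E) := by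
  rw [Matrix.isUnit_iff_isUnit_det]
  have h1 : (residue A) (1 + E).det = 1 := by
    rw [RingHom.map_det]
    have : (residue A).mapMatrix (1 + E) = 1 := by
      ext i j
      simp only [RingHom.mapMatrix_apply, Matrix.map_apply, Matrix.add_apply, map_add]
      rw [(residue_eq_zero_iff (E i j)).mpr (hE i j), add_zero]
      by_cases hij : i = j
      · subst hij
        simp
      · simp [Matrix.one_apply_ne hij]
    rw [this, Matrix.det_one]
  by_contra hu
  have : (1 + E).det ∈ maximalIdeal A := (mem_maximalIdeal _).mpr hu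
  rw [← residue_eq_zero_iff, h1] at this
  exact one_ne_zero this

/-- the expansion of `∑ rᵢ a'ᵢ` in terms of the old family -/
theorem sum_smul_eq {a a' : Fin g → F} {c : Fin g → A} {fi hi : Fin g → F}
    (M : Matrix (Fin g) (Fin g) A)
    (hM : ∀ i, a' i = c i • fi i + c i • hi i + ∑ j, M i j • a j) (r : Fin g → A) :
    ∑ i, r i • a' i = ∑ i, (r i * c i) • fi i + ∑ i, (r i * c i) • hi i
      + ∑ j, (r ᵥ* M) j • a j := by
  have h1 : ∀ i, r i • a' i = (r i * c i) • fi i + (r i * c i) • hi i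
      + ∑ j, (r i * M i j) • a j := by
    intro i
    rw [hM i, smul_add, smul_add, smul_smul, smul_smul, Finset.smul_sum]
    congr 1
    exact Finset.sum_congr rfl fun j _ => smul_smul _ _ _
  rw [Finset.sum_congr rfl fun i _ => h1 i, Finset.sum_add_distrib, Finset.sum_add_distrib]
  congr 1
  rw [Finset.sum_comm]
  refine Finset.sum_congr rfl fun j _ => ?_
  rw [Matrix.vecMul, dotProduct, Finset.sum_smul]

/-- **Change of lifts**: a Cech direct sum decomposition over a local ring persists when the `aᵢ`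
are changed modulo `𝔪_A • Bx`. -/
theorem directSum_of_congr [IsLocalRing A] {a a' : Fin g → F} (H : DirectSum Bx Boo B0 a)
    (h : ∀ i, ∃ ϖ ∈ maximalIdeal A, ∃ y ∈ Bx, a' i = a i + ϖ • y) :
    DirectSum Bx Boo B0 a' := by
  choose c hc y hy ha' using h
  have hdec : ∀ i, ∃ f ∈ Boo, ∃ h ∈ B0, ∃ s : Fin g → A, y i = f + h + ∑ j, s j • a j :=
    fun i => H.gen (y i) (hy i)
  choose fi hfi hi hhi t ht using hdec
  set E : Matrix (Fin g) (Fin g) A := Matrix.of fun i j => c i * t i j with hE
  set M : Matrix (Fin g) (Fin g) A := 1 + E with hMdef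
  have hMunit : IsUnit M := isUnit_one_add_of_mem E fun i j => by
    rw [hE, Matrix.of_apply]
    exact Ideal.mul_mem_right _ _ (hc i)
  have hM : ∀ i, a' i = c i • fi i + c i • hi i + ∑ j, M i j • a j := by
    intro i
    rw [ha' i, ht i, smul_add, smul_add, Finset.smul_sum]
    have : ∑ j, M i j • a j = a i + ∑ j, c i • t i j • a j := by
      have h2 : ∀ j, M i j • a j = (1 : Matrix (Fin g) (Fin g) A) i j • a j + c i • t i j • a j := by
        intro j
        rw [hMdef, Matrix.add_apply, add_smul, hE, Matrix.of_apply, mul_smul]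
      rw [Finset.sum_congr rfl fun j _ => h2 j, Finset.sum_add_distrib]
      congr 1
      rw [Finset.sum_eq_single i]
      · rw [Matrix.one_apply_eq, one_smul]
      · intro j _ hji
        rw [Matrix.one_apply_ne (Ne.symm hji), zero_smul]
      · intro hi
        exact absurd (Finset.mem_univ i) hi
    rw [this]
    abel
  obtain ⟨N, hNM⟩ := hMunit.exists_left_inv
  have hMN : M * N = 1 := mul_eq_one_comm.mp hNM
  have hmemoo : ∀ r : Fin g → A, ∑ i, (r i * c i) • fi i ∈ Boo := fun r =>
    Boo.sum_mem fun i _ => Boo.smul_mem (hfi i) _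
  have hmem0 : ∀ r : Fin g → A, ∑ i, (r i * c i) • hi i ∈ B0 := fun r =>
    B0.sum_mem fun i _ => B0.smul_mem (hhi i) _
  refine ⟨H.oo_le, H.zero_le, ?_, ?_, ?_⟩
  · intro i
    rw [ha' i]
    exact Bx.add_mem (H.a_mem i) (Bx.smul_mem (hy i) _)
  · -- generation
    intro x hx
    obtain ⟨f, hf, h, hh, s, hs⟩ := H.gen x hx
    set s' : Fin g → A := s ᵥ* N with hs'
    have hsM : s' ᵥ* M = s := by
      rw [hs', Matrix.vecMul_vecMul, hNM, Matrix.vecMul_one]
    have hexp := sum_smul_eq M hM s'
    rw [hsM] at hexp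
    refine ⟨f - ∑ i, (s' i * c i) • fi i, Boo.sub_mem hf (hmemoo s'),
      h - ∑ i, (s' i * c i) • hi i, B0.sub_mem hh (hmem0 s'), s', ?_⟩
    rw [hexp, hs]
    abel
  · -- uniqueness
    intro f hf h hh s hrel
    have hexp := sum_smul_eq M hM s
    rw [hexp] at hrel
    have hrel' : (f + ∑ i, (s i * c i) • fi i) + (h + ∑ i, (s i * c i) • hi i)
        + ∑ j, (s ᵥ* M) j • a j = 0 := by
      rw [← hrel]
      abel
    obtain ⟨hsM, -⟩ := H.uniq _ (Boo.add_mem hf (hmemoo s)) _ (B0.add_mem hh (hmem0 s)) _ hrel'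
    have hs0 : s = 0 := by
      have : s = (s ᵥ* M) ᵥ* N := by
        rw [Matrix.vecMul_vecMul, hMN, Matrix.vecMul_one]
      rw [this, hsM, Matrix.zero_vecMul]
    refine ⟨hs0, ?_⟩
    subst hs0
    have hrel0 : f + h + ∑ i, (0 : Fin g → A) i • a i = 0 := by
      have h0 := hrel
      simp only [Pi.zero_apply, zero_mul, zero_smul, Finset.sum_const_zero, add_zero,
        Matrix.zero_vecMul] at h0
      simpa using h0
    exact (H.uniq f hf h hh 0 hrel0).2

end Fermat.Agent.S33x.H1.ChangeLifts
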