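import Fermat.Agent.S33x.H1.Inst
import Fermat.Agent.S33x.H1.ChangeLifts
import Fermat.Agent.S33x.H1.LatticeFixed2
import Fermat.Agent.S33x.W.LatticeFixed2

/-!
# P-S33 (H1, leaf (B1), InstC path): the Cech direct sum with inertia-FIXED `aᵢ` (helper50)

Vocabulary of `S33x/H1/InstC1`, `InstC4`, `Inst`.  The export `Inst.exists_directSum` of block H1
is upgraded: the `aᵢ ∈ Lam C b₁ b₁` may be taken in any class `P` of elements such that every
element of the reduction of `Lam C b b` has a lift in `Lam C b b` satisfying `P`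
(`exists_directSum_of_lift`).  Proof: lift the reductions of the `aᵢ`; by (c2) the new lifts differ
from the old ones by elements of `𝔪_A • Lam C b₁ b₁`; conclude by `ChangeLifts.directSum_of_congr`.

* `exists_directSum_fixed`: **literal (B1)** for `Γ : Set (SemilinearAut K F)` with
  `hD : H1.LatticeFixed2.FixData2 R Γ` (the structure consumed by `H1/CechFixedB.directSum_fixed`);
* `exists_directSum_fixed_W`: the same with `hD : W.LatticeFixed2.FixData2 R Γ`
  (the structure consumed by `W/CechFixed`).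
-/

set_option autoImplicit false
set_option linter.unusedSectionVars false
set_option linter.style.haveILetI false

noncomputable section

namespace Fermat.Agent.S33x.H1.InstFixed

open AlgebraicCurve Module IntermediateField IsLocalRing
open Fermat.Agent.Gateway.C0 Fermat.Agent.S34x Fermat.Agent.S34x.C0two Fermat.Agent.S34x.Lattice2
open Fermat.Agent.S33x.H1.InstC1 Fermat.Agent.S33x.H1.InstC2 Fermat.Agent.S33x.H1.InstC4
open Fermat.Agent.S33x.H1.InstSat Fermat.Agent.S33x.H1.Inst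
open Fermat.Agent.S19x.Geo.LatticeFixed (IsFixed span_fixed_of_stable)

section main

variable {K : Type*} [Field K] [IsAlgClosed K] [CharZero K] {A : ValuationSubring K}
  {F : Type*} [Field F] [Algebra K F] {S : SmallRing F}
  {k κ₁ κ₂ : Type*} [Field k] [CommRing κ₁] [CommRing κ₂] [Algebra k κ₁] [Algebra k κ₂]
  [Nontrivial κ₁] [Nontrivial κ₂]
  {R : RedSetup2 A S k (κ₁ × κ₂)} (C : ChartCoord R)
  (ht : Transcendental K C.t) [FiniteDimensional K⟮C.t⟯ F]
  {Dt : Divisor K F} (hDt : ∀ v : Place K F, Dt v = v.ord C.t)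
  (hcart : ∀ V : Submodule K F, FiniteDimensional K V → (R.lat V).FG)
  [hPfin : ∀ b, FiniteDimensional k (C.Pk 0 b)] {b₀ : ℕ}
  (hgen : ∀ b, b₀ ≤ b → ∀ x ∈ C.Pk 0 (b + 1), ∃ y ∈ C.Pk 0 b, ∃ z ∈ C.Pk 0 b, x = y + C.T * z)
  (hP00 : ∀ y ∈ C.Pk 0 0, ∃ c₁ c₂ : k, y = (algebraMap k κ₁ c₁, algebraMap k κ₂ c₂))

include ht hDt in
/-- the spaces `L(a C₀ + b C∞)` are finite-dimensional -/
theorem finiteDimensional_LN (a b : ℕ) : FiniteDimensional K (C.LN a b) := by
  haveI := isSeparable_adjoin_of_charZero (K := K) C.t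
  rw [← LN_eq C ht hDt]
  exact (TwoCharts.ofDivisor Dt).LN_finite ht a b

include ht hDt hcart hgen hP00 in
/-- **(B1), generic form**: the `aᵢ` of the Cech direct sum decomposition may be chosen in any
class `P` of elements in which the reductions of the lattices `Lam C b b` can be lifted. -/
theorem exists_directSum_of_lift (P : F → Prop)
    (hlift : ∀ b : ℕ, ∀ y ∈ R.redLat (C.LN b b),
      ∃ (f : F) (hf : f ∈ S.O), f ∈ C.LN b b ∧ P f ∧ R.res ⟨f, hf⟩ = y) :
    ∃ (b₁ g : ℕ) (a : Fin g → F), (∀ i, a i ∈ Lam C b₁ b₁) ∧ (∀ i, P (a i)) ∧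
      Cech.OfDirectSum.DirectSum (BxAlg C) (BooAlg C) (BzeroAlg C) a := by
  obtain ⟨b₁, g, a, ha, H⟩ := exists_directSum C ht hDt hcart hgen hP00
  have hl : ∀ i, ∃ (f : F) (hf : f ∈ S.O), f ∈ C.LN b₁ b₁ ∧ P f ∧
      R.res ⟨f, hf⟩ = R.res ⟨a i, (ha i).2⟩ :=
    fun i => hlift b₁ _ ⟨a i, (ha i).2, (ha i).1, rfl⟩
  choose a' ha'O ha'L ha'P ha'res using hl
  have ha' : ∀ i, a' i ∈ Lam C b₁ b₁ := fun i => ⟨ha'L i, ha'O i⟩
  refine ⟨b₁, g, a', ha', ha'P, ?_⟩
  refine ChangeLifts.directSum_of_congr H fun i => ?_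
  obtain ⟨ϖ, hϖ, y, hy, hxy⟩ := exists_smul_of_res_eq C (ha' i) (ha i) (ha'res i)
  refine ⟨ϖ, hϖ, y, (mem_BxAlg' C).mpr ⟨b₁, b₁, hy⟩, ?_⟩
  rw [← hxy]
  abel

variable (Γ : Set (SemilinearAut K F))

include ht hDt hcart hgen hP00 in
/-- **(B1), literal form** (`FixData2` of `H1/LatticeFixed2`): the Cech direct sum decomposition
with inertia-fixed `aᵢ`. -/
theorem exists_directSum_fixed (hD : LatticeFixed2.FixData2 R Γ)
    (hF : Submodule.span K {f : F | IsFixed Γ f} = ⊤)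
    (hstab : ∀ a b : ℕ, ∀ s ∈ Γ, ∀ f ∈ C.LN a b, s • f ∈ C.LN a b) :
    ∃ (b₁ g : ℕ) (a : Fin g → F), (∀ i, a i ∈ Lam C b₁ b₁) ∧ (∀ i, IsFixed Γ (a i)) ∧
      Cech.OfDirectSum.DirectSum (BxAlg C) (BooAlg C) (BzeroAlg C) a := by
  refine exists_directSum_of_lift C ht hDt hcart hgen hP00 (IsFixed Γ) fun b y hy => ?_
  haveI := finiteDimensional_LN C ht hDt b b
  exact LatticeFixed2.exists_fixed_lift2 hD (C.LN b b) (hcart _ inferInstance)
    (le_of_eq (span_fixed_of_stable hF (C.LN b b) (hstab b b)).symm) hy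

include ht hDt hcart hgen hP00 in
/-- **(B1), literal form** (`FixData2` of `W/LatticeFixed2`). -/
theorem exists_directSum_fixed_W (hD : Fermat.Agent.S33x.W.LatticeFixed2.FixData2 R Γ)
    (hF : Submodule.span K {f : F | IsFixed Γ f} = ⊤)
    (hstab : ∀ a b : ℕ, ∀ s ∈ Γ, ∀ f ∈ C.LN a b, s • f ∈ C.LN a b) :
    ∃ (b₁ g : ℕ) (a : Fin g → F), (∀ i, a i ∈ Lam C b₁ b₁) ∧ (∀ i, IsFixed Γ (a i)) ∧
      Cech.OfDirectSum.DirectSum (BxAlg C) (BooAlg C) (BzeroAlg C) a := by
  refine exists_directSum_of_lift C ht hDt hcart hgen hP00 (IsFixed Γ) fun b y hy => ?_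
  haveI := finiteDimensional_LN C ht hDt b b
  exact Fermat.Agent.S33x.W.LatticeFixed2.exists_fixed_lift2 hD (C.LN b b) (hcart _ inferInstance)
    (le_of_eq (span_fixed_of_stable hF (C.LN b b) (hstab b b)).symm) hy

end main

end Fermat.Agent.S33x.H1.InstFixed
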