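/-
P-S33 (blueprint v2), dir `S33x/H1`, leaf (ST): STABILITY of the two-pole spaces under semilinear
automorphisms fixing the coordinate.

`g : SemilinearAut K F` with `g • t = t`: then `g` preserves `K[t]` and `K[t⁻¹]`, hence integrality
over them, hence every `twoPole K t t⁻¹ a b = L(a (t)₀ + b (t)_∞)`; in particular `C.LN a b` for a chart
`C` whose coordinate is fixed.  This is the hypothesis `hstab` of `LatticeFixed2.exists_fixedFrame2_of_stable`,
`CechFixedB.directSum_fixed` and of (B1).
-/
import Fermat.Agent.S34x.Lattice2.Setup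
import Fermat.Prelude.Def_AlgebraicCurve_BaseChangeGalois

set_option autoImplicit false

namespace Fermat.Agent.S33x.H1.StableLN

open AlgebraicCurve Fermat.Agent.S34x.Lattice2

section abs

variable {K : Type*} [Field K] {F : Type*} [Field F] [Algebra K F]

/-- a semilinear automorphism fixing `t` maps `K[t]` into itself -/
theorem smul_mem_adjoin (g : SemilinearAut K F) {t : F} (ht : g • t = t) {x : F}
    (hx : x ∈ Algebra.adjoin K {t}) : g • x ∈ Algebra.adjoin K {t} := by
  induction hx using Algebra.adjoin_induction with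
  | mem y hy =>
    rw [Set.mem_singleton_iff.mp hy, ht]
    exact Algebra.self_mem_adjoin_singleton K t
  | algebraMap c =>
    rw [SemilinearAut.smul_algebraMap]
    exact Subalgebra.algebraMap_mem _ _
  | add x y _ _ hx hy =>
    rw [smul_add]
    exact Subalgebra.add_mem _ hx hy
  | mul x y _ _ hx hy =>
    rw [smul_mul']
    exact Subalgebra.mul_mem _ hx hy

/-- a semilinear automorphism fixing `t` preserves integrality over `K[t]` -/
theorem isIntegral_smul (g : SemilinearAut K F) {t : F} (ht : g • t = t) {z : F}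
    (hz : IsIntegral (Algebra.adjoin K {t}) z) : IsIntegral (Algebra.adjoin K {t}) (g • z) := by
  let ψ : F →+* F := (SemilinearAut.toRingAut g : F ≃+* F)
  let φ : Algebra.adjoin K {t} →+* Algebra.adjoin K {t} :=
    ψ.restrict (Algebra.adjoin K {t}) (Algebra.adjoin K {t})
      (fun x hx => smul_mem_adjoin g ht hx)
  have h : (algebraMap (Algebra.adjoin K {t}) F).comp φ
      = ψ.comp (algebraMap (Algebra.adjoin K {t}) F) := by
    ext x
    rfl
  exact IsIntegral.map_of_comp_eq φ ψ h hz

/-- **Stability of the two-pole spaces.** -/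
theorem smul_mem_twoPole (g : SemilinearAut K F) {t : F} (ht : g • t = t) {a b : ℕ} {f : F}
    (hf : f ∈ twoPole K t t⁻¹ a b) : g • f ∈ twoPole K t t⁻¹ a b := by
  have hti : g • t⁻¹ = t⁻¹ := by
    rw [smul_inv'', ht]
  obtain ⟨h1, h2⟩ := mem_twoPole_iff.mp hf
  refine mem_twoPole_iff.mpr ⟨?_, ?_⟩
  · have := isIntegral_smul g ht h1
    rwa [smul_mul', smul_pow', ht] at this
  · have := isIntegral_smul g hti h2
    rwa [smul_mul', smul_pow', hti] at this

end abs

section chart

open Fermat.Agent.Gateway.C0 Fermat.Agent.S34x.C0two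

variable {K : Type*} [Field K] {A : ValuationSubring K} {F : Type*} [Field F] [Algebra K F]
  {S : SmallRing F} {k κ : Type*} [Field k] [CommRing κ] [Algebra k κ]
  {R : RedSetup2 A S k κ} (C : ChartCoord R)

/-- **Stability of `L(a C₀ + b C∞)`** under semilinear automorphisms fixing the chart coordinate. -/
theorem smul_mem_LN (g : SemilinearAut K F) (hg : g • C.t = C.t) {a b : ℕ} {f : F}
    (hf : f ∈ C.LN a b) : g • f ∈ C.LN a b :=
  smul_mem_twoPole g hg hf

/-- the hypothesis `hstab` for a set `Γ` of semilinear automorphisms fixing the chart coordinate -/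
theorem stable_LN {Γ : Set (SemilinearAut K F)} (hΓ : ∀ g ∈ Γ, g • C.t = C.t) (a b : ℕ) :
    ∀ s ∈ Γ, ∀ f ∈ C.LN a b, s • f ∈ C.LN a b :=
  fun s hs _ hf => smul_mem_LN C s (hΓ s hs) hf

end chart

end Fermat.Agent.S33x.H1.StableLN
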