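/-
P-S33 (H1-c)/(B1), bridge (helper26): block H1 WITH INERTIA-FIXED `a_i`, INSIDE the context bundle
`Cech.CtxMq.Ctx R C p q x Dt` + `Cech.CtxMq.CtxGal R C Gam` (helper43), for the chart rings of
`S33x/H1/InstC4` (helper50).  Wrapper of `H1/InstFixed.exists_directSum_fixed(_W)` (helper50) with
`hPfin`, `hgen`, `hP00` discharged (`InstBF2.exists_const_of_mem_Pk_zero`) and `hstab` from
`H1/StableLN.stable_LN` (helper71).  Remaining inputs: `FixData2 R Gam` and
`span K {f | IsFixed Gam f} = top`.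
-/
import Fermat.Agent.S33x.H1.InstCtx
import Fermat.Agent.S33x.H1.InstFixed
import Fermat.Agent.S33x.H1.StableLN

set_option autoImplicit false
set_option linter.style.haveILetI false
set_option linter.unusedSectionVars false

noncomputable section

namespace Fermat.Agent.S33x.H1.InstCtxFixed

open AlgebraicCurve Module IntermediateField IsLocalRing
open Fermat.Agent.Gateway.C0 Fermat.Agent.S34x.C0two Fermat.Agent.S34x.Lattice2
open Fermat.Agent.S33x.Cech.CtxMq Fermat.Agent.S33x.H1.InstC1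
open Fermat.Agent.S33x.Cech.OfDirectSum
open Fermat.Agent.S19x.Geo.LatticeFixed (IsFixed)

section GenericProd

variable {K : Type*} [Field K] [IsAlgClosed K] [CharZero K] {A : ValuationSubring K}
  {F : Type*} [Field F] [Algebra K F] {S : SmallRing F}
  {k : Type*} [Field k] [IsAlgClosed k] {E : Type*} [Field E] [Algebra k E] {x : E}
  (hx : Transcendental k x) [FiniteDimensional k⟮x⟯ E] [Algebra.IsSeparable k⟮x⟯ E]
  {q : ℕ} (hq : 0 < q)
  {R : RedSetup2 A S k (E × E)} (C : ChartCoord R) (hT : C.T = (x, x ^ q))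
  (ht : Transcendental K C.t) [FiniteDimensional K⟮C.t⟯ F]
  {Dt : Divisor K F} (hDt : ∀ v : Place K F, Dt v = v.ord C.t)
  (hcart : ∀ V : Submodule K F, FiniteDimensional K V → (R.lat V).FG)
  (Γ : Set (SemilinearAut K F))

include hx hq hT ht hDt hcart in
/-- (B1) at `kappa = E x E`, `T = (x, x ^ q)` (`FixData2` of `H1/LatticeFixed2`). -/
theorem exists_directSum_fixed_prod (hD : LatticeFixed2.FixData2 R Γ)
    (hF : Submodule.span K {f : F | IsFixed Γ f} = ⊤)
    (hstab : ∀ a b : ℕ, ∀ s ∈ Γ, ∀ f ∈ C.LN a b, s • f ∈ C.LN a b) :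
    ∃ (b₁ g : ℕ) (a : Fin g → F), (∀ i, a i ∈ Lam C b₁ b₁) ∧ (∀ i, IsFixed Γ (a i)) ∧
      DirectSum (InstC4.BxAlg C) (InstC4.BooAlg C) (InstC4.BzeroAlg C) a := by
  haveI hPfin : ∀ b, FiniteDimensional k (C.Pk 0 b) :=
    fun b => Fermat.Agent.S34x.Inst.CountsInst.finite_Pk hx hq C hT 0 b
  obtain ⟨b₀, hgen⟩ := exists_hgen_prod hx hq C hT
  exact InstFixed.exists_directSum_fixed C ht hDt hcart hgen
    (fun y hy => InstBF2.exists_const_of_mem_Pk_zero hx hq C hT hy) Γ hD hF hstab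

include hx hq hT ht hDt hcart in
/-- (B1) at `kappa = E x E`, `T = (x, x ^ q)` (`FixData2` of `W/LatticeFixed2`). -/
theorem exists_directSum_fixed_W_prod (hD : Fermat.Agent.S33x.W.LatticeFixed2.FixData2 R Γ)
    (hF : Submodule.span K {f : F | IsFixed Γ f} = ⊤)
    (hstab : ∀ a b : ℕ, ∀ s ∈ Γ, ∀ f ∈ C.LN a b, s • f ∈ C.LN a b) :
    ∃ (b₁ g : ℕ) (a : Fin g → F), (∀ i, a i ∈ Lam C b₁ b₁) ∧ (∀ i, IsFixed Γ (a i)) ∧
      DirectSum (InstC4.BxAlg C) (InstC4.BooAlg C) (InstC4.BzeroAlg C) a := by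
  haveI hPfin : ∀ b, FiniteDimensional k (C.Pk 0 b) :=
    fun b => Fermat.Agent.S34x.Inst.CountsInst.finite_Pk hx hq C hT 0 b
  obtain ⟨b₀, hgen⟩ := exists_hgen_prod hx hq C hT
  exact InstFixed.exists_directSum_fixed_W C ht hDt hcart hgen
    (fun y hy => InstBF2.exists_const_of_mem_Pk_zero hx hq C hT hy) Γ hD hF hstab

end GenericProd

section Ctx

variable {K : Type*} [Field K] [IsAlgClosed K] [CharZero K] {A : ValuationSubring K}
  {F : Type*} [Field F] [Algebra K F] {S : SmallRing F}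
  {k : Type*} [Field k] [IsAlgClosed k] {E : Type*} [Field E] [Algebra k E]
  {R : RedSetup2 A S k (E × E)} {C : ChartCoord R} {p q : ℕ} {x : E} {Dt : Divisor K F}
  (h : Ctx R C p q x Dt) {Γ : Set (SemilinearAut K F)} (hG : CtxGal R C Γ)

include h hG

/-- **(B1) in the context bundle**: the Cech direct sum decomposition with inertia-fixed `a_i`
(`FixData2` of `H1/LatticeFixed2`). -/
theorem exists_directSum_fixed (hD : LatticeFixed2.FixData2 R Γ)
    (hF : Submodule.span K {f : F | IsFixed Γ f} = ⊤) :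
    ∃ (b₁ g : ℕ) (a : Fin g → F), (∀ i, a i ∈ Lam C b₁ b₁) ∧ (∀ i, IsFixed Γ (a i)) ∧
      DirectSum (InstC4.BxAlg C) (InstC4.BooAlg C) (InstC4.BzeroAlg C) a := by
  haveI := h.fin_x
  haveI := h.sep_x
  haveI := h.fin_t
  exact exists_directSum_fixed_prod h.hx h.hq C h.hT h.ht h.hDt h.hcart Γ hD hF
    (StableLN.stable_LN C hG.smul_t)

/-- **(B1) in the context bundle** (`FixData2` of `W/LatticeFixed2`). -/
theorem exists_directSum_fixed_W (hD : Fermat.Agent.S33x.W.LatticeFixed2.FixData2 R Γ)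
    (hF : Submodule.span K {f : F | IsFixed Γ f} = ⊤) :
    ∃ (b₁ g : ℕ) (a : Fin g → F), (∀ i, a i ∈ Lam C b₁ b₁) ∧ (∀ i, IsFixed Γ (a i)) ∧
      DirectSum (InstC4.BxAlg C) (InstC4.BooAlg C) (InstC4.BzeroAlg C) a := by
  haveI := h.fin_x
  haveI := h.sep_x
  haveI := h.fin_t
  exact exists_directSum_fixed_W_prod h.hx h.hq C h.hT h.ht h.hDt h.hcart Γ hD hF
    (StableLN.stable_LN C hG.smul_t)

end Ctx

end Fermat.Agent.S33x.H1.InstCtxFixed
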