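/-
P-S33, W-STRUCTURE, leaf (W2c) (helper9): the INSTANCE of `FixData2` for the two Gauss valuations.

* `scal_fixed_twoVal` : the sup-norm combination.  For the small ring `twoVal O1 O2` of two valuation
  subrings of `F` containing the constants of `A`: if a function `f` can be scaled to norm one by a
  FIXED scalar for each of the two valuations, then it can be scaled by a FIXED scalar into
  `O \ I` (take the scalar of smaller absolute value).
* `residue_surj2`, `unif2` : the fields `residue_surj`, `unif` of `FixData2` for any reduction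
  set-up `R : RedSetup2 P Sr k kappa` over `(Qbar, P)`, `P` over the prime `l`, and a set `Gam` of
  semilinear automorphisms whose base automorphisms are exactly the elements of the inertia group
  of `P` (port of `S19x/Geo/FixDataInertiaB`; `S19x/Hens/InertiaResidue`), uniformiser `l`.
* `fixData2_twoVal`, `fixData2W_twoVal` : `FixData2 R Gam` (the structure of
  `S33x/H1/LatticeFixed2`, resp. of `S33x/W/LatticeFixed2`) for `Sr = twoVal O1 O2` from the two
  one-valuation `scal_fixed` statements.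
* `fixData2_redSetup2`, `fixData2W_redSetup2` : the instance at the concrete `RedSetup2` of level
  `M q` (`S34x/Inst/RedSetupInst.redSetup2`, `L = Qbar`), `Gam` = the coefficientwise action of the
  inertia group of `P`, from the two one-valuation `scal_fixed` statements at `valInfty`, `valZero`
  (leaf (W2b)).
* `span_fixed_redSetup2` : the function field of level `M q` is spanned over `Qbar` by the
  `Gam`-fixed functions (hypothesis `hF` of `exists_fixedFrame2_of_stable`).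
-/
import Mathlib
import Fermat.Agent.S33x.H1.LatticeFixed2
import Fermat.Agent.S33x.W.LatticeFixed2
import Fermat.Agent.S19x.Hens.InertiaResidue
import Fermat.Agent.S19x.Geo.FixDataInertiaSpan
import Fermat.Agent.S34x.C0two.Pair
import Fermat.Agent.S34x.Inst.RedSetupInst
import Fermat.Prelude.Def_ModularCurve_ArithmeticGalois

set_option autoImplicit false
set_option linter.unusedSectionVars false
set_option linter.unusedVariables false

noncomputable section

namespace Fermat.Agent.S33x.H1.FixData2Inst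

open AlgebraicCurve IsLocalRing
open Fermat.Agent.S34x.C0two
open Fermat.Agent.S19x.Geo.LatticeFixed (IsFixed IsFixedK)

/-! ### The sup-norm combination -/

section Combination

variable {K : Type*} [Field K] {A : ValuationSubring K} {F : Type*} [Field F] [Algebra K F]
  {O₁ O₂ : ValuationSubring F}

/-- a scalar multiple `c • f` lies in `O'` as soon as `c / c'` is integral and `c' • f` is a unit
of `O'`. -/
theorem smul_mem_of_div_mem {O' : ValuationSubring F}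
    (hA : ∀ a : A, algebraMap K F a ∈ O') {c c' : K} (hc' : c' ≠ 0) (hcc : c * c'⁻¹ ∈ A)
    {f : F} (h1 : O'.valuation (c' • f) = 1) : c • f ∈ O' := by
  have h3 : c • f = algebraMap K F (c * c'⁻¹) * (c' • f) := by
    rw [Algebra.smul_def, Algebra.smul_def, ← mul_assoc, ← map_mul, mul_assoc,
      inv_mul_cancel₀ hc', mul_one]
  rw [h3]
  exact O'.mul_mem _ _ (hA ⟨_, hcc⟩) ((O'.valuation_le_one_iff _).mp h1.le)

/-- **The sup-norm combination.**  If `f` has norm one after scaling by a fixed scalar, for each of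
the two valuations, then a fixed scalar moves `f` into `O \ I` for the small ring of the pair. -/
theorem scal_fixed_twoVal (Γ : Set (SemilinearAut K F))
    (hA₁ : ∀ a : A, algebraMap K F a ∈ O₁) (hA₂ : ∀ a : A, algebraMap K F a ∈ O₂) {f : F}
    (h₁ : ∃ c : K, c ≠ 0 ∧ IsFixedK Γ c ∧ O₁.valuation (c • f) = 1)
    (h₂ : ∃ c : K, c ≠ 0 ∧ IsFixedK Γ c ∧ O₂.valuation (c • f) = 1) :
    ∃ c : K, c ≠ 0 ∧ IsFixedK Γ c ∧ c • f ∈ (twoVal O₁ O₂).O ∧ ¬ Small (twoVal O₁ O₂) (c • f) := by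
  obtain ⟨c₁, hc₁, hfix₁, h₁⟩ := h₁
  obtain ⟨c₂, hc₂, hfix₂, h₂⟩ := h₂
  rcases A.mem_or_inv_mem (c₁ * c₂⁻¹) with h | h
  · refine ⟨c₁, hc₁, hfix₁, ⟨(O₁.valuation_le_one_iff _).mp h₁.le,
      smul_mem_of_div_mem hA₂ hc₂ h h₂⟩, fun hs => ?_⟩
    exact absurd h₁ (ne_of_lt (small_twoVal_iff.mp hs).1)
  · have h' : c₂ * c₁⁻¹ ∈ A := by
      have : (c₁ * c₂⁻¹)⁻¹ = c₂ * c₁⁻¹ := by
        rw [mul_inv, inv_inv, mul_comm]
      rwa [this] at h
    refine ⟨c₂, hc₂, hfix₂, ⟨smul_mem_of_div_mem hA₁ hc₁ h' h₁,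
      (O₂.valuation_le_one_iff _).mp h₂.le⟩, fun hs => ?_⟩
    exact absurd h₂ (ne_of_lt (small_twoVal_iff.mp hs).2)

end Combination

/-! ### `residue_surj` and `unif` for inertia -/

section Inertia

open Fermat.Agent.S56x.Flat.InertiaField Fermat.Agent.S19x.Hens.InertiaResidue

local notation "Qbar" => AlgebraicClosure ℚ

variable {P : ValuationSubring Qbar} {ℓ : ℕ} {F : Type*} [Field F] [Algebra Qbar F]
  {Sr : SmallRing F} {k κ : Type*} [Field k] [CommRing κ] [Algebra k κ]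
  (R : RedSetup2 P Sr k κ) (Γ : Set (SemilinearAut Qbar F))

/-- An element of `inertiaInt P` is fixed by `Γ` when the base automorphisms of `Γ` are inertia
elements. -/
theorem isFixedK_of_mem_inertiaInt
    (hΓ : ∀ s ∈ Γ, ∃ σ ∈ P.inertiaSubgroupIn ℚ, ∀ c : Qbar, SemilinearAut.baseAut s c = σ c)
    {c : Qbar} (hc : c ∈ inertiaInt P) : IsFixedK Γ c := by
  intro s hs
  obtain ⟨σ, hσ, hσs⟩ := hΓ s hs
  rw [hσs]
  exact hc.2 σ hσ

/-- A `Γ`-fixed element is inertia-fixed when every inertia element is the base automorphism of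
an element of `Γ`. -/
theorem fixed_of_isFixedK
    (hΓ' : ∀ σ ∈ P.inertiaSubgroupIn ℚ, ∃ s ∈ Γ, ∀ c : Qbar, SemilinearAut.baseAut s c = σ c)
    {c : Qbar} (hc : IsFixedK Γ c) : ∀ σ ∈ P.inertiaSubgroupIn ℚ, σ c = c := by
  intro σ hσ
  obtain ⟨s, hs, hσs⟩ := hΓ' σ hσ
  rw [← hσs]
  exact hc s hs

/-- **`FixData2.residue_surj` for inertia.** -/
theorem residue_surj2 (hℓ : ℓ.Prime) (hP : P.LiesOverPrime ℓ)
    (hΓ : ∀ s ∈ Γ, ∃ σ ∈ P.inertiaSubgroupIn ℚ, ∀ c : Qbar, SemilinearAut.baseAut s c = σ c)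
    (a : P) : ∃ a₀ : P, IsFixedK Γ (a₀ : Qbar) ∧ R.π a₀ = R.π a := by
  obtain ⟨a₀, ha₀, hsub⟩ := exists_fixed_sub_mem_nonunits P hℓ hP a.2
  refine ⟨⟨a₀, ha₀.1⟩, isFixedK_of_mem_inertiaInt Γ hΓ ha₀, ?_⟩
  rw [← sub_eq_zero, ← map_sub, R.π_eq_zero_iff, ← ValuationSubring.coe_mem_nonunits_iff]
  exact hsub

/-- **`FixData2.unif` for inertia**, with uniformiser `ℓ`. -/
theorem unif2 (hℓ : ℓ.Prime) (hP : P.LiesOverPrime ℓ)
    (hΓ : ∀ s ∈ Γ, ∃ σ ∈ P.inertiaSubgroupIn ℚ, ∀ c : Qbar, SemilinearAut.baseAut s c = σ c)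
    (hΓ' : ∀ σ ∈ P.inertiaSubgroupIn ℚ, ∃ s ∈ Γ, ∀ c : Qbar, SemilinearAut.baseAut s c = σ c) :
    ∃ ϖ : P, ϖ ∈ maximalIdeal P ∧ ϖ ≠ 0 ∧ IsFixedK Γ (ϖ : Qbar) ∧
      ∀ c : P, IsFixedK Γ (c : Qbar) → c ∈ maximalIdeal P → ϖ ∣ c := by
  have hℓP : (ℓ : Qbar) ∈ P := (natCast_mem_inertiaInt P (ℓ := ℓ)).1
  refine ⟨⟨(ℓ : Qbar), hℓP⟩, ?_, ?_, ?_, ?_⟩
  · rw [← ValuationSubring.coe_mem_nonunits_iff]
    exact hP
  · intro h
    exact natCast_ne_zero_Qbar P hℓ hP (congrArg (fun z : P => (z : Qbar)) h)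
  · exact isFixedK_of_mem_inertiaInt Γ hΓ (natCast_mem_inertiaInt P)
  · intro c hc hcm
    rw [← ValuationSubring.coe_mem_nonunits_iff] at hcm
    obtain ⟨d, hd, hcd⟩ := exists_eq_natCast_mul_of_fixed P hℓ hP hcm (fixed_of_isFixedK Γ hΓ' hc)
    exact ⟨⟨d, hd.1⟩, Subtype.ext hcd⟩

end Inertia

/-! ### `FixData2` for a pair of valuations over `(Qbar, P)` -/

section Pair

local notation "Qbar" => AlgebraicClosure ℚ

variable {P : ValuationSubring Qbar} {ℓ : ℕ} {F : Type*} [Field F] [Algebra Qbar F]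
  {O₁ O₂ : ValuationSubring F} {k κ : Type*} [Field k] [CommRing κ] [Algebra k κ]
  (R : RedSetup2 P (twoVal O₁ O₂) k κ) (Γ : Set (SemilinearAut Qbar F))

include R in
/-- the field `scal_fixed` of `FixData2` for the small ring of two valuations, from the two
one-valuation statements. -/
theorem scal_fixed2_twoVal
    (hscal₁ : ∀ f : F, f ≠ 0 → IsFixed Γ f →
      ∃ c : Qbar, c ≠ 0 ∧ IsFixedK Γ c ∧ O₁.valuation (c • f) = 1)
    (hscal₂ : ∀ f : F, f ≠ 0 → IsFixed Γ f →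
      ∃ c : Qbar, c ≠ 0 ∧ IsFixedK Γ c ∧ O₂.valuation (c • f) = 1)
    (f : F) (hf : f ≠ 0) (hfix : IsFixed Γ f) :
    ∃ c : Qbar, c ≠ 0 ∧ IsFixedK Γ c ∧ c • f ∈ (twoVal O₁ O₂).O ∧
      ¬ Small (twoVal O₁ O₂) (c • f) :=
  scal_fixed_twoVal Γ (fun a => (R.algebraMap_mem a).1) (fun a => (R.algebraMap_mem a).2)
    (hscal₁ f hf hfix) (hscal₂ f hf hfix)

/-- **`FixData2` (of `S33x/H1/LatticeFixed2`) for inertia and a pair of valuations**, from the two
one-valuation `scal_fixed` statements. -/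
theorem fixData2_twoVal (hℓ : ℓ.Prime) (hP : P.LiesOverPrime ℓ)
    (hΓ : ∀ s ∈ Γ, ∃ σ ∈ P.inertiaSubgroupIn ℚ, ∀ c : Qbar, SemilinearAut.baseAut s c = σ c)
    (hΓ' : ∀ σ ∈ P.inertiaSubgroupIn ℚ, ∃ s ∈ Γ, ∀ c : Qbar, SemilinearAut.baseAut s c = σ c)
    (hscal₁ : ∀ f : F, f ≠ 0 → IsFixed Γ f →
      ∃ c : Qbar, c ≠ 0 ∧ IsFixedK Γ c ∧ O₁.valuation (c • f) = 1)
    (hscal₂ : ∀ f : F, f ≠ 0 → IsFixed Γ f →
      ∃ c : Qbar, c ≠ 0 ∧ IsFixedK Γ c ∧ O₂.valuation (c • f) = 1) :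
    Fermat.Agent.S33x.H1.LatticeFixed2.FixData2 R Γ :=
  ⟨residue_surj2 R Γ hℓ hP hΓ, unif2 Γ hℓ hP hΓ hΓ', scal_fixed2_twoVal R Γ hscal₁ hscal₂⟩

/-- **`FixData2` (of `S33x/W/LatticeFixed2`) for inertia and a pair of valuations**, from the two
one-valuation `scal_fixed` statements. -/
theorem fixData2W_twoVal (hℓ : ℓ.Prime) (hP : P.LiesOverPrime ℓ)
    (hΓ : ∀ s ∈ Γ, ∃ σ ∈ P.inertiaSubgroupIn ℚ, ∀ c : Qbar, SemilinearAut.baseAut s c = σ c)
    (hΓ' : ∀ σ ∈ P.inertiaSubgroupIn ℚ, ∃ s ∈ Γ, ∀ c : Qbar, SemilinearAut.baseAut s c = σ c)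
    (hscal₁ : ∀ f : F, f ≠ 0 → IsFixed Γ f →
      ∃ c : Qbar, c ≠ 0 ∧ IsFixedK Γ c ∧ O₁.valuation (c • f) = 1)
    (hscal₂ : ∀ f : F, f ≠ 0 → IsFixed Γ f →
      ∃ c : Qbar, c ≠ 0 ∧ IsFixedK Γ c ∧ O₂.valuation (c • f) = 1) :
    Fermat.Agent.S33x.W.LatticeFixed2.FixData2 R Γ :=
  ⟨residue_surj2 R Γ hℓ hP hΓ, unif2 Γ hℓ hP hΓ hΓ', scal_fixed2_twoVal R Γ hscal₁ hscal₂⟩

end Pair

/-! ### The instance at level `M q` -/

section Level

open ModularCurve
open Fermat.Agent.Gateway.Hecke Fermat.Agent.S34x.TwoVal Fermat.Agent.S34x.Inst.RedSetupInst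

local notation "Qbar" => AlgebraicClosure ℚ

/-- The coefficientwise action of the inertia group of `P` on the function field of level `N`
over `Qbar`, as a set of semilinear automorphisms. -/
abbrev inertiaAct (P : ValuationSubring Qbar) (N : ℕ) :
    Set (SemilinearAut Qbar (laurentBaseChange Qbar (modularFunctionFieldFull N))) :=
  arithmeticGalois (L := Qbar) (modularFunctionFieldFull N) ''
    (P.inertiaSubgroupIn ℚ : Set (Qbar ≃ₐ[ℚ] Qbar))

theorem inertiaAct_baseAut (P : ValuationSubring Qbar) (N : ℕ) :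
    ∀ s ∈ inertiaAct P N, ∃ σ ∈ P.inertiaSubgroupIn ℚ,
      ∀ c : Qbar, SemilinearAut.baseAut s c = σ c := by
  rintro _ ⟨σ, hσ, rfl⟩
  exact ⟨σ, hσ, fun c => rfl⟩

theorem inertiaAct_baseAut' (P : ValuationSubring Qbar) (N : ℕ) :
    ∀ σ ∈ P.inertiaSubgroupIn ℚ, ∃ s ∈ inertiaAct P N,
      ∀ c : Qbar, SemilinearAut.baseAut s c = σ c := by
  intro σ hσ
  exact ⟨_, ⟨σ, hσ, rfl⟩, fun c => rfl⟩

/-- **`hF`**: the function field of level `N` over `Qbar` is spanned by the inertia-fixed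
functions. -/
theorem span_fixed_inertiaAct (P : ValuationSubring Qbar) (N : ℕ) :
    Submodule.span Qbar
      {f : laurentBaseChange Qbar (modularFunctionFieldFull N) | IsFixed (inertiaAct P N) f} = ⊤ := by
  have : Algebra.IsAlgebraic ℚ Qbar := AlgebraicClosure.isAlgebraic ℚ
  refine Fermat.Agent.S19x.Geo.FixDataInertiaSpan.span_fixed_eq_top (inertiaAct P N) ?_
  rintro _ ⟨σ, -, rfl⟩
  exact ⟨σ, rfl⟩

variable (P : ValuationSubring Qbar) {k : Type} [Field k] (π : P →+* k) [IsAlgClosed k]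
variable (M q : ℕ) [NeZero M] [Fact q.Prime] [CharP k q]
variable (hdeg : finrankAlong Qbar (heckeAlphaBar Qbar M q) = q + 1) (hq : q.Prime)
  (hqM : ¬ q ∣ M)
variable (hrk : ∀ x ∈ maximalIdeal P, ∀ c : P, c ≠ 0 → ∃ j : ℕ, c ∣ x ^ j)
  (hπ : Function.Surjective π)

variable {P π M q hdeg hq hqM hrk hπ}

/-- **`FixData2` (of `S33x/H1/LatticeFixed2`) at level `M q`** for the coefficientwise action of
the inertia group, from the two one-valuation `scal_fixed` statements (leaf (W2b)). -/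
theorem fixData2_redSetup2 (H : ResidueFacts P π M q hdeg hq hqM hrk hπ)
    (hA : P.LiesOverPrime q)
    (hscal₁ : ∀ f : FL Qbar (M * q), f ≠ 0 → IsFixed (inertiaAct P (M * q)) f →
      ∃ c : Qbar, c ≠ 0 ∧ IsFixedK (inertiaAct P (M * q)) c ∧
        (valInfty P π M q hrk hπ hqM).valuation (c • f) = 1)
    (hscal₂ : ∀ f : FL Qbar (M * q), f ≠ 0 → IsFixed (inertiaAct P (M * q)) f →
      ∃ c : Qbar, c ≠ 0 ∧ IsFixedK (inertiaAct P (M * q)) c ∧
        (valZero P π M q hdeg hq hqM hrk hπ).valuation (c • f) = 1) :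
    Fermat.Agent.S33x.H1.LatticeFixed2.FixData2 (redSetup2 H hA) (inertiaAct P (M * q)) :=
  fixData2_twoVal (redSetup2 H hA) (inertiaAct P (M * q)) hq hA
    (inertiaAct_baseAut P (M * q)) (inertiaAct_baseAut' P (M * q)) hscal₁ hscal₂

/-- **`FixData2` (of `S33x/W/LatticeFixed2`) at level `M q`** for the coefficientwise action of
the inertia group, from the two one-valuation `scal_fixed` statements (leaf (W2b)). -/
theorem fixData2W_redSetup2 (H : ResidueFacts P π M q hdeg hq hqM hrk hπ)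
    (hA : P.LiesOverPrime q)
    (hscal₁ : ∀ f : FL Qbar (M * q), f ≠ 0 → IsFixed (inertiaAct P (M * q)) f →
      ∃ c : Qbar, c ≠ 0 ∧ IsFixedK (inertiaAct P (M * q)) c ∧
        (valInfty P π M q hrk hπ hqM).valuation (c • f) = 1)
    (hscal₂ : ∀ f : FL Qbar (M * q), f ≠ 0 → IsFixed (inertiaAct P (M * q)) f →
      ∃ c : Qbar, c ≠ 0 ∧ IsFixedK (inertiaAct P (M * q)) c ∧
        (valZero P π M q hdeg hq hqM hrk hπ).valuation (c • f) = 1) :
    Fermat.Agent.S33x.W.LatticeFixed2.FixData2 (redSetup2 H hA) (inertiaAct P (M * q)) :=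
  fixData2W_twoVal (redSetup2 H hA) (inertiaAct P (M * q)) hq hA
    (inertiaAct_baseAut P (M * q)) (inertiaAct_baseAut' P (M * q)) hscal₁ hscal₂

end Level

end Fermat.Agent.S33x.H1.FixData2Inst
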