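/-
P-S33, W-STRUCTURE, leaf (W2c), FINAL (helper9): the UNCONDITIONAL `FixData2` at level `M q`.

`Qbar = AlgebraicClosure Q`, `P` a valuation subring of `Qbar` over the prime `q`, `q` not dividing
`M`, `R = redSetup2 H hA` the concrete `RedSetup2` of the two Gauss valuations of the function field
of level `M q` (`S34x/Inst/RedSetupInst`), `Gam` = the inertia group of `P` acting coefficientwise.

* `fixData2`, `fixData2W` : `FixData2 R (inertiaAct P (M q))` (the structure of
  `S33x/H1/LatticeFixed2`, resp. `S33x/W/LatticeFixed2`).  Inputs: `H1/FixData2Inst` (W2c: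
  `residue_surj`, `unif`, sup-norm combination) and `W/ScalFixed2` (W2b, helper13: both Gauss
  valuations are unramified on inertia-fixed functions).
* `inertiaAct_eq_galSL`, `inertiaAct_eq_setOf` : the same set of semilinear automorphisms in the
  vocabulary of `W/ScalFixed2.galSL` and in the set-builder form of `Cech/CtxMq.ctxGal_inertia`.
* `fixData2_galSL`, `fixData2_setOf`, `fixData2W_galSL`, `fixData2W_setOf` : `FixData2` for these
  forms of the set.
* `span_fixed_setOf` : `hF` for the set-builder form.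
-/
import Mathlib
import Fermat.Agent.S33x.H1.FixData2Inst
import Fermat.Agent.S33x.W.ScalFixed2

set_option autoImplicit false
set_option linter.unusedSectionVars false
set_option linter.unusedVariables false

noncomputable section

namespace Fermat.Agent.S33x.H1.FixData2Final

open AlgebraicCurve IsLocalRing ModularCurve
open Fermat.Agent.S34x.C0two
open Fermat.Agent.S19x.Geo.LatticeFixed (IsFixed IsFixedK)
open Fermat.Agent.Gateway.Hecke Fermat.Agent.S34x.TwoVal Fermat.Agent.S34x.Inst.RedSetupInst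
open Fermat.Agent.S33x.H1.FixData2Inst Fermat.Agent.S33x.W.ScalFixed2

local notation "Qbar" => AlgebraicClosure ℚ

/-! ### Three forms of the same set of semilinear automorphisms -/

theorem inertiaAct_eq_galSL (P : ValuationSubring Qbar) (N : ℕ) [NeZero N] :
    inertiaAct P N = galSL Qbar N (P.inertiaSubgroupIn ℚ : Set (Qbar ≃ₐ[ℚ] Qbar)) := rfl

theorem inertiaAct_eq_setOf (P : ValuationSubring Qbar) (N : ℕ) :
    inertiaAct P N =
      {g | ∃ τ ∈ P.inertiaSubgroupIn ℚ, g = arithmeticGalois (modularFunctionFieldFull N) τ} := by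
  ext g
  constructor
  · rintro ⟨τ, hτ, rfl⟩
    exact ⟨τ, hτ, rfl⟩
  · rintro ⟨τ, hτ, rfl⟩
    exact ⟨τ, hτ, rfl⟩

/-- **`hF`**, set-builder form. -/
theorem span_fixed_setOf (P : ValuationSubring Qbar) (N : ℕ) :
    Submodule.span Qbar
      {f : laurentBaseChange Qbar (modularFunctionFieldFull N) |
        IsFixed {g | ∃ τ ∈ P.inertiaSubgroupIn ℚ,
          g = arithmeticGalois (modularFunctionFieldFull N) τ} f} = ⊤ := by
  rw [← inertiaAct_eq_setOf]
  exact span_fixed_inertiaAct P N

/-! ### The unconditional `FixData2` -/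

variable {P : ValuationSubring Qbar} {k : Type} [Field k] {π : P →+* k} [IsAlgClosed k]
variable {M q : ℕ} [NeZero M] [Fact q.Prime] [CharP k q]
variable {hdeg : finrankAlong Qbar (heckeAlphaBar Qbar M q) = q + 1} {hq : q.Prime}
  {hqM : ¬ q ∣ M}
variable {hrk : ∀ x ∈ maximalIdeal P, ∀ c : P, c ≠ 0 → ∃ j : ℕ, c ∣ x ^ j}
  {hπ : Function.Surjective π}

/-- **`FixData2` (of `S33x/H1/LatticeFixed2`) at level `M q`** for the coefficientwise action of
the inertia group of `P`. -/
theorem fixData2 (H : ResidueFacts P π M q hdeg hq hqM hrk hπ) (hA : P.LiesOverPrime q) :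
    Fermat.Agent.S33x.H1.LatticeFixed2.FixData2 (redSetup2 H hA) (inertiaAct P (M * q)) :=
  fixData2_redSetup2 H hA
    (fun f hf hfix => scal_fixed_infty_semilinear P π M q hdeg hq hqM hrk hπ
      (P.inertiaSubgroupIn ℚ : Set (Qbar ≃ₐ[ℚ] Qbar)) f hf hfix)
    (fun f hf hfix => scal_fixed_zero_semilinear P π M q hdeg hq hqM hrk hπ
      (P.inertiaSubgroupIn ℚ : Set (Qbar ≃ₐ[ℚ] Qbar)) f hf hfix)

/-- **`FixData2` (of `S33x/W/LatticeFixed2`) at level `M q`** for the coefficientwise action of
the inertia group of `P`. -/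
theorem fixData2W (H : ResidueFacts P π M q hdeg hq hqM hrk hπ) (hA : P.LiesOverPrime q) :
    Fermat.Agent.S33x.W.LatticeFixed2.FixData2 (redSetup2 H hA) (inertiaAct P (M * q)) :=
  fixData2W_redSetup2 H hA
    (fun f hf hfix => scal_fixed_infty_semilinear P π M q hdeg hq hqM hrk hπ
      (P.inertiaSubgroupIn ℚ : Set (Qbar ≃ₐ[ℚ] Qbar)) f hf hfix)
    (fun f hf hfix => scal_fixed_zero_semilinear P π M q hdeg hq hqM hrk hπ
      (P.inertiaSubgroupIn ℚ : Set (Qbar ≃ₐ[ℚ] Qbar)) f hf hfix)

/-- `fixData2` in the vocabulary of `W/ScalFixed2.galSL`. -/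
theorem fixData2_galSL (H : ResidueFacts P π M q hdeg hq hqM hrk hπ) (hA : P.LiesOverPrime q) :
    Fermat.Agent.S33x.H1.LatticeFixed2.FixData2 (redSetup2 H hA)
      (galSL Qbar (M * q) (P.inertiaSubgroupIn ℚ : Set (Qbar ≃ₐ[ℚ] Qbar))) :=
  fixData2 H hA

/-- `fixData2W` in the vocabulary of `W/ScalFixed2.galSL`. -/
theorem fixData2W_galSL (H : ResidueFacts P π M q hdeg hq hqM hrk hπ) (hA : P.LiesOverPrime q) :
    Fermat.Agent.S33x.W.LatticeFixed2.FixData2 (redSetup2 H hA)
      (galSL Qbar (M * q) (P.inertiaSubgroupIn ℚ : Set (Qbar ≃ₐ[ℚ] Qbar))) :=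
  fixData2W H hA

/-- `fixData2` for the set-builder form of the inertia action (`Cech/CtxMq.ctxGal_inertia`). -/
theorem fixData2_setOf (H : ResidueFacts P π M q hdeg hq hqM hrk hπ) (hA : P.LiesOverPrime q) :
    Fermat.Agent.S33x.H1.LatticeFixed2.FixData2 (redSetup2 H hA)
      {g | ∃ τ ∈ P.inertiaSubgroupIn ℚ,
        g = arithmeticGalois (modularFunctionFieldFull (M * q)) τ} := by
  rw [← inertiaAct_eq_setOf]
  exact fixData2 H hA

/-- `fixData2W` for the set-builder form of the inertia action (`Cech/CtxMq.ctxGal_inertia`). -/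
theorem fixData2W_setOf (H : ResidueFacts P π M q hdeg hq hqM hrk hπ) (hA : P.LiesOverPrime q) :
    Fermat.Agent.S33x.W.LatticeFixed2.FixData2 (redSetup2 H hA)
      {g | ∃ τ ∈ P.inertiaSubgroupIn ℚ,
        g = arithmeticGalois (modularFunctionFieldFull (M * q)) τ} := by
  rw [← inertiaAct_eq_setOf]
  exact fixData2W H hA

end Fermat.Agent.S33x.H1.FixData2Final
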