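import Fermat.Agent.S33x.H1.InstFixed
import Fermat.Agent.S33x.H1.InstBridge
import Fermat.Agent.S33x.H1.StableLN
import Fermat.Agent.S33x.H1.FixData2Inst
import Fermat.Agent.S33x.W.ScalFixedTwo

/-!
# P-S33 (H1, leaf (B1) at the CONCRETE level `M q`; helper50)

The Cech direct sum decomposition of the chart rings `InstC4.BxAlg C`, `BooAlg C`, `BzeroAlg C`
with inertia-FIXED `aᵢ`, in the variable context of `S34x/Inst/TheoremBMq`:

* `exists_directSum_fixed_prod` : `InstFixed.exists_directSum_fixed` at `κ = E × E`,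
  `T = (x, x ^ q)` (only `hcart` and the three hypotheses on `Γ` left);
* `exists_directSum_fixed_Mq` : at level `M q`, for ANY set `Γ` of semilinear automorphisms
  fixing the coordinate, with `hD : FixData2 (redSetup2 H hA) Γ` and `hF`;
* `fixData2_inertia`, `fixData2W_inertia` : `FixData2` (both copies) for the inertia action at
  level `M q` over `Qbar`, NO hypothesis left (W2c `FixData2Inst` + W2b `ScalFixedTwo`);
* `exists_directSum_fixed_inertia` : the final statement over `Qbar` for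
  `Γ = FixData2Inst.inertiaAct P (M * q)`; only the good level facts `Hx` left.
-/

set_option autoImplicit false
set_option linter.style.haveILetI false
set_option linter.unusedSectionVars false

noncomputable section

namespace Fermat.Agent.S33x.H1.InstFixedMq

open ModularCurve AlgebraicCurve IntermediateField IsLocalRing Module
open Fermat.Agent.Gateway.Hecke Fermat.Agent.Gateway.ESC
open Fermat.Agent.Gateway.Red Fermat.Agent.Gateway.GoodRed
open Fermat.Agent.Gateway.GoodRed.ConjFamily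
open Fermat.Agent.Gateway.C0
open Fermat.Agent.S34x.TwoVal Fermat.Agent.S34x.C0two Fermat.Agent.S34x.Lattice2
open Fermat.Agent.S34x.Inst.L2 Fermat.Agent.S34x.Inst.IsL2Inst
open Fermat.Agent.S34x.Inst.RedSetupInst Fermat.Agent.S34x.Inst.ElementYRed
open Fermat.Agent.S34x.Inst.ElementYInt Fermat.Agent.S34x.Inst.Charts
open Fermat.Agent.S34x.Inst Fermat.Agent.S34x.Inst.TheoremBMq
open Fermat.Agent.S33x.H1.InstC1
open Fermat.Agent.S33x.Cech.OfDirectSum
open Fermat.Agent.S19x.Geo.LatticeFixed (IsFixed IsFixedK)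

attribute [-instance] IsScalarTower.of_algHom

section GenericProd

variable {K : Type*} [Field K] [IsAlgClosed K] [CharZero K] {A : ValuationSubring K}
  {F : Type*} [Field F] [Algebra K F] {S : SmallRing F}
  {k : Type*} [Field k] [IsAlgClosed k] {E : Type*} [Field E] [Algebra k E] {x : E}
  (hx : Transcendental k x) [FiniteDimensional k⟮x⟯ E] [Algebra.IsSeparable k⟮x⟯ E]
  {q : ℕ} (hq : 0 < q)
  {R : RedSetup2 A S k (E × E)} (C : ChartCoord R) (hT : C.T = (x, x ^ q))
  (ht : Transcendental K C.t) [FiniteDimensional K⟮C.t⟯ F]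
  {Dt : Divisor K F} (hDt : ∀ v : Place K F, Dt v = v.ord C.t)
  (hcart : ∀ V : Submodule K F, FiniteDimensional K V → (R.lat V).FG)

include hx hq hT ht hDt hcart in
/-- `InstFixed.exists_directSum_fixed` at `κ = E × E`, `T = (x, x ^ q)`. -/
theorem exists_directSum_fixed_prod (Γ : Set (SemilinearAut K F))
    (hD : LatticeFixed2.FixData2 R Γ)
    (hF : Submodule.span K {f : F | IsFixed Γ f} = ⊤)
    (hΓ : ∀ g ∈ Γ, g • C.t = C.t) :
    ∃ (b₁ g : ℕ) (a : Fin g → F), (∀ i, a i ∈ Lam C b₁ b₁) ∧ (∀ i, IsFixed Γ (a i)) ∧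
      DirectSum (InstC4.BxAlg C) (InstC4.BooAlg C) (InstC4.BzeroAlg C) a := by
  haveI hPfin : ∀ b, FiniteDimensional k (C.Pk 0 b) :=
    fun b => Fermat.Agent.S34x.Inst.CountsInst.finite_Pk hx hq C hT 0 b
  obtain ⟨b₀, hgen⟩ := exists_hgen_prod hx hq C hT
  exact InstFixed.exists_directSum_fixed C ht hDt hcart hgen
    (fun y hy => InstBF2.exists_const_of_mem_Pk_zero hx hq C hT hy) Γ hD hF
    (fun a b => StableLN.stable_LN C hΓ a b)

end GenericProd

section Mq

variable {L : Type} [Field L] [Algebra ℚ L] [IsAlgClosed L] [Algebra.IsAlgebraic ℚ L]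
  {A : ValuationSubring L} {k : Type} [Field k] {π : A →+* k} [IsAlgClosed k]
variable {M q : ℕ} [NeZero M] [NeZero q] [Fact q.Prime] [CharP k q]
variable {hdeg : finrankAlong L (heckeAlphaBar L M q) = q + 1} {hq : q.Prime} {hqM : ¬ q ∣ M}
variable {hrk : ∀ x ∈ maximalIdeal A, ∀ c : A, c ≠ 0 → ∃ j : ℕ, c ∣ x ^ j}
  {hπ : Function.Surjective π}
variable (H : ResidueFacts A π M q hdeg hq hqM hrk hπ) (hA : A.LiesOverPrime q)
  (x : LaurentSeries ℤ) (hx : coeffMap (Int.castRingHom L) x ∈ FBar L M)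
  (Hx : GoodLevelFactsT A π M q hπ hqM (tInt M x hx))
variable (C : ChartCoord (redSetup2 H hA)) (hCt : C.t = tA M q x hx)

include Hx hCt hA in
/-- **(B1) at level `M q`**: the Cech direct sum decomposition with `Γ`-fixed `aᵢ`, for any set
`Γ` of semilinear automorphisms fixing the coordinate `t = α t'`. -/
theorem exists_directSum_fixed_Mq (Γ : Set (SemilinearAut L (FL L (M * q))))
    (hD : LatticeFixed2.FixData2 (redSetup2 H hA) Γ)
    (hF : Submodule.span L {f : FL L (M * q) | IsFixed Γ f} = ⊤)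
    (hΓ : ∀ g ∈ Γ, g • C.t = C.t) :
    ∃ (b₁ g : ℕ) (a : Fin g → FL L (M * q)), (∀ i, a i ∈ Lam C b₁ b₁) ∧
      (∀ i, IsFixed Γ (a i)) ∧
      DirectSum (InstC4.BxAlg C) (InstC4.BooAlg C) (InstC4.BzeroAlg C) a := by
  haveI : CharZero L := algebraRat.charZero L
  haveI := Hx.finite
  have hqpos : 0 < q := (Fact.out : q.Prime).pos
  have hT1 := T_fst_eq H hA x hx Hx C hCt
  have hxtr : Transcendental k C.T.1 := by rw [hT1]; exact Hx.trans_res
  haveI hxfin : FiniteDimensional k⟮C.T.1⟯ (Fk k M) := by rw [hT1]; exact Hx.finite_res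
  haveI hxsep : Algebra.IsSeparable k⟮C.T.1⟯ (Fk k M) := by rw [hT1]; exact Hx.sep_res
  have ht : Transcendental L C.t := by
    rw [hCt]; exact Charts.transcendental_tα L M q Hx.trans
  haveI htfin : FiniteDimensional L⟮C.t⟯ (FL L (M * q)) := by
    rw [hCt]; exact finiteDimensional_tA x hx Hx
  exact exists_directSum_fixed_prod hxtr hqpos C (T_eq H hA x hx Hx C hCt) ht
    (Charts.divT_apply ht) (fun V hV => cartesian H hA x hx Hx V hV) Γ hD hF hΓ

end Mq

section QbarLevel

open Fermat.Agent.S33x.H1.FixData2Inst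

local notation "Qbar" => AlgebraicClosure ℚ

variable {P : ValuationSubring Qbar} {k : Type} [Field k] {π : P →+* k} [IsAlgClosed k]
variable {M q : ℕ} [NeZero M] [NeZero q] [Fact q.Prime] [CharP k q]
variable {hdeg : finrankAlong Qbar (heckeAlphaBar Qbar M q) = q + 1} {hq : q.Prime}
  {hqM : ¬ q ∣ M}
variable {hrk : ∀ x ∈ maximalIdeal P, ∀ c : P, c ≠ 0 → ∃ j : ℕ, c ∣ x ^ j}
  {hπ : Function.Surjective π}
variable (H : ResidueFacts P π M q hdeg hq hqM hrk hπ) (hA : P.LiesOverPrime q)

include H in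
/-- the first one-valuation `scal_fixed` statement (W2b) in the literal form of `FixData2Inst` -/
theorem hscal_infty : ∀ f : FL Qbar (M * q), f ≠ 0 → IsFixed (inertiaAct P (M * q)) f →
    ∃ c : Qbar, c ≠ 0 ∧ IsFixedK (inertiaAct P (M * q)) c ∧
      (valInfty P π M q hrk hπ hqM).valuation (c • f) = 1 := by
  intro f hf hfix
  exact Fermat.Agent.S33x.W.ScalFixedTwo.scal_fixed_infty_semilinear P π M q hdeg hq hqM hrk hπ
    (P.inertiaSubgroupIn ℚ : Set (Qbar ≃ₐ[ℚ] Qbar)) f hf hfix

include H in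
/-- the second one-valuation `scal_fixed` statement (W2b) in the literal form of `FixData2Inst` -/
theorem hscal_zero : ∀ f : FL Qbar (M * q), f ≠ 0 → IsFixed (inertiaAct P (M * q)) f →
    ∃ c : Qbar, c ≠ 0 ∧ IsFixedK (inertiaAct P (M * q)) c ∧
      (valZero P π M q hdeg hq hqM hrk hπ).valuation (c • f) = 1 := by
  intro f hf hfix
  exact Fermat.Agent.S33x.W.ScalFixedTwo.scal_fixed_zero_semilinear P π M q hdeg hq hqM hrk hπ
    (P.inertiaSubgroupIn ℚ : Set (Qbar ≃ₐ[ℚ] Qbar)) f hf hfix

/-- **`FixData2` (copy of `H1/LatticeFixed2`) for the inertia action at level `M q`**, no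
hypothesis left. -/
theorem fixData2_inertia :
    LatticeFixed2.FixData2 (redSetup2 H hA) (inertiaAct P (M * q)) :=
  fixData2_redSetup2 H hA (hscal_infty H) (hscal_zero H)

/-- **`FixData2` (copy of `W/LatticeFixed2`) for the inertia action at level `M q`**, no
hypothesis left. -/
theorem fixData2W_inertia :
    Fermat.Agent.S33x.W.LatticeFixed2.FixData2 (redSetup2 H hA) (inertiaAct P (M * q)) :=
  fixData2W_redSetup2 H hA (hscal_infty H) (hscal_zero H)

variable (x : LaurentSeries ℤ) (hx : coeffMap (Int.castRingHom Qbar) x ∈ FBar Qbar M)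
  (Hx : GoodLevelFactsT P π M q hπ hqM (tInt M x hx))
variable (C : ChartCoord (redSetup2 H hA)) (hCt : C.t = tA M q x hx)

include hCt in
/-- the inertia action fixes the coordinate `t = α t'` -/
theorem inertiaAct_smul_t : ∀ g ∈ inertiaAct P (M * q), g • C.t = C.t := by
  rintro _ ⟨τ, -, rfl⟩
  rw [hCt]
  exact GaloisInst.gal_smul_alpha_eq_self_int M q τ (tInt M x hx) x rfl

include Hx hCt in
/-- **(B1) over `Qbar` at level `M q`, final form**: the Cech direct sum decomposition of the
chart rings with inertia-fixed `aᵢ`; only the good level facts `Hx` are left. -/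
theorem exists_directSum_fixed_inertia :
    ∃ (b₁ g : ℕ) (a : Fin g → FL Qbar (M * q)), (∀ i, a i ∈ Lam C b₁ b₁) ∧
      (∀ i, IsFixed (inertiaAct P (M * q)) (a i)) ∧
      DirectSum (InstC4.BxAlg C) (InstC4.BooAlg C) (InstC4.BzeroAlg C) a := by
  haveI : Algebra.IsAlgebraic ℚ Qbar := AlgebraicClosure.isAlgebraic ℚ
  exact exists_directSum_fixed_Mq H hA x hx Hx C hCt (inertiaAct P (M * q))
    (fixData2_inertia H hA) (span_fixed_inertiaAct P (M * q))
    (inertiaAct_smul_t H hA x hx C hCt)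

end QbarLevel

end Fermat.Agent.S33x.H1.InstFixedMq
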