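import Mathlib
import Fermat.Agent.S33x.H1.LatticeFixed2

/-!
# P-S33, W-STRUCTURE (helper17): the fixed ring `W = A^Γ` and fixed decompositions

On top of `H1/LatticeFixed2` (`R : C0two.RedSetup2 A S k κ`, `Γ` a set of semilinear automorphisms
of `F / K`, `hD : FixData2 R Γ`):

* `fixedSubring Γ : Subring A` : the ring `W = A^Γ` of fixed integral scalars; it is a valuation
  ring (`valuationRing_fixedSubring`, no hypothesis), hence local; under `FixData2` its residue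
  field is `k` (`π_fixed_surjective`) and every element of its maximal ideal is divisible IN `W` by
  the fixed uniformiser (`exists_unif_fixedSubring`);
* `fixedLat Γ R V : Submodule W F` : the fixed elements of `V ∩ O`; finitely generated over `W`
  (`fixedLat_fg`: spanned by a fixed frame);
* `fixed_decomp` : **fixed Nakayama**.  If `U i ≤ V` are finitely many subspaces (finite
  dimensional, cartesian, spanned by fixed elements) and the reduction of `V ∩ O` is the sum of the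
  reductions of the `U i ∩ O`, then every FIXED element of `V ∩ O` is a sum of FIXED elements of
  the `U i ∩ O`.  (`fixed_decomp_three` : the same for three subspaces, the shape of the Cech
  decomposition `Λ(a,b) = Λ(a,0) + Λ(0,b) + ∑ A aᵢ`.)
* `exists_fixedSubring_coeff` : coordinates in `W` of a fixed vector in a fixed frame.
-/

set_option autoImplicit false
set_option linter.unusedSectionVars false
set_option linter.style.haveILetI false

noncomputable section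

namespace Fermat.Agent.S33x.H1.FixedDecomp

open AlgebraicCurve IsLocalRing Module
open Fermat.Agent.S34x.C0two Fermat.Agent.S19x.Geo.LatticeFixed
  Fermat.Agent.S33x.H1.LatticeFixed2

variable {K : Type*} [Field K] {A : ValuationSubring K} {F : Type*} [Field F] [Algebra K F]
  {S : SmallRing F} {k κ : Type*} [Field k] [CommRing κ] [Algebra k κ]

/-! ### The fixed ring -/

section Ring

variable (Γ : Set (SemilinearAut K F))

/-- **The ring `W = A^Γ`** of fixed elements of `A`. -/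
def fixedSubring : Subring A where
  carrier := {a | IsFixedK Γ (a : K)}
  mul_mem' := fun ha hb => IsFixedK.mul ha hb
  one_mem' := IsFixedK.one
  add_mem' := fun ha hb => IsFixedK.add ha hb
  zero_mem' := IsFixedK.zero
  neg_mem' := fun {a} ha s hs => by
    show SemilinearAut.baseAut s (-(a : K)) = -(a : K)
    rw [map_neg, ha s hs]

variable {Γ}

theorem mem_fixedSubring {a : A} : a ∈ fixedSubring (A := A) Γ ↔ IsFixedK Γ (a : K) := Iff.rfl

theorem isFixedK_coe (w : fixedSubring (A := A) Γ) : IsFixedK Γ (((w : A) : K)) := w.2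

/-- the action of `W` on `F` is the action of `K`. -/
theorem fixedSubring_smul_eq (w : fixedSubring (A := A) Γ) (x : F) :
    w • x = (((w : A) : K)) • x := rfl

variable (Γ) in
/-- **`W` is a valuation ring.** -/
theorem valuationRing_fixedSubring : ValuationRing (fixedSubring (A := A) Γ) := by
  refine { cond' := fun a b => ?_ }
  have ha : IsFixedK Γ (((a : A) : K)) := a.2
  have hb : IsFixedK Γ (((b : A) : K)) := b.2
  by_cases hx : ((a : A) : K) = 0
  · refine ⟨0, Or.inr ?_⟩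
    rw [mul_zero]
    exact Subtype.ext (Subtype.ext hx.symm)
  · rcases A.mem_or_inv_mem (((b : A) : K) / ((a : A) : K)) with h | h
    · refine ⟨⟨⟨_, h⟩, hb.div ha⟩, Or.inl ?_⟩
      apply Subtype.ext
      apply Subtype.ext
      show ((a : A) : K) * (((b : A) : K) / ((a : A) : K)) = ((b : A) : K)
      field_simp
    · by_cases hy : ((b : A) : K) = 0
      · refine ⟨0, Or.inl ?_⟩
        rw [mul_zero]
        exact Subtype.ext (Subtype.ext hy.symm)
      · rw [inv_div] at h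
        refine ⟨⟨⟨_, h⟩, ha.div hb⟩, Or.inr ?_⟩
        apply Subtype.ext
        apply Subtype.ext
        show ((b : A) : K) * (((a : A) : K) / ((b : A) : K)) = ((a : A) : K)
        field_simp

instance instValuationRingFixedSubring : ValuationRing (fixedSubring (A := A) Γ) :=
  valuationRing_fixedSubring Γ

/-- a fixed element of `A` is a unit of `W` iff it is a unit of `A`. -/
theorem isUnit_fixedSubring_iff (a : fixedSubring (A := A) Γ) : IsUnit a ↔ IsUnit (a : A) := by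
  constructor
  · intro h
    exact h.map (Subring.subtype (fixedSubring (A := A) Γ))
  · intro h
    obtain ⟨b, hb⟩ := h.exists_right_inv
    have hbK : ((b : A) : K) = (((a : A) : K))⁻¹ := by
      have h1 : ((a : A) : K) * ((b : A) : K) = 1 := by
        have := congrArg (Subtype.val) hb
        simpa using this
      exact eq_inv_of_mul_eq_one_right h1
    have hbfix : b ∈ fixedSubring (A := A) Γ := by
      show IsFixedK Γ ((b : A) : K)
      rw [hbK]
      exact (isFixedK_coe a).inv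
    refine IsUnit.of_mul_eq_one (⟨b, hbfix⟩ : fixedSubring (A := A) Γ) ?_
    exact Subtype.ext hb

/-- the maximal ideal of `W` is `𝔪_A ∩ W`. -/
theorem mem_maximalIdeal_fixedSubring_iff (a : fixedSubring (A := A) Γ) :
    a ∈ maximalIdeal (fixedSubring (A := A) Γ) ↔ (a : A) ∈ maximalIdeal A := by
  rw [mem_maximalIdeal, mem_nonunits_iff, mem_maximalIdeal, mem_nonunits_iff,
    isUnit_fixedSubring_iff]

/-- divisibility by a fixed element descends to `W`. -/
theorem dvd_fixedSubring {ϖ a : fixedSubring (A := A) Γ} (hϖ0 : ϖ ≠ 0)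
    (h : (ϖ : A) ∣ (a : A)) : ϖ ∣ a := by
  obtain ⟨b, hb⟩ := h
  have hϖK : (((ϖ : A) : K)) ≠ 0 := fun h0 => hϖ0 (Subtype.ext (Subtype.ext h0))
  have hbK : ((b : A) : K) = ((a : A) : K) / ((ϖ : A) : K) := by
    have h1 : ((a : A) : K) = ((ϖ : A) : K) * ((b : A) : K) := by rw [hb]; rfl
    rw [h1, mul_div_cancel_left₀ _ hϖK]
  have hbfix : b ∈ fixedSubring (A := A) Γ := by
    show IsFixedK Γ ((b : A) : K)
    rw [hbK]
    exact (isFixedK_coe a).div (isFixedK_coe ϖ)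
  exact ⟨⟨b, hbfix⟩, Subtype.ext hb⟩

end Ring

/-! ### Consequences of `FixData2` for `W` -/

section Data

variable {R : RedSetup2 A S k κ} {Γ : Set (SemilinearAut K F)}

/-- the residue field of `W` is `k`. -/
theorem π_fixed_surjective (hD : FixData2 R Γ) :
    Function.Surjective (R.π.comp (Subring.subtype (fixedSubring (A := A) Γ))) := fun c => by
  obtain ⟨a, hafix, ha⟩ := hD.exists_fixed_coeff c
  exact ⟨⟨a, hafix⟩, ha⟩

/-- **the uniformiser of `W`**: a nonzero element of the maximal ideal of `W` dividing (in `W`)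
every element of the maximal ideal of `W`. -/
theorem exists_unif_fixedSubring (hD : FixData2 R Γ) :
    ∃ ϖ : fixedSubring (A := A) Γ, ϖ ≠ 0 ∧ ϖ ∈ maximalIdeal (fixedSubring (A := A) Γ) ∧
      ∀ c ∈ maximalIdeal (fixedSubring (A := A) Γ), ϖ ∣ c := by
  obtain ⟨ϖ, hϖm, hϖ0, hϖfix, hϖdvd⟩ := hD.unif
  have h0 : (⟨ϖ, hϖfix⟩ : fixedSubring (A := A) Γ) ≠ 0 := fun h =>
    hϖ0 (congrArg (Subring.subtype (fixedSubring (A := A) Γ)) h)
  refine ⟨⟨ϖ, hϖfix⟩, h0, (mem_maximalIdeal_fixedSubring_iff _).2 hϖm, fun c hc => ?_⟩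
  exact dvd_fixedSubring h0 (hϖdvd (c : A) c.2 ((mem_maximalIdeal_fixedSubring_iff c).1 hc))

/-- the maximal ideal of `W` is principal. -/
theorem maximalIdeal_fixedSubring_eq_span (hD : FixData2 R Γ) :
    ∃ ϖ : fixedSubring (A := A) Γ, ϖ ≠ 0 ∧
      maximalIdeal (fixedSubring (A := A) Γ) = Ideal.span {ϖ} := by
  obtain ⟨ϖ, hϖ0, hϖm, hϖdvd⟩ := exists_unif_fixedSubring hD
  refine ⟨ϖ, hϖ0, le_antisymm (fun c hc => Ideal.mem_span_singleton.2 (hϖdvd c hc)) ?_⟩
  rw [Ideal.span_le]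
  rintro _ rfl
  exact hϖm

end Data

/-! ### The fixed lattice -/

section Lat

variable (Γ : Set (SemilinearAut K F)) (R : RedSetup2 A S k κ)

/-- **The fixed lattice** `(V ∩ O)^Γ`, a `W`-submodule of `F`. -/
def fixedLat (V : Submodule K F) : Submodule (fixedSubring (A := A) Γ) F where
  carrier := {x | x ∈ V ∧ x ∈ S.O ∧ IsFixed Γ x}
  zero_mem' := ⟨V.zero_mem, S.O.zero_mem, IsFixed.zero⟩
  add_mem' := fun hx hy => ⟨V.add_mem hx.1 hy.1, S.O.add_mem hx.2.1 hy.2.1, hx.2.2.add hy.2.2⟩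
  smul_mem' := fun w x hx => by
    refine ⟨?_, ?_, ?_⟩
    · rw [fixedSubring_smul_eq]
      exact V.smul_mem _ hx.1
    · rw [fixedSubring_smul_eq]
      exact ksmul_mem_O2 R (w : A) hx.2.1
    · rw [fixedSubring_smul_eq]
      exact IsFixed.smul (isFixedK_coe w) hx.2.2

variable {Γ R}

theorem mem_fixedLat {V : Submodule K F} {x : F} :
    x ∈ fixedLat Γ R V ↔ x ∈ V ∧ x ∈ S.O ∧ IsFixed Γ x := Iff.rfl

theorem fixedLat_mono {U V : Submodule K F} (h : U ≤ V) : fixedLat Γ R U ≤ fixedLat Γ R V :=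
  fun _ hx => ⟨h hx.1, hx.2⟩

/-- coordinates in `W` of a fixed vector in a fixed frame. -/
theorem exists_fixedSubring_coeff {V : Submodule K F} {ι : Type*} [Fintype ι]
    {b : ι → F} (hb : FixedFrame2 R Γ V b) {v : F} (hv : v ∈ fixedLat Γ R V) :
    ∃ c : ι → fixedSubring (A := A) Γ, v = ∑ i, c i • b i := by
  obtain ⟨c, hcfix, hc⟩ := hb.exists_fixed_coeff hv.1 hv.2.1 hv.2.2
  exact ⟨fun i => ⟨c i, hcfix i⟩, hc⟩

/-- a fixed frame spans the fixed lattice over `W`. -/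
theorem span_fixedSubring_eq {V : Submodule K F} {ι : Type*} [Fintype ι]
    {b : ι → F} (hb : FixedFrame2 R Γ V b) :
    Submodule.span (fixedSubring (A := A) Γ) (Set.range b) = fixedLat Γ R V := by
  apply le_antisymm
  · refine Submodule.span_le.2 ?_
    rintro _ ⟨i, rfl⟩
    exact ⟨hb.mem_V i, hb.mem_O i, hb.fixed i⟩
  · intro v hv
    obtain ⟨c, rfl⟩ := exists_fixedSubring_coeff hb hv
    exact Submodule.sum_mem _ fun i _ =>
      Submodule.smul_mem _ _ (Submodule.subset_span ⟨i, rfl⟩)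

/-- **the fixed lattice is finitely generated over `W`.** -/
theorem fixedLat_fg (hD : FixData2 R Γ) (V : Submodule K F) [FiniteDimensional K V]
    (hfg : (R.lat V).FG) (hVfix : V ≤ Submodule.span K {f | f ∈ V ∧ IsFixed Γ f}) :
    (fixedLat Γ R V).FG := by
  obtain ⟨b, hb⟩ := exists_fixedFrame2 hD V hfg hVfix
  rw [← span_fixedSubring_eq hb]
  exact Submodule.fg_span (Set.finite_range b)

end Lat

/-! ### Fixed Nakayama -/

section Nakayama

variable {R : RedSetup2 A S k κ} {Γ : Set (SemilinearAut K F)}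

/-- a multiple of the uniformiser lies in the Jacobson radical of `W`. -/
theorem span_unif_le_jacobson {ϖ : fixedSubring (A := A) Γ}
    (hϖm : ϖ ∈ maximalIdeal (fixedSubring (A := A) Γ)) :
    Ideal.span {ϖ} ≤ Ideal.jacobson (⊥ : Ideal (fixedSubring (A := A) Γ)) := by
  rw [IsLocalRing.jacobson_eq_maximalIdeal ⊥ bot_ne_top, Ideal.span_le]
  rintro _ rfl
  exact hϖm

/-- **Fixed Nakayama.**  If the reduction of `V ∩ O` is the sum of the reductions of the
`U i ∩ O`, every fixed element of `V ∩ O` is a sum of fixed elements of the `U i ∩ O`. -/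
theorem fixedLat_le_iSup (hD : FixData2 R Γ) (V : Submodule K F) [FiniteDimensional K V]
    (hfgV : (R.lat V).FG) (hVfix : V ≤ Submodule.span K {f | f ∈ V ∧ IsFixed Γ f})
    {ι : Type*} [Fintype ι] (U : ι → Submodule K F) [∀ i, FiniteDimensional K (U i)]
    (hfgU : ∀ i, (R.lat (U i)).FG)
    (hUfix : ∀ i, U i ≤ Submodule.span K {f | f ∈ U i ∧ IsFixed Γ f})
    (hUV : ∀ i, U i ≤ V)
    (hred : ∀ y ∈ R.redLat V, ∃ z : ι → κ, (∀ i, z i ∈ R.redLat (U i)) ∧ y = ∑ i, z i) :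
    fixedLat Γ R V ≤ ⨆ i, fixedLat Γ R (U i) := by
  classical
  obtain ⟨ϖ, hϖm, hϖ0, hϖfix, hϖdvd⟩ := hD.unif
  set ϖW : fixedSubring (A := A) Γ := ⟨ϖ, hϖfix⟩ with hϖW
  have hϖWm : ϖW ∈ maximalIdeal (fixedSubring (A := A) Γ) :=
    (mem_maximalIdeal_fixedSubring_iff _).2 hϖm
  refine Submodule.le_of_le_smul_of_le_jacobson_bot (fixedLat_fg hD V hfgV hVfix)
    (span_unif_le_jacobson hϖWm) ?_
  intro x hx
  obtain ⟨z, hz, hxz⟩ := hred _ ⟨x, hx.2.1, hx.1, rfl⟩
  have hlift : ∀ i, ∃ (f : F) (hf : f ∈ S.O), f ∈ U i ∧ IsFixed Γ f ∧ R.res ⟨f, hf⟩ = z i :=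
    fun i => exists_fixed_lift2 hD (U i) (hfgU i) (hUfix i) (hz i)
  choose f hfO hfU hffix hfres using hlift
  have hsO : ∑ i, f i ∈ S.O := sum_mem fun i _ => hfO i
  have hdO : x - ∑ i, f i ∈ S.O := S.O.sub_mem hx.2.1 hsO
  have hdV : x - ∑ i, f i ∈ V := V.sub_mem hx.1 (V.sum_mem fun i _ => hUV i (hfU i))
  have hdfix : IsFixed Γ (x - ∑ i, f i) := hx.2.2.sub (IsFixed.sum _ fun i _ => hffix i)
  have hdres : R.res ⟨x - ∑ i, f i, hdO⟩ = 0 := by
    have h1 : (⟨x - ∑ i, f i, hdO⟩ : S.O) = ⟨x, hx.2.1⟩ - ⟨∑ i, f i, hsO⟩ := rfl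
    rw [h1, map_sub, R.res_sum Finset.univ f hfO hsO, hxz, sub_eq_zero]
    exact Finset.sum_congr rfl fun i _ => (hfres i).symm
  obtain ⟨g, hgV, hgO, hgfix, hg⟩ :=
    hD.exists_eq_unif_smul_mem hϖfix hϖ0 hϖdvd V hdV hdO hdfix hdres
  have hx' : x = ∑ i, f i + ϖW • g := by
    rw [fixedSubring_smul_eq]
    show x = ∑ i, f i + (ϖ : K) • g
    rw [← hg]
    ring
  rw [hx']
  refine Submodule.add_mem _ (Submodule.mem_sup_left ?_) (Submodule.mem_sup_right ?_)
  · exact Submodule.sum_mem _ fun i _ =>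
      Submodule.mem_iSup_of_mem i ⟨hfU i, hfO i, hffix i⟩
  · exact Submodule.smul_mem_smul (Ideal.subset_span rfl) ⟨hgV, hgO, hgfix⟩

/-- **Fixed Nakayama**, pointwise form. -/
theorem fixed_decomp (hD : FixData2 R Γ) (V : Submodule K F) [FiniteDimensional K V]
    (hfgV : (R.lat V).FG) (hVfix : V ≤ Submodule.span K {f | f ∈ V ∧ IsFixed Γ f})
    {ι : Type*} [Fintype ι] (U : ι → Submodule K F) [∀ i, FiniteDimensional K (U i)]
    (hfgU : ∀ i, (R.lat (U i)).FG)
    (hUfix : ∀ i, U i ≤ Submodule.span K {f | f ∈ U i ∧ IsFixed Γ f})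
    (hUV : ∀ i, U i ≤ V)
    (hred : ∀ y ∈ R.redLat V, ∃ z : ι → κ, (∀ i, z i ∈ R.redLat (U i)) ∧ y = ∑ i, z i)
    {x : F} (hxV : x ∈ V) (hxO : x ∈ S.O) (hxfix : IsFixed Γ x) :
    ∃ y : ι → F, (∀ i, y i ∈ U i ∧ y i ∈ S.O ∧ IsFixed Γ (y i)) ∧ x = ∑ i, y i := by
  classical
  have h := fixedLat_le_iSup hD V hfgV hVfix U hfgU hUfix hUV hred ⟨hxV, hxO, hxfix⟩
  rw [Submodule.mem_iSup_iff_exists_finsupp] at h
  obtain ⟨c, hc, hsum⟩ := h
  refine ⟨fun i => c i, fun i => hc i, ?_⟩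
  rw [← hsum, Finsupp.sum_fintype]
  intro i
  rfl

/-- three subspaces as a family. -/
def three (U₁ U₂ U₃ : Submodule K F) : Fin 3 → Submodule K F
  | 0 => U₁
  | 1 => U₂
  | 2 => U₃

theorem forall_three {P : Submodule K F → Prop} {U₁ U₂ U₃ : Submodule K F} (h₁ : P U₁) (h₂ : P U₂)
    (h₃ : P U₃) : ∀ i, P (three U₁ U₂ U₃ i) := by
  intro i
  fin_cases i
  · exact h₁
  · exact h₂
  · exact h₃

/-- **Fixed Nakayama for three subspaces** (the shape of the Cech decomposition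
`Λ(a,b) = Λ(a,0) + Λ(0,b) + ∑ A aᵢ`). -/
theorem fixed_decomp_three (hD : FixData2 R Γ) (V : Submodule K F) [FiniteDimensional K V]
    (hfgV : (R.lat V).FG) (hVfix : V ≤ Submodule.span K {f | f ∈ V ∧ IsFixed Γ f})
    (U₁ U₂ U₃ : Submodule K F) [h₁ : FiniteDimensional K U₁] [h₂ : FiniteDimensional K U₂]
    [h₃ : FiniteDimensional K U₃]
    (hfg₁ : (R.lat U₁).FG) (hfg₂ : (R.lat U₂).FG) (hfg₃ : (R.lat U₃).FG)
    (hfix₁ : U₁ ≤ Submodule.span K {f | f ∈ U₁ ∧ IsFixed Γ f})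
    (hfix₂ : U₂ ≤ Submodule.span K {f | f ∈ U₂ ∧ IsFixed Γ f})
    (hfix₃ : U₃ ≤ Submodule.span K {f | f ∈ U₃ ∧ IsFixed Γ f})
    (hle₁ : U₁ ≤ V) (hle₂ : U₂ ≤ V) (hle₃ : U₃ ≤ V)
    (hred : R.redLat V ≤ R.redLat U₁ ⊔ R.redLat U₂ ⊔ R.redLat U₃)
    {x : F} (hxV : x ∈ V) (hxO : x ∈ S.O) (hxfix : IsFixed Γ x) :
    ∃ y₁ y₂ y₃ : F, (y₁ ∈ U₁ ∧ y₁ ∈ S.O ∧ IsFixed Γ y₁) ∧ (y₂ ∈ U₂ ∧ y₂ ∈ S.O ∧ IsFixed Γ y₂) ∧
      (y₃ ∈ U₃ ∧ y₃ ∈ S.O ∧ IsFixed Γ y₃) ∧ x = y₁ + y₂ + y₃ := by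
  haveI : ∀ i, FiniteDimensional K (three U₁ U₂ U₃ i) :=
    forall_three (P := fun U => FiniteDimensional K U) h₁ h₂ h₃
  have hred' : ∀ y ∈ R.redLat V, ∃ z : Fin 3 → κ,
      (∀ i, z i ∈ R.redLat (three U₁ U₂ U₃ i)) ∧ y = ∑ i, z i := by
    intro y hy
    obtain ⟨y12, hy12, z₃, hz₃, rfl⟩ := Submodule.mem_sup.1 (hred hy)
    obtain ⟨z₁, hz₁, z₂, hz₂, rfl⟩ := Submodule.mem_sup.1 hy12
    refine ⟨![z₁, z₂, z₃], ?_, ?_⟩
    · intro i
      fin_cases i
      · exact hz₁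
      · exact hz₂
      · exact hz₃
    · rw [Fin.sum_univ_three]
      rfl
  obtain ⟨y, hy, hxy⟩ := fixed_decomp hD V hfgV hVfix (three U₁ U₂ U₃)
    (forall_three (P := fun U => (R.lat U).FG) hfg₁ hfg₂ hfg₃)
    (forall_three (P := fun U => U ≤ Submodule.span K {f | f ∈ U ∧ IsFixed Γ f}) hfix₁ hfix₂ hfix₃)
    (forall_three (P := fun U => U ≤ V) hle₁ hle₂ hle₃) hred' hxV hxO hxfix
  refine ⟨y 0, y 1, y 2, hy 0, hy 1, hy 2, ?_⟩
  rw [hxy, Fin.sum_univ_three]

end Nakayama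

end Fermat.Agent.S33x.H1.FixedDecomp

end
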