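import Mathlib
import Fermat.Agent.S33x.H1.FixedDecomp
import Fermat.Agent.S33x.Cech.OfDirectSum

/-!
# P-S33, block W, leaf (W3), independent second (helper17): the Cech decomposition over `W = A^Γ`

Abstract form of steps (B2) + (B3) of the W-structure plan.  `R : C0two.RedSetup2 A S k κ`, `Γ` a set
of semilinear automorphisms with `hD : FixData2 R Γ` and `F` spanned by its fixed elements;
`L a b` a bifiltered family of `Γ`-stable finite dimensional `K`-subspaces of `F` (for us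
`L a b = L(a C₀ + b C∞)`) with cartesian lattices and `L a b ⊓ L a' b' ≤ L (min a a') (min b b')`;
`Bx`, `Boo`, `B0` the `A`-subalgebras `⋃ L a b ∩ O`, `⋃ L 0 b ∩ O`, `⋃ L a 0 ∩ O` and `BxW`, `BooW`,
`B0W` the `W`-subalgebras of their fixed elements.

* `exists_level_decomp` : the decomposition `x = f + h + ∑ sᵢ aᵢ` of `Cech/OfDirectSum.DirectSum`
  preserves the levels: `x ∈ L a b`, `b₁ ≤ a, b` gives `f ∈ L 0 b`, `h ∈ L a 0`;
* `res_indep` : the reductions of the `aᵢ` are `k`-linearly independent;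
* `directSum_fixed` : **if the `aᵢ` are fixed, the SAME `aᵢ` give the decomposition over `W`** of
  the fixed subalgebras (generation by fixed Nakayama `FixedDecomp.fixed_decomp_three`,
  uniqueness by restriction).
-/

set_option autoImplicit false
set_option linter.unusedSectionVars false
set_option linter.style.haveILetI false

noncomputable section

namespace Fermat.Agent.S33x.H1.CechFixedB

open AlgebraicCurve IsLocalRing Module
open Fermat.Agent.S34x.C0two Fermat.Agent.S19x.Geo.LatticeFixed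
  Fermat.Agent.S33x.H1.LatticeFixed2 Fermat.Agent.S33x.H1.FixedDecomp
  Fermat.Agent.S33x.Cech.OfDirectSum

variable {K : Type*} [Field K] {A : ValuationSubring K} {F : Type*} [Field F] [Algebra K F]
  {S : SmallRing F} {k κ : Type*} [Field k] [CommRing κ] [Algebra k κ]
  (R : RedSetup2 A S k κ) (Γ : Set (SemilinearAut K F))

/-- the bifiltered family of subspaces and the three `A`-subalgebras. -/
structure Family (L : ℕ → ℕ → Submodule K F) (Bx Boo B0 : Subalgebra A F) : Prop where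
  mono : ∀ {a b a' b' : ℕ}, a ≤ a' → b ≤ b' → L a b ≤ L a' b'
  inf_le : ∀ a b a' b' : ℕ, L a b ⊓ L a' b' ≤ L (min a a') (min b b')
  mem_Bx : ∀ x : F, x ∈ Bx ↔ ∃ a b, x ∈ L a b ∧ x ∈ S.O
  mem_Boo : ∀ x : F, x ∈ Boo ↔ ∃ b, x ∈ L 0 b ∧ x ∈ S.O
  mem_B0 : ∀ x : F, x ∈ B0 ↔ ∃ a, x ∈ L a 0 ∧ x ∈ S.O

variable {R Γ} {L : ℕ → ℕ → Submodule K F} {Bx Boo B0 : Subalgebra A F}
  {g : ℕ} {a : Fin g → F}

/-- the action of `A` on `F` is the action of `K`. -/
theorem asmul_eq (c : A) (x : F) : c • x = (c : K) • x := rfl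

include R in
theorem sum_smul_mem_O (s : Fin g → A) (haO : ∀ i, a i ∈ S.O) : ∑ i, s i • a i ∈ S.O :=
  sum_mem fun i _ => R.smul_mem_O (s i) (haO i)

/-- **levels are preserved** by the decomposition. -/
theorem exists_level_decomp (hL : Family (S := S) L Bx Boo B0) (H : DirectSum Bx Boo B0 a)
    {b₁ : ℕ} (ha : ∀ i, a i ∈ L b₁ b₁) {p q : ℕ} (hp : b₁ ≤ p) (hq : b₁ ≤ q) {x : F}
    (hxL : x ∈ L p q) (hxO : x ∈ S.O) :
    ∃ f h : F, ∃ s : Fin g → A, (f ∈ L 0 q ∧ f ∈ S.O) ∧ (h ∈ L p 0 ∧ h ∈ S.O) ∧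
      x = f + h + ∑ i, s i • a i := by
  obtain ⟨f, hf, h, hh, s, hx⟩ := H.gen x ((hL.mem_Bx x).2 ⟨p, q, hxL, hxO⟩)
  obtain ⟨β, hfL, hfO⟩ := (hL.mem_Boo f).1 hf
  obtain ⟨α, hhL, hhO⟩ := (hL.mem_B0 h).1 hh
  have hsum : ∀ {p' q' : ℕ}, b₁ ≤ p' → b₁ ≤ q' → ∑ i, s i • a i ∈ L p' q' := fun hp' hq' =>
    Submodule.sum_mem _ fun i _ => by
      rw [asmul_eq]
      exact Submodule.smul_mem _ _ (hL.mono hp' hq' (ha i))
  refine ⟨f, h, s, ⟨?_, hfO⟩, ⟨?_, hhO⟩, hx⟩
  · -- `f = x - h - ∑ ∈ L (max p α) q`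
    have h1 : f = x - h - ∑ i, s i • a i := by rw [hx]; ring
    have h2 : f ∈ L (max p α) q := by
      rw [h1]
      refine Submodule.sub_mem _ (Submodule.sub_mem _ (hL.mono (le_max_left _ _) le_rfl hxL)
        (hL.mono (le_max_right _ _) (Nat.zero_le _) hhL))
        (hsum (hp.trans (le_max_left _ _)) hq)
    have h3 := hL.inf_le _ _ _ _ (Submodule.mem_inf.2 ⟨h2, hfL⟩)
    exact hL.mono (by simp) (min_le_left _ _) h3
  · have h1 : h = x - f - ∑ i, s i • a i := by rw [hx]; ring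
    have h2 : h ∈ L p (max q β) := by
      rw [h1]
      refine Submodule.sub_mem _ (Submodule.sub_mem _ (hL.mono le_rfl (le_max_left _ _) hxL)
        (hL.mono (Nat.zero_le _) (le_max_right _ _) hfL))
        (hsum hp (hq.trans (le_max_left _ _)))
    have h3 := hL.inf_le _ _ _ _ (Submodule.mem_inf.2 ⟨h2, hhL⟩)
    exact hL.mono (min_le_left _ _) (by simp) h3

/-- elements of `Bx` are integral. -/
theorem mem_O_of_mem_Bx (hL : Family (S := S) L Bx Boo B0) {x : F} (hx : x ∈ Bx) : x ∈ S.O := by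
  obtain ⟨_, _, -, h⟩ := (hL.mem_Bx x).1 hx
  exact h

include R in
/-- **the reductions of the `aᵢ` are linearly independent.** -/
theorem res_indep (hL : Family (S := S) L Bx Boo B0) (H : DirectSum Bx Boo B0 a) :
    LinearIndependent k fun i => R.res ⟨a i, mem_O_of_mem_Bx hL (H.a_mem i)⟩ := by
  classical
  have haO : ∀ i, a i ∈ S.O := fun i => mem_O_of_mem_Bx hL (H.a_mem i)
  rw [Fintype.linearIndependent_iff]
  intro cbar hsum i
  choose c hc using fun i => R.π_surj (cbar i)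
  -- `∑ cᵢ aᵢ` has zero reduction, hence is `ϖ y`
  have hsO : ∑ i, ((c i : A) : K) • a i ∈ S.O := sum_ksmul_mem_O2 R Finset.univ c haO
  have hres : R.res ⟨∑ i, ((c i : A) : K) • a i, hsO⟩ = 0 := by
    rw [res_sum_ksmul2 R Finset.univ c haO, ← hsum]
    exact Finset.sum_congr rfl fun i _ => by rw [hc i]
  obtain ⟨ϖ, hϖm, y, hyO, hy⟩ := R.base.unram _ ((R.small_iff hsO).2 hres)
  by_cases hϖ0 : ϖ = 0
  · -- then `∑ cᵢ aᵢ = 0`
    have h0 : (0 : F) + 0 + ∑ i, c i • a i = 0 := by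
      rw [zero_add, zero_add]
      have : ∑ i, c i • a i = ∑ i, ((c i : A) : K) • a i := rfl
      rw [this, hy, hϖ0, zero_smul]
    obtain ⟨hs0, -⟩ := H.uniq 0 Boo.zero_mem 0 B0.zero_mem c h0
    rw [← hc i, hs0]
    exact map_zero _
  · -- `y ∈ Bx`
    have hϖK : ((ϖ : A) : K) ≠ 0 := fun h => hϖ0 (Subtype.ext h)
    have hyBx : y ∈ Bx := by
      have hsBx : ∑ i, ((c i : A) : K) • a i ∈ Bx :=
        Bx.sum_mem fun i _ => Bx.smul_mem (H.a_mem i) (c i)
      obtain ⟨p, q, hpq, -⟩ := (hL.mem_Bx _).1 hsBx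
      refine (hL.mem_Bx y).2 ⟨p, q, ?_, hyO⟩
      have hy' : y = ((ϖ : A) : K)⁻¹ • ∑ i, ((c i : A) : K) • a i := by
        rw [hy]
        show y = ((ϖ : A) : K)⁻¹ • (((ϖ : A) : K) • y)
        rw [smul_smul, inv_mul_cancel₀ hϖK, one_smul]
      rw [hy']
      exact Submodule.smul_mem _ _ hpq
    have hrel : (0 : F) + 0 + ∑ i, c i • a i = algebraMap A F ϖ * y := by
      rw [zero_add, zero_add]
      have : ∑ i, c i • a i = ∑ i, ((c i : A) : K) • a i := rfl
      rw [this, hy, Algebra.smul_def]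
    obtain ⟨-, -, -, -, s', -, hs', -, -⟩ :=
      exists_div H ϖ Boo.zero_mem B0.zero_mem hyBx c hrel
    rw [← hc i, hs', Pi.smul_apply, smul_eq_mul, map_mul, (R.π_eq_zero_iff ϖ).2 hϖm, zero_mul]

/-! ### The decomposition over `W` -/

/-- the three `W`-subalgebras of fixed elements. -/
structure FixedFamily (Bx Boo B0 : Subalgebra A F)
    (BxW BooW B0W : Subalgebra (fixedSubring (A := A) Γ) F) : Prop where
  mem_BxW : ∀ x : F, x ∈ BxW ↔ x ∈ Bx ∧ IsFixed Γ x
  mem_BooW : ∀ x : F, x ∈ BooW ↔ x ∈ Boo ∧ IsFixed Γ x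
  mem_B0W : ∀ x : F, x ∈ B0W ↔ x ∈ B0 ∧ IsFixed Γ x

variable {BxW BooW B0W : Subalgebra (fixedSubring (A := A) Γ) F}

/-- a constant which is fixed as a function is a fixed scalar. -/
theorem isFixedK_of_isFixed_algebraMap {c : K} (h : IsFixed Γ (algebraMap K F c)) :
    IsFixedK Γ c := fun s hs => by
  have h1 := h s hs
  rw [SemilinearAut.smul_algebraMap] at h1
  exact (algebraMap K F).injective h1

/-- **The Cech decomposition over `W`** with the SAME (fixed) `aᵢ`. -/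
theorem directSum_fixed (hD : FixData2 R Γ)
    (hF : Submodule.span K {f : F | IsFixed Γ f} = ⊤)
    (hL : Family (S := S) L Bx Boo B0) [∀ p q, FiniteDimensional K (L p q)]
    (hcart : ∀ p q, (R.lat (L p q)).FG)
    (hstab : ∀ p q, ∀ s ∈ Γ, ∀ f ∈ L p q, s • f ∈ L p q)
    (hW : FixedFamily (Γ := Γ) Bx Boo B0 BxW BooW B0W)
    (hafix : ∀ i, IsFixed Γ (a i)) {b₁ : ℕ} (ha : ∀ i, a i ∈ L b₁ b₁)
    (H : DirectSum Bx Boo B0 a) : DirectSum BxW BooW B0W a := by
  classical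
  have haO : ∀ i, a i ∈ S.O := fun i => mem_O_of_mem_Bx hL (H.a_mem i)
  have hli := res_indep (R := R) hL H
  -- the span of the `aᵢ` and its fixed frame
  set U₃ : Submodule K F := Submodule.span K (Set.range a) with hU₃
  have hframe : FixedFrame2 R Γ U₃ a :=
    ⟨fun i => Submodule.subset_span ⟨i, rfl⟩, haO, hafix, hli, rfl⟩
  haveI : FiniteDimensional K U₃ := FiniteDimensional.span_of_finite K (Set.finite_range a)
  have hfg₃ : (R.lat U₃).FG := by
    have : R.lat U₃ = Submodule.span A (Set.range a) := by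
      apply le_antisymm
      · intro v hv
        obtain ⟨c, hc⟩ := hframe.exists_coeff hv.1 hv.2
        rw [hc]
        exact Submodule.sum_mem _ fun i _ =>
          Submodule.smul_mem _ (c i) (Submodule.subset_span ⟨i, rfl⟩)
      · refine Submodule.span_le.2 ?_
        rintro _ ⟨i, rfl⟩
        exact ⟨Submodule.subset_span ⟨i, rfl⟩, haO i⟩
    rw [this]
    exact Submodule.fg_span (Set.finite_range a)
  have hfix₃ : U₃ ≤ Submodule.span K {f | f ∈ U₃ ∧ IsFixed Γ f} := by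
    refine Submodule.span_le.2 ?_
    rintro _ ⟨i, rfl⟩
    exact Submodule.subset_span ⟨Submodule.subset_span ⟨i, rfl⟩, hafix i⟩
  have hfixL : ∀ p q, L p q ≤ Submodule.span K {f | f ∈ L p q ∧ IsFixed Γ f} := fun p q =>
    le_of_eq (span_fixed_of_stable hF (L p q) (hstab p q)).symm
  refine
    { oo_le := fun x hx => (hW.mem_BxW x).2
        ⟨H.oo_le ((hW.mem_BooW x).1 hx).1, ((hW.mem_BooW x).1 hx).2⟩
      zero_le := fun x hx => (hW.mem_BxW x).2
        ⟨H.zero_le ((hW.mem_B0W x).1 hx).1, ((hW.mem_B0W x).1 hx).2⟩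
      a_mem := fun i => (hW.mem_BxW _).2 ⟨H.a_mem i, hafix i⟩
      gen := ?_
      uniq := ?_ }
  · -- generation: fixed Nakayama
    intro x hx
    obtain ⟨hxBx, hxfix⟩ := (hW.mem_BxW x).1 hx
    obtain ⟨p₀, q₀, hxL₀, hxO⟩ := (hL.mem_Bx x).1 hxBx
    set p := max p₀ b₁ with hp
    set q := max q₀ b₁ with hq
    have hbp : b₁ ≤ p := le_max_right _ _
    have hbq : b₁ ≤ q := le_max_right _ _
    have hxL : x ∈ L p q := hL.mono (le_max_left _ _) (le_max_left _ _) hxL₀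
    have hle₃ : U₃ ≤ L p q := by
      refine Submodule.span_le.2 ?_
      rintro _ ⟨i, rfl⟩
      exact hL.mono hbp hbq (ha i)
    have hred : R.redLat (L p q) ≤ R.redLat (L 0 q) ⊔ R.redLat (L p 0) ⊔ R.redLat U₃ := by
      rintro y ⟨x', hx'O, hx'L, rfl⟩
      obtain ⟨f, h, s, ⟨hfL, hfO⟩, ⟨hhL, hhO⟩, hx'⟩ :=
        exists_level_decomp hL H ha hbp hbq hx'L hx'O
      have hsO : ∑ i, s i • a i ∈ S.O := sum_smul_mem_O (R := R) s haO
      have hsU : ∑ i, s i • a i ∈ U₃ := Submodule.sum_mem _ fun i _ => by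
        rw [asmul_eq]
        exact Submodule.smul_mem _ _ (Submodule.subset_span ⟨i, rfl⟩)
      have h1 : (⟨x', hx'O⟩ : S.O) = ⟨f, hfO⟩ + ⟨h, hhO⟩ + ⟨∑ i, s i • a i, hsO⟩ :=
        Subtype.ext hx'
      rw [h1, map_add, map_add]
      exact Submodule.add_mem _ (Submodule.mem_sup_left (Submodule.add_mem _
        (Submodule.mem_sup_left ⟨f, hfO, hfL, rfl⟩) (Submodule.mem_sup_right ⟨h, hhO, hhL, rfl⟩)))
        (Submodule.mem_sup_right ⟨_, hsO, hsU, rfl⟩)
    obtain ⟨y₁, y₂, y₃, ⟨h1L, h1O, h1f⟩, ⟨h2L, h2O, h2f⟩, ⟨h3U, h3O, h3f⟩, hxy⟩ :=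
      fixed_decomp_three hD (L p q) (hcart p q) (hfixL p q) (L 0 q) (L p 0) U₃
        (hcart 0 q) (hcart p 0) hfg₃ (hfixL 0 q) (hfixL p 0) hfix₃
        (hL.mono (Nat.zero_le _) le_rfl) (hL.mono le_rfl (Nat.zero_le _)) hle₃ hred hxL hxO hxfix
    obtain ⟨c, hc⟩ := exists_fixedSubring_coeff hframe ⟨h3U, h3O, h3f⟩
    refine ⟨y₁, (hW.mem_BooW _).2 ⟨(hL.mem_Boo _).2 ⟨q, h1L, h1O⟩, h1f⟩,
      y₂, (hW.mem_B0W _).2 ⟨(hL.mem_B0 _).2 ⟨p, h2L, h2O⟩, h2f⟩, c, ?_⟩
    rw [hxy, hc]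
  · -- uniqueness: restriction of the uniqueness over `A`
    intro f hf h hh s hrel
    obtain ⟨hfB, hffix⟩ := (hW.mem_BooW f).1 hf
    obtain ⟨hhB, -⟩ := (hW.mem_B0W h).1 hh
    have hrel' : f + h + ∑ i, ((s i : fixedSubring (A := A) Γ) : A) • a i = 0 := hrel
    obtain ⟨hs0, α, hα⟩ := H.uniq f hfB h hhB (fun i => ((s i : fixedSubring (A := A) Γ) : A)) hrel'
    refine ⟨?_, ?_⟩
    · funext i
      have := congrFun hs0 i
      exact Subtype.ext this
    · have hαfix : IsFixedK Γ ((α : A) : K) := by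
        apply isFixedK_of_isFixed_algebraMap (F := F)
        have : algebraMap K F ((α : A) : K) = f := hα.symm
        rw [this]
        exact hffix
      exact ⟨⟨α, hαfix⟩, hα⟩

end Fermat.Agent.S33x.H1.CechFixedB

end
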