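/-
P-S33 (blueprint v2), dir `S33x/H1`, helper lemma for (B1) (fixed lifts): a complement family.

`k` a field, `X` a finite-dimensional subspace of a `k`-vector space `V`, `N` any subspace.  There are
`ȳ₁, …, ȳ_g ∈ X` with `X ≤ N ⊔ span(ȳ)` in element form and `∑ cᵢ ȳᵢ ∈ N → c = 0`, i.e. the `ȳᵢ` are a
basis of `X / (X ∩ N)`.  Mathlib only.
-/
import Mathlib

set_option autoImplicit false

namespace Fermat.Agent.S33x.H1.ComplFamily

variable {k : Type*} [Field k] {V : Type*} [AddCommGroup V] [Module k V]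

/-- **Complement family**: lifts to `X` of a basis of `X ⧸ (X ∩ N)`. -/
theorem exists_compl_family (X N : Submodule k V) [FiniteDimensional k X] :
    ∃ (g : ℕ) (y : Fin g → V), (∀ i, y i ∈ X) ∧
      (∀ x ∈ X, ∃ n ∈ N, n ∈ X ∧ ∃ c : Fin g → k, x = n + ∑ i, c i • y i) ∧
      (∀ c : Fin g → k, ∑ i, c i • y i ∈ N → c = 0) := by
  set N' : Submodule k X := N.comap X.subtype with hN'
  let b := Module.finBasis k (X ⧸ N')
  choose yy hyy using fun i => Submodule.mkQ_surjective N' (b i)
  have hsum : ∀ c : Fin _ → k, ((∑ i, c i • yy i : X) : V) = ∑ i, c i • (yy i : V) := by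
    intro c
    simp
  have hq : ∀ c : Fin _ → k, N'.mkQ (∑ i, c i • yy i) = ∑ i, c i • b i := by
    intro c
    rw [map_sum]
    refine Finset.sum_congr rfl fun i _ => ?_
    rw [map_smul, hyy]
  refine ⟨_, fun i => (yy i : V), fun i => (yy i).2, ?_, ?_⟩
  · intro x hx
    set c : Fin _ → k := fun i => b.repr (N'.mkQ ⟨x, hx⟩) i with hc
    have h1 : N'.mkQ (⟨x, hx⟩ - ∑ i, c i • yy i) = 0 := by
      rw [map_sub, hq, sub_eq_zero]
      exact (b.sum_repr _).symm
    have h2 : (⟨x, hx⟩ - ∑ i, c i • yy i : X) ∈ N' :=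
      (Submodule.Quotient.mk_eq_zero N').mp h1
    have h3 : x - ∑ i, c i • (yy i : V) ∈ N := by
      have h4 : (((⟨x, hx⟩ - ∑ i, c i • yy i : X)) : V) ∈ N := h2
      rw [Submodule.coe_sub, hsum] at h4
      exact h4
    refine ⟨x - ∑ i, c i • (yy i : V), h3, ?_, c, by abel⟩
    refine X.sub_mem hx ?_
    exact X.sum_mem fun i _ => X.smul_mem _ (yy i).2
  · intro c hc
    have h1 : (∑ i, c i • yy i : X) ∈ N' := by
      have h4 : (((∑ i, c i • yy i : X)) : V) ∈ N := by
        rw [hsum]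
        exact hc
      exact h4
    have h2 : ∑ i, c i • b i = 0 := by
      rw [← hq]
      rw [Submodule.mkQ_apply]
      exact (Submodule.Quotient.mk_eq_zero N').mpr h1
    funext i
    exact (Fintype.linearIndependent_iff.mp b.linearIndependent) c h2 i

end Fermat.Agent.S33x.H1.ComplFamily
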