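/-
P-S33 (blueprint v2), dir `S33x/H1`, leaf (H1-a): the ABSTRACT core of (F2)
(connectedness of the special fibre in lattice form; proof of helper43, note 2052).

`A` a valuation domain of rank one (every nonzero `c` divides a power of every `μ ∈ 𝔪`), `B` a
torsion-free commutative `A`-algebra (the ring `⋃ Lam(a,b)`), `B₁ B₂` two `A`-subalgebras
(`⋃ Lam(0,b)`, `⋃ Lam(a,0)`) with `B₁ ∩ B₂ = A`, `res : B →+* Ω` a ring homomorphism killing `𝔪`
whose kernel on `B`, `B₁`, `B₂` is `𝔪 B`, `𝔪 B₁`, `𝔪 B₂`, and ONE `c₀ ≠ 0` killing the torsion of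
`B ⧸ (B₁ + B₂)`.  THEN every idempotent of `Ω` lying in `res B₁ ∩ res B₂` is the reduction of a
constant (`exists_const_of_idempotent`).

Proof: lift the idempotent to idempotents modulo `c := c₀ μ₀` in `B₁` and in `B₂` (Newton
`f ↦ 3f² - 2f³`); they agree modulo `c` in `B` (idempotents with nilpotent difference);
`f₁ - f₂ = c γ`, `γ` is torsion in `B ⧸ (B₁ + B₂)`, so `c₀ γ = g₁ + g₂` and
`c₀ f₁ - c g₁ = c₀ f₂ + c g₂ ∈ B₁ ∩ B₂ = A`; compare valuations.  Mathlib only.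
-/
import Mathlib

set_option autoImplicit false

namespace Fermat.Agent.S33x.H1.Connected

open IsLocalRing

section General

variable {A : Type*} [CommRing A] [IsDomain A] [ValuationRing A]
variable {M : Type*} [AddCommGroup M] [Module A M]

/-- In a valuation ring, an element of `𝔪 • N` is a single multiple `μ • y`. -/
theorem exists_smul_eq_of_mem_smul (N : Submodule A M) {x : M}
    (hx : x ∈ maximalIdeal A • N) : ∃ μ ∈ maximalIdeal A, ∃ y ∈ N, x = μ • y := by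
  refine Submodule.smul_induction_on hx (fun r hr n hn => ⟨r, hr, n, hn, rfl⟩) ?_
  rintro x y ⟨μ, hμ, u, hu, rfl⟩ ⟨ν, hν, v, hv, rfl⟩
  rcases ValuationRing.dvd_total μ ν with ⟨t, rfl⟩ | ⟨t, rfl⟩
  · exact ⟨μ, hμ, u + t • v, N.add_mem hu (N.smul_mem t hv), by rw [smul_add, mul_smul]⟩
  · exact ⟨ν, hν, t • u + v, N.add_mem (N.smul_mem t hu) hv, by rw [smul_add, mul_smul]⟩

end General

section Newton

variable {A : Type*} [CommRing A] {B : Type*} [CommRing B] [Algebra A B]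

/-- One Newton step for idempotents inside a subalgebra. -/
theorem newton_step (B₁ : Subalgebra A B) {f d : B} (hf : f ∈ B₁) (hd : d ∈ B₁) (μ : A)
    (h : f * f - f = μ • d) :
    ∃ f' ∈ B₁, ∃ d' ∈ B₁, ∃ r ∈ B₁, f' * f' - f' = (μ ^ 2) • d' ∧ f' - f = μ • r := by
  have h3 : (3 : B) ∈ B₁ := by
    simp
  have h2 : (2 : B) ∈ B₁ := by
    simp
  have h4 : (4 : B) ∈ B₁ := by
    simp
  refine ⟨3 * (f * f) - 2 * (f * f * f), ?_, d * d * (4 * (μ • d) - 3), ?_, d * (1 - 2 * f), ?_,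
    ?_, ?_⟩
  · exact B₁.sub_mem (B₁.mul_mem h3 (B₁.mul_mem hf hf))
      (B₁.mul_mem h2 (B₁.mul_mem (B₁.mul_mem hf hf) hf))
  · exact B₁.mul_mem (B₁.mul_mem hd hd)
      (B₁.sub_mem (B₁.mul_mem h4 (B₁.smul_mem hd μ)) h3)
  · exact B₁.mul_mem hd (B₁.sub_mem B₁.one_mem (B₁.mul_mem h2 hf))
  · rw [Algebra.smul_def, Algebra.smul_def, map_pow]
    rw [Algebra.smul_def] at h
    linear_combination ((f * f - f) * (4 * (f * f - f) - 3) + (algebraMap A B μ * d) *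
      (4 * (f * f - f) - 3) + 4 * (algebraMap A B μ * d) * (algebraMap A B μ * d)) * h
  · rw [Algebra.smul_def]
    rw [Algebra.smul_def] at h
    linear_combination (1 - 2 * f) * h

/-- Iterated Newton: an approximate idempotent modulo `μ` is congruent modulo `μ` to an
approximate idempotent modulo `μ ^ (2 ^ j)`. -/
theorem newton_iter (B₁ : Subalgebra A B) {f d : B} (hf : f ∈ B₁) (hd : d ∈ B₁) (μ : A)
    (h : f * f - f = μ • d) (j : ℕ) :
    ∃ f' ∈ B₁, ∃ d' ∈ B₁, ∃ r ∈ B₁, f' * f' - f' = (μ ^ (2 ^ j)) • d' ∧ f' - f = μ • r := by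
  induction j with
  | zero => exact ⟨f, hf, d, hd, 0, B₁.zero_mem, by simpa using h, by simp⟩
  | succ j ih =>
    obtain ⟨f₁, hf₁, d₁, hd₁, r₁, hr₁, e₁, e₂⟩ := ih
    obtain ⟨f₂, hf₂, d₂, hd₂, r₂, hr₂, e₃, e₄⟩ := newton_step B₁ hf₁ hd₁ (μ ^ (2 ^ j)) e₁
    refine ⟨f₂, hf₂, d₂, hd₂, (μ ^ (2 ^ j - 1)) • r₂ + r₁,
      B₁.add_mem (B₁.smul_mem hr₂ _) hr₁, ?_, ?_⟩
    · rw [e₃, ← pow_mul, pow_succ]
    · have hpos : 2 ^ j = (2 ^ j - 1) + 1 := (Nat.sub_add_cancel Nat.one_le_two_pow).symm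
      have e5 : μ ^ (2 ^ j) = μ * μ ^ (2 ^ j - 1) := by
        conv_lhs => rw [hpos, pow_succ, mul_comm]
      calc f₂ - f = (f₂ - f₁) + (f₁ - f) := by ring
        _ = (μ ^ (2 ^ j)) • r₂ + μ • r₁ := by rw [e₄, e₂]
        _ = μ • ((μ ^ (2 ^ j - 1)) • r₂ + r₁) := by rw [e5, smul_add, mul_smul]

end Newton

section Main

variable {A : Type*} [CommRing A] [IsDomain A] [ValuationRing A]
variable {B : Type*} [CommRing B] [Algebra A B] [NoZeroSMulDivisors A B]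
variable {Ω : Type*} [CommRing Ω]

omit [NoZeroSMulDivisors A B] in
/-- Lifting an idempotent of `Ω` to an idempotent modulo `c` inside a subalgebra. -/
theorem exists_lift_mod (B₁ : Subalgebra A B) (res : B →+* Ω)
    (hresm : ∀ c ∈ maximalIdeal A, res (algebraMap A B c) = 0)
    (hker₁ : ∀ x ∈ B₁, res x = 0 → x ∈ maximalIdeal A • Subalgebra.toSubmodule B₁)
    (hrk : ∀ μ ∈ maximalIdeal A, ∀ c : A, c ≠ 0 → ∃ j : ℕ, c ∣ μ ^ j)
    {e : Ω} (he : IsIdempotentElem e) {f : B} (hf : f ∈ B₁) (hfe : res f = e)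
    {c : A} (hc : c ≠ 0) :
    ∃ f' ∈ B₁, ∃ d ∈ B₁, f' * f' - f' = c • d ∧ res f' = e := by
  have h0 : res (f * f - f) = 0 := by
    rw [map_sub, map_mul, hfe, he.eq, sub_self]
  obtain ⟨μ, hμ, d, hd, hμd⟩ :=
    exists_smul_eq_of_mem_smul _ (hker₁ _ (B₁.sub_mem (B₁.mul_mem hf hf) hf) h0)
  obtain ⟨j, t, hj⟩ := hrk μ hμ c hc
  obtain ⟨f', hf', d', hd', r, -, e₁, e₂⟩ :=
    newton_iter B₁ hf hd μ hμd j
  have hj2 : c ∣ μ ^ (2 ^ j) := by
    have : j ≤ 2 ^ j := Nat.lt_two_pow_self.le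
    exact Dvd.dvd.trans ⟨t, hj⟩ (pow_dvd_pow μ this)
  obtain ⟨t', ht'⟩ := hj2
  refine ⟨f', hf', t' • d', B₁.smul_mem hd' t', ?_, ?_⟩
  · rw [e₁, ht', mul_smul]
  · have : f' = f + μ • r := by rw [← e₂]; ring
    rw [this, map_add, Algebra.smul_def, map_mul, hresm μ hμ, zero_mul, add_zero, hfe]

/-- **(F2), abstract core**: an idempotent of `Ω` in `res B₁ ∩ res B₂` is the reduction of a
constant. -/
theorem exists_const_of_idempotent (B₁ B₂ : Subalgebra A B) (res : B →+* Ω)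
    (hresm : ∀ c ∈ maximalIdeal A, res (algebraMap A B c) = 0)
    (hker : ∀ x : B, res x = 0 → x ∈ maximalIdeal A • (⊤ : Submodule A B))
    (hker₁ : ∀ x ∈ B₁, res x = 0 → x ∈ maximalIdeal A • Subalgebra.toSubmodule B₁)
    (hker₂ : ∀ x ∈ B₂, res x = 0 → x ∈ maximalIdeal A • Subalgebra.toSubmodule B₂)
    (hcap : ∀ x ∈ B₁, x ∈ B₂ → ∃ a : A, x = algebraMap A B a)
    (htors : ∃ c₀ : A, c₀ ≠ 0 ∧ ∀ γ : B, ∀ c : A, c ≠ 0 →
      c • γ ∈ Subalgebra.toSubmodule B₁ ⊔ Subalgebra.toSubmodule B₂ →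
      c₀ • γ ∈ Subalgebra.toSubmodule B₁ ⊔ Subalgebra.toSubmodule B₂)
    (hrk : ∀ μ ∈ maximalIdeal A, ∀ c : A, c ≠ 0 → ∃ j : ℕ, c ∣ μ ^ j)
    (hne : ∃ μ ∈ maximalIdeal A, μ ≠ 0)
    {e : Ω} (he : IsIdempotentElem e) {f₁ : B} (hf₁ : f₁ ∈ B₁) (hfe₁ : res f₁ = e)
    {f₂ : B} (hf₂ : f₂ ∈ B₂) (hfe₂ : res f₂ = e) :
    ∃ a : A, res (algebraMap A B a) = e := by
  obtain ⟨c₀, hc₀, htors⟩ := htors
  obtain ⟨μ₀, hμ₀, hμ₀0⟩ := hne
  set c : A := c₀ * μ₀ with hc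
  have hc0 : c ≠ 0 := mul_ne_zero hc₀ hμ₀0
  have hcm : c ∈ maximalIdeal A := Ideal.mul_mem_left _ _ hμ₀
  -- the two lifts
  obtain ⟨g₁, hg₁, d₁, -, e₁, hge₁⟩ := exists_lift_mod B₁ res hresm hker₁ hrk he hf₁ hfe₁ hc0
  obtain ⟨g₂, hg₂, d₂, -, e₂, hge₂⟩ := exists_lift_mod B₂ res hresm hker₂ hrk he hf₂ hfe₂ hc0
  -- they agree modulo `c`
  have hx0 : res (g₁ - g₂) = 0 := by rw [map_sub, hge₁, hge₂, sub_self]
  obtain ⟨ν, hν, y, -, hxy⟩ := exists_smul_eq_of_mem_smul _ (hker _ hx0)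
  let I : Ideal B := Ideal.span {algebraMap A B c}
  have hI : ∀ b : B, c • b ∈ I := fun b => by
    rw [Algebra.smul_def]
    exact Ideal.mul_mem_right _ _ (Ideal.subset_span rfl)
  have hq₁ : IsIdempotentElem (Ideal.Quotient.mk I g₁) := by
    have : Ideal.Quotient.mk I (g₁ * g₁ - g₁) = 0 :=
      Ideal.Quotient.eq_zero_iff_mem.mpr (e₁ ▸ hI d₁)
    rw [map_sub, map_mul, sub_eq_zero] at this
    exact this
  have hq₂ : IsIdempotentElem (Ideal.Quotient.mk I g₂) := by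
    have : Ideal.Quotient.mk I (g₂ * g₂ - g₂) = 0 :=
      Ideal.Quotient.eq_zero_iff_mem.mpr (e₂ ▸ hI d₂)
    rw [map_sub, map_mul, sub_eq_zero] at this
    exact this
  have hnil : IsNilpotent (Ideal.Quotient.mk I g₁ - Ideal.Quotient.mk I g₂) := by
    obtain ⟨j, t, hj⟩ := hrk ν hν c hc0
    refine ⟨j, ?_⟩
    rw [← map_sub, ← map_pow, Ideal.Quotient.eq_zero_iff_mem, hxy, smul_pow, hj, mul_smul]
    exact hI _
  have heq : Ideal.Quotient.mk I g₁ = Ideal.Quotient.mk I g₂ :=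
    eq_of_isNilpotent_sub_of_isIdempotentElem hq₁ hq₂ hnil
  have hmem : g₁ - g₂ ∈ I := by
    rw [← Ideal.Quotient.eq_zero_iff_mem, map_sub, heq, sub_self]
  obtain ⟨γ, hγ⟩ := Ideal.mem_span_singleton.mp hmem
  have hγ' : g₁ - g₂ = c • γ := by rw [Algebra.smul_def]; exact hγ
  -- `γ` is torsion in `B ⧸ (B₁ + B₂)`
  have hsum : c • γ ∈ Subalgebra.toSubmodule B₁ ⊔ Subalgebra.toSubmodule B₂ := by
    rw [← hγ', sub_eq_add_neg]
    exact Submodule.add_mem_sup hg₁ (B₂.neg_mem hg₂)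
  obtain ⟨u₁, hu₁, u₂, hu₂, hu⟩ := Submodule.mem_sup.mp (htors γ c hc0 hsum)
  -- the constant
  have hkey : c₀ • g₁ - c • u₁ = c₀ • g₂ + c • u₂ := by
    have h1 : c₀ • (g₁ - g₂) = c • (u₁ + u₂) := by
      rw [hγ', hu, smul_comm]
    rw [smul_sub, smul_add] at h1
    linear_combination h1
  have hmem₁ : c₀ • g₁ - c • u₁ ∈ B₁ := B₁.sub_mem (B₁.smul_mem hg₁ _) (B₁.smul_mem hu₁ _)
  have hmem₂ : c₀ • g₁ - c • u₁ ∈ B₂ := by
    rw [hkey]; exact B₂.add_mem (B₂.smul_mem hg₂ _) (B₂.smul_mem hu₂ _)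
  obtain ⟨a, ha⟩ := hcap _ hmem₁ hmem₂
  rcases ValuationRing.dvd_total c₀ a with ⟨a', rfl⟩ | ⟨t, ht⟩
  · -- `c₀ ∣ a`: `g₁ = a' + μ₀ u₁`
    refine ⟨a', ?_⟩
    have h2 : c₀ • g₁ = c₀ • (algebraMap A B a' + μ₀ • u₁) := by
      have : c₀ • g₁ = algebraMap A B (c₀ * a') + c • u₁ := by rw [← ha]; ring
      rw [this, hc, map_mul, smul_add, mul_smul, Algebra.smul_def c₀ (algebraMap A B a')]
    have h3 : g₁ = algebraMap A B a' + μ₀ • u₁ := smul_right_injective B hc₀ h2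
    rw [← hge₁, h3, map_add, Algebra.smul_def, map_mul, hresm μ₀ hμ₀, zero_mul, add_zero]
  · -- `a ∣ c₀`, `c₀ = a t`
    by_cases htu : IsUnit t
    · -- then `c₀ ∣ a` again
      obtain ⟨t', ht'⟩ := htu.exists_left_inv
      have : a = c₀ * t' := by rw [ht]; ring_nf; rw [mul_assoc, mul_comm t t', ht', mul_one]
      refine ⟨t', ?_⟩
      have h2 : c₀ • g₁ = c₀ • (algebraMap A B t' + μ₀ • u₁) := by
        have h5 : c₀ • g₁ = algebraMap A B a + c • u₁ := by rw [← ha]; ring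
        rw [h5, this, hc, map_mul, smul_add, mul_smul, Algebra.smul_def c₀ (algebraMap A B t')]
      have h3 : g₁ = algebraMap A B t' + μ₀ • u₁ := smul_right_injective B hc₀ h2
      rw [← hge₁, h3, map_add, Algebra.smul_def, map_mul, hresm μ₀ hμ₀, zero_mul, add_zero]
    · -- `t ∈ 𝔪`: reduction gives `0 = 1`
      have htm : t ∈ maximalIdeal A := (mem_maximalIdeal t).mpr htu
      have ha0 : a ≠ 0 := by
        rintro rfl
        rw [zero_mul] at ht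
        exact hc₀ ht
      have h2 : a • (t • g₁) = a • (1 + (t * μ₀) • u₁) := by
        have h5 : c₀ • g₁ = algebraMap A B a + c • u₁ := by rw [← ha]; ring
        rw [← mul_smul, ← ht, h5, hc, ht, smul_add, ← mul_smul, mul_assoc,
          Algebra.smul_def a (1 : B), mul_one]
      have h3 : t • g₁ = 1 + (t * μ₀) • u₁ := smul_right_injective B ha0 h2
      have h4 : (0 : Ω) = 1 := by
        have := congrArg res h3
        rw [Algebra.smul_def, map_mul, hresm t htm, zero_mul, map_add, map_one,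
          Algebra.smul_def, map_mul, hresm _ (Ideal.mul_mem_right _ _ htm), zero_mul,
          add_zero] at this
        exact this
      haveI : Subsingleton Ω := subsingleton_of_zero_eq_one h4
      exact ⟨0, Subsingleton.elim _ _⟩

end Main

end Fermat.Agent.S33x.H1.Connected
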