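/-
P-S33, block H1, leaf (H1-a), INDEPENDENT SECOND (helper20): Zariski connectedness of the special
fibre in lattice form (abstract core of (F2) of blueprint v2, after helper43's note 2052).

`A` a local domain (for us: a valuation domain) of rank one with maximal ideal `m`, `Bx` a commutative `A`-algebra,
`Boo`, `B0` two `A`-subalgebras of `Bx`, `res : Bx ->+* Omega` a ring homomorphism killing `m Bx`
and whose kernel on `Boo`, `B0`, `Bx` is `m Boo`, `m B0`, `m Bx` (single element form),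
`Boo cap B0 = A`, and ONE `c0 != 0` killing the `A`-torsion of `Bx / (Boo + B0)`.

THEN every idempotent of `Omega` lying in `res Boo cap res B0` is the image of a constant.

Proof: lift the idempotent to `f1 in Boo`, `f1' in B0`, idempotent modulo `c := c0 * pi`
(`pi in m`, nonzero) by the Newton map `f -> 3 f^2 - 2 f^3`; modulo `c` the two idempotents differ
by a nilpotent element, hence are equal: `f1 - f1' = c gamma`; the torsion bound gives
`c0 gamma = g_oo + g_0`, so `f1 - pi g_oo = f1' + pi g_0` lies in `Boo cap B0 = A`.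
-/
import Mathlib

set_option autoImplicit false
set_option linter.unusedSectionVars false

namespace Fermat.Agent.S33x.H1.ConnectedB

open IsLocalRing

section Newton

variable {R : Type*} [CommRing R]

/-- the Newton map for idempotents -/
def newt (f : R) : R := 3 * f ^ 2 - 2 * f ^ 3

theorem newt_sq_sub (f : R) :
    newt f ^ 2 - newt f = (f ^ 2 - f) ^ 2 * (4 * (f ^ 2 - f) - 3) := by
  unfold newt
  ring

theorem newt_sub (f : R) : newt f - f = (f ^ 2 - f) * (1 - 2 * f) := by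
  unfold newt
  ring

/-- the iterated Newton map -/
def newtIter (f : R) : ℕ → R
  | 0 => f
  | n + 1 => newt (newtIter f n)

theorem map_newt {S : Type*} [CommRing S] (φ : R →+* S) (f : R) : φ (newt f) = newt (φ f) := by
  unfold newt
  simp only [map_sub, map_mul, map_pow, map_ofNat]

theorem newt_of_idem {e : R} (he : IsIdempotentElem e) : newt e = e := by
  have h2 : e ^ 2 = e := by rw [pow_two]; exact he
  have h3 : e ^ 3 = e := by rw [pow_succ, h2]; exact he
  unfold newt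
  rw [h2, h3]
  ring

theorem map_newtIter_of_idem {S : Type*} [CommRing S] (φ : R →+* S) (f : R)
    (he : IsIdempotentElem (φ f)) (n : ℕ) : φ (newtIter f n) = φ f := by
  induction n with
  | zero => rfl
  | succ n ih =>
    show φ (newt (newtIter f n)) = φ f
    rw [map_newt, ih, newt_of_idem he]

end Newton

variable {A : Type*} [CommRing A] [IsDomain A] [IsLocalRing A]
  {Bx : Type*} [CommRing Bx] [Algebra A Bx]

/-- the Newton iterates stay in a subalgebra and their idempotency defect is divisible by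
`ν ^ (2 ^ n)`. -/
theorem newtIter_spec (B : Subalgebra A Bx) {f : Bx} (hf : f ∈ B) {ν : A} {b : Bx} (hb : b ∈ B)
    (h : f ^ 2 - f = ν • b) (n : ℕ) :
    newtIter f n ∈ B ∧ ∃ b' ∈ B, newtIter f n ^ 2 - newtIter f n = (ν ^ (2 ^ n)) • b' := by
  induction n with
  | zero =>
    refine ⟨hf, b, hb, ?_⟩
    show f ^ 2 - f = ν ^ 2 ^ 0 • b
    rw [pow_zero, pow_one]
    exact h
  | succ n ih =>
    obtain ⟨hmem, b', hb', hb'eq⟩ := ih
    have hmem' : newt (newtIter f n) ∈ B := by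
      unfold newt
      exact B.sub_mem (B.mul_mem (by exact_mod_cast B.natCast_mem 3) (B.pow_mem hmem 2))
        (B.mul_mem (by exact_mod_cast B.natCast_mem 2) (B.pow_mem hmem 3))
    refine ⟨hmem', b' ^ 2 * (4 * (newtIter f n ^ 2 - newtIter f n) - 3), ?_, ?_⟩
    · refine B.mul_mem (B.pow_mem hb' 2) (B.sub_mem (B.mul_mem ?_ ?_) ?_)
      · exact_mod_cast B.natCast_mem 4
      · exact B.sub_mem (B.pow_mem hmem 2) hmem
      · exact_mod_cast B.natCast_mem 3
    · show newt (newtIter f n) ^ 2 - newt (newtIter f n) = _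
      rw [newt_sq_sub]
      generalize newtIter f n ^ 2 - newtIter f n = D at hb'eq ⊢
      subst hb'eq
      rw [smul_pow, ← pow_mul, smul_mul_assoc, show 2 ^ (n + 1) = 2 ^ n * 2 from pow_succ 2 n]

/-- **Zariski connectedness in lattice form** (abstract (F2)). -/
theorem exists_const_of_isIdempotentElem
    {Ω : Type*} [CommRing Ω] (Boo B0 : Subalgebra A Bx) (res : Bx →+* Ω)
    (hres_m : ∀ μ ∈ maximalIdeal A, ∀ x : Bx, res (μ • x) = 0)
    (hker_oo : ∀ x ∈ Boo, res x = 0 → ∃ μ ∈ maximalIdeal A, ∃ b ∈ Boo, x = μ • b)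
    (hker_0 : ∀ x ∈ B0, res x = 0 → ∃ μ ∈ maximalIdeal A, ∃ b ∈ B0, x = μ • b)
    (hker : ∀ x : Bx, res x = 0 → ∃ μ ∈ maximalIdeal A, ∃ b : Bx, x = μ • b)
    (hint : ∀ x, x ∈ Boo → x ∈ B0 → ∃ a : A, x = algebraMap A Bx a)
    (c0 : A) (hc0 : c0 ≠ 0)
    (htors : ∀ (c : A) (γ : Bx), c ≠ 0 → (∃ x ∈ Boo, ∃ y ∈ B0, c • γ = x + y) →
      ∃ x ∈ Boo, ∃ y ∈ B0, c0 • γ = x + y)
    (hrank : ∀ μ ∈ maximalIdeal A, ∀ c : A, c ≠ 0 → ∃ j : ℕ, c ∣ μ ^ j)
    (ϖ : A) (hϖ : ϖ ∈ maximalIdeal A) (hϖ0 : ϖ ≠ 0)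
    (e : Ω) (he : IsIdempotentElem e) (hoo : ∃ f ∈ Boo, res f = e) (h0 : ∃ f ∈ B0, res f = e) :
    ∃ a : A, res (algebraMap A Bx a) = e := by
  classical
  set c : A := c0 * ϖ with hc
  have hc_ne : c ≠ 0 := mul_ne_zero hc0 hϖ0
  -- lifting an idempotent modulo `c` inside a subalgebra
  have lift : ∀ (B : Subalgebra A Bx),
      (∀ x ∈ B, res x = 0 → ∃ μ ∈ maximalIdeal A, ∃ b ∈ B, x = μ • b) →
      (∃ f ∈ B, res f = e) → ∃ f ∈ B, res f = e ∧ ∃ b ∈ B, f ^ 2 - f = c • b := by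
    intro B hkerB hB
    obtain ⟨f, hf, hfe⟩ := hB
    have h0' : res (f ^ 2 - f) = 0 := by
      rw [map_sub, map_pow, hfe, pow_two, he.eq, sub_self]
    obtain ⟨ν, hν, b, hb, hfb⟩ := hkerB _ (B.sub_mem (B.pow_mem hf 2) hf) h0'
    obtain ⟨j, hj⟩ := hrank ν hν c hc_ne
    obtain ⟨hmem, b', hb', hb'eq⟩ := newtIter_spec B hf hb hfb j
    have hle : j ≤ 2 ^ j := Nat.lt_two_pow_self.le
    obtain ⟨d, hd⟩ := hj
    refine ⟨newtIter f j, hmem, ?_, (d * ν ^ (2 ^ j - j)) • b', B.smul_mem hb' _, ?_⟩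
    · rw [map_newtIter_of_idem res f (by rw [hfe]; exact he), hfe]
    · rw [hb'eq, smul_smul]
      congr 1
      rw [← mul_assoc, ← hd, ← pow_add, Nat.add_sub_cancel' hle]
  obtain ⟨f1, hf1, hf1e, b1, hb1, hf1b⟩ := lift Boo hker_oo hoo
  obtain ⟨f1', hf1', hf1'e, b1', hb1', hf1'b⟩ := lift B0 hker_0 h0
  -- the two lifts agree modulo `c`
  have hd0 : res (f1 - f1') = 0 := by rw [map_sub, hf1e, hf1'e, sub_self]
  obtain ⟨μ, hμ, γ0, hγ0⟩ := hker _ hd0
  obtain ⟨j, hj⟩ := hrank μ hμ c hc_ne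
  let I : Ideal Bx := Ideal.span {algebraMap A Bx c}
  have hcI : ∀ x : Bx, c • x ∈ I := fun x => by
    rw [Algebra.smul_def]
    exact I.mul_mem_right _ (Ideal.subset_span rfl)
  have hq1 : IsIdempotentElem (Ideal.Quotient.mk I f1) := by
    unfold IsIdempotentElem
    rw [← map_mul, ← sub_eq_zero, ← map_sub, Ideal.Quotient.eq_zero_iff_mem, ← pow_two, hf1b]
    exact hcI _
  have hq1' : IsIdempotentElem (Ideal.Quotient.mk I f1') := by
    unfold IsIdempotentElem
    rw [← map_mul, ← sub_eq_zero, ← map_sub, Ideal.Quotient.eq_zero_iff_mem, ← pow_two, hf1'b]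
    exact hcI _
  have hnil : IsNilpotent (Ideal.Quotient.mk I f1 - Ideal.Quotient.mk I f1') := by
    refine ⟨j, ?_⟩
    rw [← map_sub, ← map_pow, Ideal.Quotient.eq_zero_iff_mem, hγ0, smul_pow]
    obtain ⟨d, hd⟩ := hj
    rw [hd, mul_smul]
    exact hcI _
  have heq : Ideal.Quotient.mk I f1 = Ideal.Quotient.mk I f1' := by
    set x := Ideal.Quotient.mk I f1
    set y := Ideal.Quotient.mk I f1'
    have hx : x * x = x := hq1
    have hy : y * y = y := hq1'
    have h3 : (x - y) ^ 3 = x - y := by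
      have : (x - y) ^ 3 = x * x * x - 3 * (x * x) * y + 3 * x * (y * y) - y * y * y := by ring
      rw [this, hx, hx, hy, hy]
      ring
    obtain ⟨n, hn⟩ := hnil
    have hpow : ∀ i : ℕ, (x - y) ^ (3 ^ i) = x - y := by
      intro i
      induction i with
      | zero => simp
      | succ i ih => rw [pow_succ, pow_mul, ih, h3]
    have hle : n ≤ 3 ^ n := Nat.lt_pow_self (by norm_num) |>.le
    have : (x - y) ^ (3 ^ n) = 0 := pow_eq_zero_of_le hle hn
    rw [hpow n] at this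
    exact sub_eq_zero.mp this
  have hmemI : f1 - f1' ∈ I := by
    rw [← Ideal.Quotient.eq_zero_iff_mem, map_sub, heq, sub_self]
  obtain ⟨γ, hγ⟩ := Ideal.mem_span_singleton'.mp hmemI
  have hγ' : c • γ = f1 + (-f1') := by
    rw [Algebra.smul_def, mul_comm, hγ, sub_eq_add_neg]
  obtain ⟨goo, hgoo, g0, hg0, hg⟩ := htors c γ hc_ne ⟨f1, hf1, -f1', B0.neg_mem hf1', hγ'⟩
  -- the constant
  have hkey : f1 - ϖ • goo = f1' + ϖ • g0 := by
    have h1 : f1 - f1' = ϖ • goo + ϖ • g0 := by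
      rw [← smul_add, ← hg, smul_smul, mul_comm ϖ c0, ← hc, hγ', sub_eq_add_neg]
    linear_combination h1
  obtain ⟨a, ha⟩ := hint (f1 - ϖ • goo) (Boo.sub_mem hf1 (Boo.smul_mem hgoo ϖ))
    (by rw [hkey]; exact B0.add_mem hf1' (B0.smul_mem hg0 ϖ))
  refine ⟨a, ?_⟩
  rw [← ha, map_sub, hres_m ϖ hϖ, sub_zero, hf1e]

end Fermat.Agent.S33x.H1.ConnectedB
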