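/-
P-S33, (F2) abstract core (helper7): ZARISKI CONNECTEDNESS OF THE SPECIAL FIBRE BY UNIQUE
IDEMPOTENT LIFTING (the proof of helper43's note 2052, steps (2)-(5)), Mathlib only.

Setting: `A` a valuation ring, `B` a commutative `A`-algebra without `A`-torsion, `res : B →+* R`
a reduction map killing the non-units of `A`, two subalgebras `U`, `U'` of `B` (the two chart
rings) with `U ∩ U' = A`, a non-zero `c0 : A` bounding the torsion of `B / (U + U')` and a non-zero
non-unit `d : A`; modulo `c := c0 * d` the kernel of `res` is a nil ideal on `U`, `U'` and `B`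
(rank one: `ker res = m B`, and every element of `m` has a power divisible by `c`).

* `exists_idem_mod`        : an idempotent of the image of `φ : S →+* R` lifts to an idempotent
                             modulo `c` as soon as `ker φ` is nil modulo `c`;
* `dvd_sub_of_idem_mod`    : two idempotents modulo `c` with the same reduction are congruent
                             modulo `c`;
* `idem_mem_range_const`   : **an idempotent `e` of `R` lying in `res U ∩ res U'` is the reduction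
                             of a constant** (`e = res a`, `a : A`).  For `R = κ_oo × κ_0` and
                             `e = (1, 0)` this is impossible (constants reduce to the diagonal):
                             `res U ∩ res U' = k`, i.e. (F2).
* `not_one_zero_mem`, `const_eq_of_mem` : the two corollaries for `R = R₁ × R₂`: `(1, 0)` is not in
                             `res U ∩ res U'`; a pair of constants `(c₁, c₂)` in it has `c₁ = c₂`
                             (this is (F2) once `res U ∩ res U' ≤ k × k` is known).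
* `map_le_radical`, `exists_pow_eq_smul` : the nilpotency hypotheses from `ker res = m • N` and the
                             rank-one property of `A`.
-/
import Mathlib

set_option autoImplicit false

namespace Fermat.Agent.S33x.H1.ConnectedCore

section Lift

variable {S R : Type*} [CommRing S] [CommRing R]

/-- An idempotent of the image of `φ` lifts to an idempotent modulo `c` when the kernel of `φ`
is nil modulo `c`. -/
theorem exists_idem_mod (φ : S →+* R) (c : S) (hc : φ c = 0)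
    (hnil : ∀ f : S, φ f = 0 → ∃ j : ℕ, c ∣ f ^ j)
    {e : R} (he : IsIdempotentElem e) (hmem : ∃ f : S, φ f = e) :
    ∃ f : S, c ∣ f ^ 2 - f ∧ φ f = e := by
  have hJ : ∀ a ∈ Ideal.span {c}, φ a = 0 := by
    intro a ha
    obtain ⟨b, rfl⟩ := Ideal.mem_span_singleton'.mp ha
    rw [map_mul, hc, mul_zero]
  have hψ : ∀ f : S, Ideal.Quotient.lift (Ideal.span {c}) φ hJ (Ideal.Quotient.mk _ f) = φ f :=
    fun f => Ideal.Quotient.lift_mk _ _ _
  have hker : ∀ x ∈ RingHom.ker (Ideal.Quotient.lift (Ideal.span {c}) φ hJ), IsNilpotent x := by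
    intro x hx
    obtain ⟨f, rfl⟩ := Ideal.Quotient.mk_surjective x
    rw [RingHom.mem_ker, hψ] at hx
    obtain ⟨j, hj⟩ := hnil f hx
    refine ⟨j, ?_⟩
    rw [← map_pow, Ideal.Quotient.eq_zero_iff_mem, Ideal.mem_span_singleton]
    exact hj
  obtain ⟨f0, hf0⟩ := hmem
  obtain ⟨e', he', hψe⟩ := exists_isIdempotentElem_eq_of_ker_isNilpotent
    (Ideal.Quotient.lift (Ideal.span {c}) φ hJ) hker e
    ⟨Ideal.Quotient.mk _ f0, by rw [hψ, hf0]⟩ he
  obtain ⟨f, rfl⟩ := Ideal.Quotient.mk_surjective e'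
  refine ⟨f, ?_, by rw [← hψ f, hψe]⟩
  have h0 : Ideal.Quotient.mk (Ideal.span {c}) (f ^ 2 - f) = 0 := by
    rw [map_sub, map_pow, pow_two, he'.eq, sub_self]
  rwa [Ideal.Quotient.eq_zero_iff_mem, Ideal.mem_span_singleton] at h0

/-- Two idempotents modulo `c` whose difference is nilpotent modulo `c` are congruent modulo
`c`. -/
theorem dvd_sub_of_idem_mod (c : S) {f f' : S} (hf : c ∣ f ^ 2 - f) (hf' : c ∣ f' ^ 2 - f')
    (hnil : ∃ j : ℕ, c ∣ (f - f') ^ j) : c ∣ f - f' := by
  have key : ∀ g : S, c ∣ g ^ 2 - g → IsIdempotentElem (Ideal.Quotient.mk (Ideal.span {c}) g) := by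
    intro g hg
    have h0 : Ideal.Quotient.mk (Ideal.span {c}) (g ^ 2 - g) = 0 := by
      rw [Ideal.Quotient.eq_zero_iff_mem, Ideal.mem_span_singleton]
      exact hg
    rw [map_sub, map_pow, sub_eq_zero, pow_two] at h0
    exact h0
  have hN : IsNilpotent (Ideal.Quotient.mk (Ideal.span {c}) f -
      Ideal.Quotient.mk (Ideal.span {c}) f') := by
    obtain ⟨j, hj⟩ := hnil
    refine ⟨j, ?_⟩
    rw [← map_sub, ← map_pow, Ideal.Quotient.eq_zero_iff_mem, Ideal.mem_span_singleton]
    exact hj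
  have heq := eq_of_isNilpotent_sub_of_isIdempotentElem (key f hf) (key f' hf') hN
  rw [← sub_eq_zero, ← map_sub, Ideal.Quotient.eq_zero_iff_mem, Ideal.mem_span_singleton] at heq
  exact heq

end Lift

section Radical

variable {A S : Type*} [CommRing A] [CommRing S] [Algebra A S]

/-- If every element of the ideal `I` of `A` has a power divisible by `c`, then `I S` lies in the
radical of `c S`. -/
theorem map_le_radical (I : Ideal A) (c : A) (hrank : ∀ μ ∈ I, ∃ j : ℕ, c ∣ μ ^ j) :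
    I.map (algebraMap A S) ≤ (Ideal.span {algebraMap A S c}).radical := by
  rw [Ideal.map_le_iff_le_comap]
  intro μ hμ
  obtain ⟨j, q, hq⟩ := hrank μ hμ
  rw [Ideal.mem_comap]
  refine ⟨j, ?_⟩
  rw [← map_pow, hq, map_mul]
  exact Ideal.mul_mem_right _ _ (Ideal.subset_span rfl)

/-- The nilpotency hypothesis of `idem_mem_range_const` in the form used there, from the rank-one
property: an `I`-combination of elements of `S` has a power in `c • S`. -/
theorem exists_pow_eq_smul (I : Ideal A) (c : A) (hrank : ∀ μ ∈ I, ∃ j : ℕ, c ∣ μ ^ j)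
    {f : S} (hf : f ∈ I.map (algebraMap A S)) : ∃ j : ℕ, ∃ g : S, f ^ j = c • g := by
  obtain ⟨j, hj⟩ := map_le_radical (S := S) I c hrank hf
  obtain ⟨g, hg⟩ := Ideal.mem_span_singleton'.mp hj
  exact ⟨j, g, by rw [← hg, Algebra.smul_def, mul_comm]⟩

end Radical

section Main

variable {A B R : Type*} [CommRing A] [IsDomain A] [ValuationRing A] [CommRing B] [Algebra A B]
  [CommRing R]

/-- **Connectedness, abstract form.**  An idempotent of `R` which is the reduction of an element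
of `U` and of an element of `U'` is the reduction of a constant. -/
theorem idem_mem_range_const
    (hcancel : ∀ a : A, a ≠ 0 → ∀ x y : B, a • x = a • y → x = y)
    (res : B →+* R) (U U' : Subalgebra A B)
    (hinter : ∀ x, x ∈ U → x ∈ U' → ∃ a : A, algebraMap A B a = x)
    (hres_m : ∀ μ : A, ¬ IsUnit μ → res (algebraMap A B μ) = 0)
    {c0 d : A} (hc0 : c0 ≠ 0) (hd : ¬ IsUnit d)
    (htors : ∀ γ : B, (c0 * d) • γ ∈ Subalgebra.toSubmodule U ⊔ Subalgebra.toSubmodule U' →
      c0 • γ ∈ Subalgebra.toSubmodule U ⊔ Subalgebra.toSubmodule U')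
    (hnilU : ∀ f ∈ U, res f = 0 → ∃ j : ℕ, ∃ g ∈ U, f ^ j = (c0 * d) • g)
    (hnilU' : ∀ f ∈ U', res f = 0 → ∃ j : ℕ, ∃ g ∈ U', f ^ j = (c0 * d) • g)
    (hnil : ∀ f : B, res f = 0 → ∃ j : ℕ, ∃ g : B, f ^ j = (c0 * d) • g)
    {e : R} (he : IsIdempotentElem e) (heU : ∃ f ∈ U, res f = e) (heU' : ∃ f ∈ U', res f = e) :
    ∃ a : A, res (algebraMap A B a) = e := by
  have hcd : ¬ IsUnit (c0 * d) := fun h => hd (isUnit_of_mul_isUnit_right h)
  -- Step A: idempotents modulo `c` in the two charts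
  have stepA : ∀ V : Subalgebra A B,
      (∀ f ∈ V, res f = 0 → ∃ j : ℕ, ∃ g ∈ V, f ^ j = (c0 * d) • g) →
      (∃ f ∈ V, res f = e) → ∃ f ∈ V, (∃ s ∈ V, f ^ 2 - f = (c0 * d) • s) ∧ res f = e := by
    intro V hV heV
    obtain ⟨f0, hf0V, hf0⟩ := heV
    obtain ⟨f, hfc, hfe⟩ := exists_idem_mod (res.comp (V.val : V →+* B))
      (algebraMap A V (c0 * d))
      (by
        show res ((algebraMap A V (c0 * d) : V) : B) = 0
        rw [Subalgebra.coe_algebraMap]
        exact hres_m _ hcd)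
      (by
        intro g hg
        obtain ⟨j, s, hsV, hs⟩ := hV (g : B) g.2 hg
        refine ⟨j, ⟨s, hsV⟩, ?_⟩
        apply Subtype.ext
        rw [Subalgebra.coe_pow, Subalgebra.coe_mul, Subalgebra.coe_algebraMap, hs,
          Algebra.smul_def])
      he ⟨⟨f0, hf0V⟩, hf0⟩
    obtain ⟨s, hs⟩ := hfc
    refine ⟨(f : B), f.2, ⟨(s : B), s.2, ?_⟩, hfe⟩
    have h := congrArg (fun x : V => (x : B)) hs
    simp only [Subalgebra.coe_sub, Subalgebra.coe_pow, Subalgebra.coe_mul,
      Subalgebra.coe_algebraMap] at h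
    rw [h, Algebra.smul_def]
  obtain ⟨f1, hf1U, ⟨s1, -, hs1⟩, hres1⟩ := stepA U hnilU heU
  obtain ⟨f1', hf1U', ⟨s1', -, hs1'⟩, hres1'⟩ := stepA U' hnilU' heU'
  -- Step B: the two lifts are congruent modulo `c`
  have hcB : ∀ x : B, (algebraMap A B (c0 * d)) ∣ x ↔ ∃ g : B, x = (c0 * d) • g := by
    intro x
    constructor
    · rintro ⟨g, rfl⟩
      exact ⟨g, by rw [Algebra.smul_def]⟩
    · rintro ⟨g, rfl⟩
      exact ⟨g, by rw [Algebra.smul_def]⟩
  have stepB : ∃ γ : B, f1 - f1' = (c0 * d) • γ := by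
    rw [← hcB]
    apply dvd_sub_of_idem_mod
    · rw [hcB]; exact ⟨s1, hs1⟩
    · rw [hcB]; exact ⟨s1', hs1'⟩
    · have h0 : res (f1 - f1') = 0 := by rw [map_sub, hres1, hres1', sub_self]
      obtain ⟨j, g, hg⟩ := hnil _ h0
      exact ⟨j, (hcB _).mpr ⟨g, hg⟩⟩
  obtain ⟨γ, hγ⟩ := stepB
  -- Step C: the torsion bound
  have hmemγ : (c0 * d) • γ ∈ Subalgebra.toSubmodule U ⊔ Subalgebra.toSubmodule U' := by
    rw [← hγ, sub_eq_add_neg]
    exact Submodule.add_mem_sup hf1U (neg_mem hf1U')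
  obtain ⟨g, hgU, g', hgU', hgg'⟩ := Submodule.mem_sup.mp (htors γ hmemγ)
  -- the common element of the two charts
  have hy : c0 • f1 - (c0 * d) • g = c0 • f1' + (c0 * d) • g' := by
    have h1 : c0 • (f1 - f1') = (c0 * d) • (g + g') := by
      rw [hγ, hgg', smul_smul, smul_smul, mul_comm]
    rw [smul_sub, smul_add] at h1
    linear_combination (exp := 1) h1
  have hyU : c0 • f1 - (c0 * d) • g ∈ U :=
    sub_mem (U.smul_mem hf1U _) (U.smul_mem hgU _)
  have hyU' : c0 • f1 - (c0 * d) • g ∈ U' := by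
    rw [hy]
    exact add_mem (U'.smul_mem hf1U' _) (U'.smul_mem hgU' _)
  obtain ⟨a, ha⟩ := hinter _ hyU hyU'
  -- Step D: the dichotomy of the valuation ring
  have hdich : (∃ a', a = c0 * a') ∨ (∃ u, ¬ IsUnit u ∧ c0 = a * u) := by
    rcases ValuationRing.dvd_total c0 a with ⟨a', h⟩ | ⟨u, hu⟩
    · exact Or.inl ⟨a', h⟩
    · by_cases huu : IsUnit u
      · obtain ⟨v, rfl⟩ := huu
        refine Or.inl ⟨((v⁻¹ : Aˣ) : A), ?_⟩
        rw [hu, mul_assoc, Units.mul_inv, mul_one]
      · exact Or.inr ⟨u, huu, hu⟩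
  rcases hdich with ⟨a', rfl⟩ | ⟨u, hu, hc0u⟩
  · -- `a = c0 * a'`
    refine ⟨a', ?_⟩
    have h2 : c0 • f1 = c0 • (algebraMap A B a' + d • g) := by
      rw [smul_add, smul_smul, ← sub_eq_iff_eq_add, ← ha, map_mul, Algebra.smul_def c0]
    have h3 := hcancel c0 hc0 _ _ h2
    rw [← hres1, h3, map_add, Algebra.smul_def, map_mul, hres_m d hd, zero_mul, add_zero]
  · -- `c0 = a * u` with `u` a non-unit: impossible unless `R` is trivial
    have ha0 : a ≠ 0 := by
      rintro rfl
      exact hc0 (by rw [hc0u, zero_mul])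
    have hud : ¬ IsUnit (u * d) := fun h => hu (isUnit_of_mul_isUnit_left h)
    have h2 : a • (u • f1 - (u * d) • g) = a • (1 : B) := by
      rw [smul_sub, smul_smul, smul_smul, ← mul_assoc, ← hc0u, ← ha, Algebra.smul_def a, mul_one]
    have h3 := hcancel a ha0 _ _ h2
    have h4 : (0 : R) = 1 := by
      have := congrArg res h3
      rw [map_sub, Algebra.smul_def, Algebra.smul_def, map_mul, map_mul, hres_m u hu,
        hres_m _ hud, zero_mul, zero_mul, sub_zero, map_one] at this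
      exact this
    have hsub := subsingleton_of_zero_eq_one h4
    exact ⟨0, Subsingleton.elim _ _⟩

/-- **No non-trivial idempotent**: for a reduction with values in a product `R₁ × R₂` such that
constants reduce "diagonally" (`hdiag`), the idempotent `(1, 0)` is not in `res U ∩ res U'`. -/
theorem not_one_zero_mem {R₁ R₂ : Type*} [CommRing R₁] [CommRing R₂] [Nontrivial R₁]
    (hcancel : ∀ a : A, a ≠ 0 → ∀ x y : B, a • x = a • y → x = y)
    (res : B →+* R₁ × R₂) (U U' : Subalgebra A B)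
    (hinter : ∀ x, x ∈ U → x ∈ U' → ∃ a : A, algebraMap A B a = x)
    (hres_m : ∀ μ : A, ¬ IsUnit μ → res (algebraMap A B μ) = 0)
    (hdiag : ∀ a : A, (res (algebraMap A B a)).2 = 0 → (res (algebraMap A B a)).1 = 0)
    {c0 d : A} (hc0 : c0 ≠ 0) (hd : ¬ IsUnit d)
    (htors : ∀ γ : B, (c0 * d) • γ ∈ Subalgebra.toSubmodule U ⊔ Subalgebra.toSubmodule U' →
      c0 • γ ∈ Subalgebra.toSubmodule U ⊔ Subalgebra.toSubmodule U')
    (hnilU : ∀ f ∈ U, res f = 0 → ∃ j : ℕ, ∃ g ∈ U, f ^ j = (c0 * d) • g)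
    (hnilU' : ∀ f ∈ U', res f = 0 → ∃ j : ℕ, ∃ g ∈ U', f ^ j = (c0 * d) • g)
    (hnil : ∀ f : B, res f = 0 → ∃ j : ℕ, ∃ g : B, f ^ j = (c0 * d) • g)
    (heU : ∃ f ∈ U, res f = (1, 0)) (heU' : ∃ f ∈ U', res f = (1, 0)) : False := by
  have he : IsIdempotentElem ((1, 0) : R₁ × R₂) := by
    show ((1, 0) : R₁ × R₂) * (1, 0) = (1, 0)
    rw [Prod.mk_mul_mk, mul_one, mul_zero]
  obtain ⟨a, ha⟩ := idem_mem_range_const hcancel res U U' hinter hres_m hc0 hd htors hnilU hnilU'
    hnil he heU heU'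
  have h1 := hdiag a (by rw [ha])
  rw [ha] at h1
  exact one_ne_zero h1

/-- **(F2), abstract form**: if constants reduce through `π : A →+* k` onto the diagonal of
`R₁ × R₂` (`k`-algebras), then a pair of constants `(c₁, c₂)` lying in `res U ∩ res U'` is
diagonal: `c₁ = c₂`. -/
theorem const_eq_of_mem {k R₁ R₂ : Type*} [Field k] [CommRing R₁] [CommRing R₂] [Nontrivial R₁]
    [Nontrivial R₂] [Algebra k R₁] [Algebra k R₂]
    (hcancel : ∀ a : A, a ≠ 0 → ∀ x y : B, a • x = a • y → x = y)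
    (res : B →+* R₁ × R₂) (U U' : Subalgebra A B)
    (hinter : ∀ x, x ∈ U → x ∈ U' → ∃ a : A, algebraMap A B a = x)
    (π : A →+* k) (hπ : Function.Surjective π)
    (hπm : ∀ μ : A, ¬ IsUnit μ → π μ = 0)
    (hres_const : ∀ a : A,
      res (algebraMap A B a) = (algebraMap k R₁ (π a), algebraMap k R₂ (π a)))
    {c0 d : A} (hc0 : c0 ≠ 0) (hd : ¬ IsUnit d)
    (htors : ∀ γ : B, (c0 * d) • γ ∈ Subalgebra.toSubmodule U ⊔ Subalgebra.toSubmodule U' →
      c0 • γ ∈ Subalgebra.toSubmodule U ⊔ Subalgebra.toSubmodule U')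
    (hnilU : ∀ f ∈ U, res f = 0 → ∃ j : ℕ, ∃ g ∈ U, f ^ j = (c0 * d) • g)
    (hnilU' : ∀ f ∈ U', res f = 0 → ∃ j : ℕ, ∃ g ∈ U', f ^ j = (c0 * d) • g)
    (hnil : ∀ f : B, res f = 0 → ∃ j : ℕ, ∃ g : B, f ^ j = (c0 * d) • g)
    {c₁ c₂ : k} (heU : ∃ f ∈ U, res f = (algebraMap k R₁ c₁, algebraMap k R₂ c₂))
    (heU' : ∃ f ∈ U', res f = (algebraMap k R₁ c₁, algebraMap k R₂ c₂)) : c₁ = c₂ := by
  by_contra hne
  have hsub : c₁ - c₂ ≠ 0 := sub_ne_zero.mpr hne
  obtain ⟨a, ha⟩ := hπ (c₁ - c₂)⁻¹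
  obtain ⟨b, hb⟩ := hπ c₂
  have hres_m : ∀ μ : A, ¬ IsUnit μ → res (algebraMap A B μ) = 0 := by
    intro μ hμ
    rw [hres_const, hπm μ hμ, map_zero, map_zero]
    rfl
  have hdiag : ∀ x : A, (res (algebraMap A B x)).2 = 0 → (res (algebraMap A B x)).1 = 0 := by
    intro x hx
    rw [hres_const] at hx ⊢
    have h0 : π x = 0 := by
      have : algebraMap k R₂ (π x) = algebraMap k R₂ 0 := by rw [map_zero]; exact hx
      exact (algebraMap k R₂).injective this
    show algebraMap k R₁ (π x) = 0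
    rw [h0, map_zero]
  have key : ∀ V : Subalgebra A B,
      (∃ f ∈ V, res f = (algebraMap k R₁ c₁, algebraMap k R₂ c₂)) → ∃ f ∈ V, res f = (1, 0) := by
    rintro V ⟨f, hfV, hf⟩
    refine ⟨a • (f - algebraMap A B b), V.smul_mem (sub_mem hfV (V.algebraMap_mem b)) a, ?_⟩
    rw [Algebra.smul_def, map_mul, map_sub, hres_const, hres_const, hf, ha, hb]
    ext
    · show algebraMap k R₁ (c₁ - c₂)⁻¹ * (algebraMap k R₁ c₁ - algebraMap k R₁ c₂) = 1
      rw [← map_sub, ← map_mul, inv_mul_cancel₀ hsub, map_one]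
    · show algebraMap k R₂ (c₁ - c₂)⁻¹ * (algebraMap k R₂ c₂ - algebraMap k R₂ c₂) = 0
      rw [sub_self, mul_zero]
  exact not_one_zero_mem hcancel res U U' hinter hres_m hdiag hc0 hd htors hnilU hnilU' hnil
    (key U heU) (key U' heU')

end Main

end Fermat.Agent.S33x.H1.ConnectedCore
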