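/-
P-S33 (blueprint v2), dir `S33x/H1`, leaf (H1-b'), requested by block W (helper42, (B1)):
ANY-LIFTS form of the abstract (F1)-core.

`A` local, `X` finite free, `N ≤ X` finitely generated and saturated modulo the maximal ideal (so that
`X ⧸ N` is free, `FreeQuot.free_quotient`).  If `a₁, …, a_n ∈ X` are ANY elements which form a basis of
`X ⧸ N` modulo the maximal ideal, in the element form

* (span mod `𝔪`) every `x ∈ X` is `y + ∑ sᵢ aᵢ` modulo `𝔪 X` with `y ∈ N`,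
* (independence mod `𝔪`) `y + ∑ sᵢ aᵢ ∈ 𝔪 X` with `y ∈ N` forces all `sᵢ ∈ 𝔪`,

then `X = N + ∑ A aᵢ` with uniqueness of the coefficients and divisibility.  So the `aᵢ` of the
decomposition `Bx = Boo + B0 + ∑ A aᵢ` may be taken to be INERTIA-FIXED lifts of a basis of the
reduction.  Relative (ambient-module) forms and the corresponding assembly of
`Cech.OfDirectSum.DirectSum` are included.
-/
import Fermat.Agent.S33x.H1.Assemble

set_option autoImplicit false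

namespace Fermat.Agent.S33x.H1.FreeQuotAny

open IsLocalRing TensorProduct Fermat.Agent.S33x.Cech.OfDirectSum

section abs

variable {A : Type*} [CommRing A] [IsLocalRing A]
variable {X : Type*} [AddCommGroup X] [Module A X]

/-- Nakayama: generation modulo `𝔪 X` is generation. -/
theorem gen_of_span [Module.Finite A X] (N : Submodule A X) {n : ℕ} (a : Fin n → X)
    (hspan : ∀ x : X, ∃ y ∈ N, ∃ s : Fin n → A,
      x - (y + ∑ i, s i • a i) ∈ maximalIdeal A • (⊤ : Submodule A X)) :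
    ∀ x : X, ∃ y ∈ N, ∃ s : Fin n → A, x = y + ∑ i, s i • a i := by
  have hle : (⊤ : Submodule A X) ≤ N ⊔ Submodule.span A (Set.range a) := by
    apply Submodule.le_of_le_smul_of_le_jacobson_bot (I := maximalIdeal A) Module.Finite.fg_top
      (IsLocalRing.maximalIdeal_le_jacobson ⊥)
    intro x _
    obtain ⟨y, hy, s, hs⟩ := hspan x
    have hx : x = (y + ∑ i, s i • a i) + (x - (y + ∑ i, s i • a i)) := by abel
    rw [hx]
    refine Submodule.add_mem_sup (Submodule.add_mem_sup hy ?_) hs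
    exact Submodule.sum_mem _ fun i _ =>
      Submodule.smul_mem _ _ (Submodule.subset_span ⟨i, rfl⟩)
  intro x
  obtain ⟨y, hy, z, hz, rfl⟩ := Submodule.mem_sup.mp (hle (Submodule.mem_top : x ∈ ⊤))
  obtain ⟨s, rfl⟩ := (Submodule.mem_span_range_iff_exists_fun A).mp hz
  exact ⟨y, hy, s, rfl⟩

/-- independence modulo `𝔪 X` is independence, because `X ⧸ N` is free (hence flat). -/
theorem uniq_of_indep [Module.Finite A X] [Module.Free A X] (N : Submodule A X) (hN : N.FG)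
    (hsat : ∀ x ∈ N, x ∈ maximalIdeal A • (⊤ : Submodule A X) → x ∈ maximalIdeal A • N)
    {n : ℕ} (a : Fin n → X)
    (hindep : ∀ y ∈ N, ∀ s : Fin n → A,
      y + ∑ i, s i • a i ∈ maximalIdeal A • (⊤ : Submodule A X) → ∀ i, s i ∈ maximalIdeal A) :
    ∀ y ∈ N, ∀ s : Fin n → A, y + ∑ i, s i • a i = 0 → s = 0 := by
  haveI : Module.Free A (X ⧸ N) := FreeQuot.free_quotient N hN hsat
  have hli : LinearIndependent A (fun i => N.mkQ (a i)) := by
    apply Module.IsLocalRing.linearIndependent_of_flat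
    rw [Fintype.linearIndependent_iff]
    intro g hg i
    choose c hc using fun i => IsLocalRing.residue_surjective (g i)
    have h1 : (TensorProduct.mk A (ResidueField A) (X ⧸ N) 1) (∑ i, c i • N.mkQ (a i)) = 0 := by
      rw [map_sum, ← hg]
      refine Finset.sum_congr rfl fun i _ => ?_
      rw [Function.comp_apply, map_smul, TensorProduct.mk_apply, TensorProduct.smul_tmul',
        TensorProduct.smul_tmul', smul_eq_mul, mul_one, Algebra.smul_def, mul_one, ← hc i]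
      rfl
    have h2 : ∑ i, c i • N.mkQ (a i) ∈ maximalIdeal A • (⊤ : Submodule A (X ⧸ N)) := by
      rw [← LinearMap.ker_tensorProductMk]
      exact h1
    have h3 : (maximalIdeal A • (⊤ : Submodule A X)).map N.mkQ
        = maximalIdeal A • (⊤ : Submodule A (X ⧸ N)) := by
      rw [Submodule.map_smul'', Submodule.map_top, Submodule.range_mkQ]
    rw [← h3] at h2
    obtain ⟨z, hz, hzq⟩ := h2
    have h4 : z - ∑ i, c i • a i ∈ N := by
      rw [← Submodule.ker_mkQ N, LinearMap.mem_ker, map_sub, map_sum, sub_eq_zero]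
      simp only [map_smul]
      exact hzq
    have h5 := hindep _ h4 c (by rw [sub_add_cancel]; exact hz) i
    rw [← hc i]
    exact (IsLocalRing.residue_eq_zero_iff _).mpr h5
  intro y hy s hs
  have h0 : ∑ i, s i • N.mkQ (a i) = 0 := by
    have hy0 : N.mkQ y = 0 := by
      rw [Submodule.mkQ_apply]
      exact (Submodule.Quotient.mk_eq_zero N).mpr hy
    have : N.mkQ (y + ∑ i, s i • a i) = 0 := by rw [hs, map_zero]
    rw [map_add, hy0, zero_add, map_sum] at this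
    simpa using this
  funext i
  exact (Fintype.linearIndependent_iff.mp hli) s h0 i

/-- **Any lifts**: generation, uniqueness and divisibility for ANY family `a` which is a basis of
`X ⧸ N` modulo the maximal ideal. -/
theorem lifts_of_mod [Module.Finite A X] [Module.Free A X] (N : Submodule A X) (hN : N.FG)
    (hsat : ∀ x ∈ N, x ∈ maximalIdeal A • (⊤ : Submodule A X) → x ∈ maximalIdeal A • N)
    {n : ℕ} (a : Fin n → X)
    (hspan : ∀ x : X, ∃ y ∈ N, ∃ s : Fin n → A,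
      x - (y + ∑ i, s i • a i) ∈ maximalIdeal A • (⊤ : Submodule A X))
    (hindep : ∀ y ∈ N, ∀ s : Fin n → A,
      y + ∑ i, s i • a i ∈ maximalIdeal A • (⊤ : Submodule A X) → ∀ i, s i ∈ maximalIdeal A) :
    (∀ x : X, ∃ y ∈ N, ∃ s : Fin n → A, x = y + ∑ i, s i • a i) ∧
    (∀ y ∈ N, ∀ s : Fin n → A, y + ∑ i, s i • a i = 0 → s = 0) ∧
    (∀ (c : A) (y : X) (s : Fin n → A), y ∈ N →
      (∃ x : X, y + ∑ i, s i • a i = c • x) → ∀ i, c ∣ s i) := by
  have hgen := gen_of_span N a hspan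
  have huniq := uniq_of_indep N hN hsat a hindep
  refine ⟨hgen, huniq, ?_⟩
  rintro c y s hy ⟨x, hx⟩ i
  obtain ⟨y', hy', s', rfl⟩ := hgen x
  have h0 : (y - c • y') + ∑ i, (s - c • s') i • a i = 0 := by
    have hsum : ∑ i, (s - c • s') i • a i = ∑ i, s i • a i - c • ∑ i, s' i • a i := by
      rw [Finset.smul_sum, ← Finset.sum_sub_distrib]
      refine Finset.sum_congr rfl fun i _ => ?_
      rw [Pi.sub_apply, Pi.smul_apply, smul_eq_mul, sub_smul, mul_smul]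
    rw [hsum, sub_add_sub_comm, hx, smul_add, sub_self]
  have h1 := huniq _ (N.sub_mem hy (N.smul_mem c hy')) _ h0
  have h2 : s i - c * s' i = 0 := by
    have := congrFun h1 i
    simpa using this
  exact ⟨s' i, sub_eq_zero.mp h2⟩

/-- the `U ⊔ V` form of `lifts_of_mod`. -/
theorem lifts_of_mod_sup [Module.Finite A X] [Module.Free A X] (U V : Submodule A X)
    (hU : U.FG) (hV : V.FG)
    (h : ∀ u ∈ U, ∀ v ∈ V, u + v ∈ maximalIdeal A • (⊤ : Submodule A X) →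
      ∃ w ∈ U ⊓ V, u - w ∈ maximalIdeal A • U ∧ v + w ∈ maximalIdeal A • V)
    {n : ℕ} (a : Fin n → X)
    (hspan : ∀ x : X, ∃ u ∈ U, ∃ v ∈ V, ∃ s : Fin n → A,
      x - (u + v + ∑ i, s i • a i) ∈ maximalIdeal A • (⊤ : Submodule A X))
    (hindep : ∀ u ∈ U, ∀ v ∈ V, ∀ s : Fin n → A,
      u + v + ∑ i, s i • a i ∈ maximalIdeal A • (⊤ : Submodule A X) → ∀ i, s i ∈ maximalIdeal A) :
    (∀ x : X, ∃ u ∈ U, ∃ v ∈ V, ∃ s : Fin n → A, x = u + v + ∑ i, s i • a i) ∧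
    (∀ u ∈ U, ∀ v ∈ V, ∀ s : Fin n → A, u + v + ∑ i, s i • a i = 0 → s = 0) ∧
    (∀ (c : A), ∀ u ∈ U, ∀ v ∈ V, ∀ s : Fin n → A,
      (∃ x : X, u + v + ∑ i, s i • a i = c • x) → ∀ i, c ∣ s i) := by
  obtain ⟨h1, h2, h3⟩ := lifts_of_mod (U ⊔ V) (hU.sup hV) (FreeQuot.sat_sup U V h) a
    (fun x => by
      obtain ⟨u, hu, v, hv, s, hs⟩ := hspan x
      exact ⟨u + v, Submodule.add_mem_sup hu hv, s, hs⟩)
    (fun y hy s hs => by
      obtain ⟨u, hu, v, hv, rfl⟩ := Submodule.mem_sup.mp hy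
      exact hindep u hu v hv s hs)
  refine ⟨?_, ?_, ?_⟩
  · intro x
    obtain ⟨y, hy, s, rfl⟩ := h1 x
    obtain ⟨u, hu, v, hv, rfl⟩ := Submodule.mem_sup.mp hy
    exact ⟨u, hu, v, hv, s, rfl⟩
  · intro u hu v hv s h0
    exact h2 (u + v) (Submodule.add_mem_sup hu hv) s h0
  · intro c u hu v hv s hx
    exact h3 c (u + v) s (Submodule.add_mem_sup hu hv) hx

end abs

section relative

variable {A : Type*} [CommRing A] [IsLocalRing A]
variable {M : Type*} [AddCommGroup M] [Module A M]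

/-- **Relative form of `lifts_of_mod_sup`**: `U, V ≤ X` submodules of an ambient module, the family
`a` in `X`, all hypotheses stated in the ambient module. -/
theorem lifts_of_mod_sup_rel (X U V : Submodule A M) (hUX : U ≤ X) (hVX : V ≤ X)
    [Module.Finite A X] [Module.Free A X] (hU : U.FG) (hV : V.FG)
    (hsat : ∀ u ∈ U, ∀ v ∈ V, u + v ∈ maximalIdeal A • X →
      ∃ w, w ∈ U ∧ w ∈ V ∧ u - w ∈ maximalIdeal A • U ∧ v + w ∈ maximalIdeal A • V)
    {n : ℕ} (a : Fin n → M) (haX : ∀ i, a i ∈ X)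
    (hspan : ∀ x ∈ X, ∃ u ∈ U, ∃ v ∈ V, ∃ s : Fin n → A,
      x - (u + v + ∑ i, s i • a i) ∈ maximalIdeal A • X)
    (hindep : ∀ u ∈ U, ∀ v ∈ V, ∀ s : Fin n → A,
      u + v + ∑ i, s i • a i ∈ maximalIdeal A • X → ∀ i, s i ∈ maximalIdeal A) :
    (∀ x ∈ X, ∃ u ∈ U, ∃ v ∈ V, ∃ s : Fin n → A, x = u + v + ∑ i, s i • a i) ∧
    (∀ u ∈ U, ∀ v ∈ V, ∀ s : Fin n → A, u + v + ∑ i, s i • a i = 0 → s = 0) := by
  set U' : Submodule A X := U.comap X.subtype with hU'
  set V' : Submodule A X := V.comap X.subtype with hV'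
  have hmapU : U'.map X.subtype = U := by
    rw [hU', Submodule.map_comap_subtype]
    exact inf_eq_right.mpr hUX
  have hmapV : V'.map X.subtype = V := by
    rw [hV', Submodule.map_comap_subtype]
    exact inf_eq_right.mpr hVX
  have hU'fg : U'.FG :=
    Submodule.fg_of_fg_map_injective X.subtype X.injective_subtype (hmapU.symm ▸ hU)
  have hV'fg : V'.FG :=
    Submodule.fg_of_fg_map_injective X.subtype X.injective_subtype (hmapV.symm ▸ hV)
  have hsat' : ∀ u ∈ U', ∀ v ∈ V', u + v ∈ maximalIdeal A • (⊤ : Submodule A X) →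
      ∃ w ∈ U' ⊓ V', u - w ∈ maximalIdeal A • U' ∧ v + w ∈ maximalIdeal A • V' := by
    intro u hu v hv huv
    have huv' : ((u + v : X) : M) ∈ maximalIdeal A • X :=
      (Submodule.mem_smul_top_iff _ _ _).mp huv
    obtain ⟨w, hwU, hwV, h1, h2⟩ := hsat u hu v hv (by simpa using huv')
    refine ⟨⟨w, hUX hwU⟩, ⟨hwU, hwV⟩, ?_, ?_⟩
    · rw [hU', Assemble.mem_smul_comap_iff _ X U hUX]
      simpa using h1
    · rw [hV', Assemble.mem_smul_comap_iff _ X V hVX]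
      simpa using h2
  let a' : Fin n → X := fun i => ⟨a i, haX i⟩
  have hsum : ∀ s : Fin n → A, ((∑ i, s i • a' i : X) : M) = ∑ i, s i • a i := by
    intro s
    simp [a']
  obtain ⟨hgen, huniq, -⟩ := lifts_of_mod_sup U' V' hU'fg hV'fg hsat' a'
    (fun x => by
      obtain ⟨u, hu, v, hv, s, hs⟩ := hspan x x.2
      refine ⟨⟨u, hUX hu⟩, hu, ⟨v, hVX hv⟩, hv, s, ?_⟩
      rw [Submodule.mem_smul_top_iff]
      rw [Submodule.coe_sub, Submodule.coe_add, Submodule.coe_add, hsum]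
      exact hs)
    (fun u hu v hv s hs => by
      refine hindep u hu v hv s ?_
      have := (Submodule.mem_smul_top_iff _ _ _).mp hs
      rw [Submodule.coe_add, Submodule.coe_add, hsum] at this
      exact this)
  refine ⟨?_, ?_⟩
  · intro x hx
    obtain ⟨u, hu, v, hv, s, hs⟩ := hgen ⟨x, hx⟩
    refine ⟨u, hu, v, hv, s, ?_⟩
    have := congrArg (Subtype.val) hs
    rw [Submodule.coe_add, Submodule.coe_add, hsum] at this
    exact this
  · intro u hu v hv s hs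
    refine huniq ⟨u, hUX hu⟩ hu ⟨v, hVX hv⟩ hv s ?_
    apply Subtype.ext
    rw [Submodule.coe_add, Submodule.coe_add, hsum]
    exact hs

end relative

section assemble

variable {A : Type*} [CommRing A] {F : Type*} [Field F] [Algebra A F]

/-- **Assembly from level-`b₁` generation and uniqueness** (no local ring needed): the formal part of
`Assemble.directSum_of_levels`, for a GIVEN family `a`. -/
theorem directSum_of_gen_uniq (Lam : ℕ → ℕ → Submodule A F)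
    (hmono : ∀ a b a' b', a ≤ a' → b ≤ b' → Lam a b ≤ Lam a' b')
    (hinf : ∀ a b a' b' x, x ∈ Lam a b → x ∈ Lam a' b' → x ∈ Lam (min a a') (min b b'))
    (hconst : ∀ x ∈ Lam 0 0, ∃ α : A, x = algebraMap A F α)
    (Bx Boo B0 : Subalgebra A F)
    (hBoo : ∀ x, x ∈ Boo ↔ ∃ c, x ∈ Lam 0 c)
    (hB0 : ∀ x, x ∈ B0 ↔ ∃ a, x ∈ Lam a 0)
    (hBx : ∀ x, x ∈ Bx ↔ ∃ a c, x ∈ Lam a c)
    (b₁ : ℕ) (h3 : ∀ a c, Lam a c ≤ Lam b₁ b₁ ⊔ Lam 0 c ⊔ Lam a 0)
    {g : ℕ} (a : Fin g → F) (haX : ∀ i, a i ∈ Lam b₁ b₁)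
    (hgen : ∀ x ∈ Lam b₁ b₁, ∃ u ∈ Lam b₁ 0, ∃ v ∈ Lam 0 b₁, ∃ s : Fin g → A,
      x = u + v + ∑ i, s i • a i)
    (huniq : ∀ u ∈ Lam b₁ 0, ∀ v ∈ Lam 0 b₁, ∀ s : Fin g → A,
      u + v + ∑ i, s i • a i = 0 → s = 0) :
    DirectSum Bx Boo B0 a := by
  have hsumX : ∀ s : Fin g → A, ∑ i, s i • a i ∈ Lam b₁ b₁ := fun s =>
    Submodule.sum_mem _ fun i _ => Submodule.smul_mem _ _ (haX i)
  refine ⟨?_, ?_, ?_, ?_, ?_⟩
  · intro x hx
    obtain ⟨c, hc⟩ := (hBoo x).mp hx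
    exact (hBx x).mpr ⟨0, c, hc⟩
  · intro x hx
    obtain ⟨c, hc⟩ := (hB0 x).mp hx
    exact (hBx x).mpr ⟨c, 0, hc⟩
  · intro i
    exact (hBx _).mpr ⟨b₁, b₁, haX i⟩
  · intro x hx
    obtain ⟨p, c, hpc⟩ := (hBx x).mp hx
    have hx3 := h3 p c hpc
    obtain ⟨y, hy, h, hh, rfl⟩ := Submodule.mem_sup.mp hx3
    obtain ⟨x₀, hx₀, f, hf, rfl⟩ := Submodule.mem_sup.mp hy
    obtain ⟨u, hu, v, hv, s, hs⟩ := hgen x₀ hx₀
    refine ⟨f + v, ?_, h + u, ?_, s, ?_⟩
    · exact Boo.add_mem ((hBoo f).mpr ⟨c, hf⟩) ((hBoo v).mpr ⟨b₁, hv⟩)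
    · exact B0.add_mem ((hB0 h).mpr ⟨p, hh⟩) ((hB0 u).mpr ⟨b₁, hu⟩)
    · rw [hs]
      abel
  · intro f hf h hh s hrel
    obtain ⟨c, hc⟩ := (hBoo f).mp hf
    obtain ⟨p, hp⟩ := (hB0 h).mp hh
    have hy : f + h ∈ Lam b₁ b₁ := by
      have : f + h = -∑ i, s i • a i := by
        rw [eq_neg_iff_add_eq_zero]
        exact hrel
      rw [this]
      exact Submodule.neg_mem _ (hsumX s)
    have hf1 : f ∈ Lam 0 b₁ := by
      have h1 : f ∈ Lam (max p b₁) b₁ := by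
        have : f = (f + h) - h := by abel
        rw [this]
        exact Submodule.sub_mem _ (hmono _ _ _ _ (le_max_right _ _) le_rfl hy)
          (hmono _ _ _ _ (le_max_left _ _) (Nat.zero_le _) hp)
      have h2 := hinf _ _ _ _ f hc h1
      rw [Nat.zero_min] at h2
      exact hmono _ _ _ _ le_rfl (min_le_right _ _) h2
    have hh1 : h ∈ Lam b₁ 0 := by
      have h1 : h ∈ Lam b₁ (max c b₁) := by
        have : h = (f + h) - f := by abel
        rw [this]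
        exact Submodule.sub_mem _ (hmono _ _ _ _ le_rfl (le_max_right _ _) hy)
          (hmono _ _ _ _ (Nat.zero_le _) (le_max_left _ _) hc)
      have h2 := hinf _ _ _ _ h hp h1
      rw [Nat.zero_min] at h2
      exact hmono _ _ _ _ (min_le_right _ _) le_rfl h2
    have hs0 : s = 0 := huniq h hh1 f hf1 s (by rw [add_comm h f]; exact hrel)
    refine ⟨hs0, ?_⟩
    have hfh : f + h = 0 := by
      rw [hs0] at hrel
      simpa using hrel
    have hfeq : f = -h := eq_neg_of_add_eq_zero_left hfh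
    have hf2 : f ∈ Lam b₁ 0 := hfeq ▸ Submodule.neg_mem _ hh1
    have hf0 := hinf _ _ _ _ f hf1 hf2
    rw [Nat.zero_min, Nat.min_zero] at hf0
    exact hconst f hf0

/-- **Assembly of the export of block H1 for a GIVEN family of lifts** (e.g. inertia-fixed lifts of a
basis of the reduction). -/
theorem directSum_of_levels_of_lifts [IsLocalRing A] (Lam : ℕ → ℕ → Submodule A F)
    (hmono : ∀ a b a' b', a ≤ a' → b ≤ b' → Lam a b ≤ Lam a' b')
    (hinf : ∀ a b a' b' x, x ∈ Lam a b → x ∈ Lam a' b' → x ∈ Lam (min a a') (min b b'))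
    (hconst : ∀ x ∈ Lam 0 0, ∃ α : A, x = algebraMap A F α)
    (Bx Boo B0 : Subalgebra A F)
    (hBoo : ∀ x, x ∈ Boo ↔ ∃ c, x ∈ Lam 0 c)
    (hB0 : ∀ x, x ∈ B0 ↔ ∃ a, x ∈ Lam a 0)
    (hBx : ∀ x, x ∈ Bx ↔ ∃ a c, x ∈ Lam a c)
    (b₁ : ℕ) (h3 : ∀ a c, Lam a c ≤ Lam b₁ b₁ ⊔ Lam 0 c ⊔ Lam a 0)
    [Module.Finite A (Lam b₁ b₁)] [Module.Free A (Lam b₁ b₁)]
    (hU : (Lam b₁ 0).FG) (hV : (Lam 0 b₁).FG)
    (hsat : ∀ u ∈ Lam b₁ 0, ∀ v ∈ Lam 0 b₁, u + v ∈ maximalIdeal A • Lam b₁ b₁ →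
      ∃ w, w ∈ Lam b₁ 0 ∧ w ∈ Lam 0 b₁ ∧ u - w ∈ maximalIdeal A • Lam b₁ 0 ∧
        v + w ∈ maximalIdeal A • Lam 0 b₁)
    {g : ℕ} (a : Fin g → F) (haX : ∀ i, a i ∈ Lam b₁ b₁)
    (hspan : ∀ x ∈ Lam b₁ b₁, ∃ u ∈ Lam b₁ 0, ∃ v ∈ Lam 0 b₁, ∃ s : Fin g → A,
      x - (u + v + ∑ i, s i • a i) ∈ maximalIdeal A • Lam b₁ b₁)
    (hindep : ∀ u ∈ Lam b₁ 0, ∀ v ∈ Lam 0 b₁, ∀ s : Fin g → A,
      u + v + ∑ i, s i • a i ∈ maximalIdeal A • Lam b₁ b₁ → ∀ i, s i ∈ maximalIdeal A) :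
    DirectSum Bx Boo B0 a := by
  obtain ⟨hgen, huniq⟩ := lifts_of_mod_sup_rel (Lam b₁ b₁) (Lam b₁ 0) (Lam 0 b₁)
    (hmono _ _ _ _ le_rfl (Nat.zero_le _)) (hmono _ _ _ _ (Nat.zero_le _) le_rfl) hU hV hsat
    a haX hspan hindep
  exact directSum_of_gen_uniq Lam hmono hinf hconst Bx Boo B0 hBoo hB0 hBx b₁ h3 a haX hgen huniq

end assemble

end Fermat.Agent.S33x.H1.FreeQuotAny
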