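/-
P-S33 (blueprint v2), dir `S33x/H1`, leaf (B1) "ANY LIFTS", INDEPENDENT SECOND (helper17) of
`H1/FreeQuotAny.lean` (helper71): the abstract (F1)-core for a GIVEN family of lifts.  Extras with
respect to the first version: arbitrary `Fintype` index, the basis `basisOfLifts` of `X ⧸ N` itself,
the basis-to-coordinates lemma `of_basis` over any commutative ring, and the `J`-saturation (satJ)
for every ideal `J`.

`A` a local ring, `X` a finite free `A`-module, `N ≤ X` a finitely generated submodule, saturated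
modulo the maximal ideal (`N ∩ 𝔪 X ≤ 𝔪 N`, the hypothesis of `FreeQuot.exists_lifts`).
`FreeQuot.exists_lifts` produces SOME lifts `a_i` of a basis of the free module `X ⧸ N`.  Here we show
that ANY finite family `a : ι → X` whose images form a `k`-basis of `X ⧸ (N + 𝔪 X)`, in the
element-level form

* `(span)`  : every `x : X` is `y + ∑ s i • a i` modulo `𝔪 X`, with `y ∈ N`;
* `(indep)` : `y + ∑ s i • a i ∈ 𝔪 X` with `y ∈ N` forces all `s i ∈ 𝔪`,

has images forming an `A`-basis of `X ⧸ N` (`basisOfLifts`), hence satisfies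

* `(gen)`  : every `x : X` is `y + ∑ s i • a i`, `y ∈ N`;
* `(uniq)` : `y + ∑ s i • a i = 0 → s = 0`;
* `(div)`  : `y + ∑ s i • a i = c • x → ∀ i, c ∣ s i`;
* `(satJ)` : `y + ∑ s i • a i ∈ J X → ∀ i, s i ∈ J`, for every ideal `J`.

The sup-form (`N = U ⊔ V`, saturation from the reduction statement (F2) as in
`FreeQuot.exists_lifts_sup`) is `lifts_any_sup`.

Imports only Mathlib and `H1/FreeQuot`.
-/
import Fermat.Agent.S33x.H1.FreeQuot

set_option autoImplicit false
set_option linter.style.haveILetI false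
set_option linter.unusedSectionVars false

namespace Fermat.Agent.S33x.H1.FreeQuotAnyB

open IsLocalRing TensorProduct

section basis

variable {A : Type*} [CommRing A]
variable {X : Type*} [AddCommGroup X] [Module A X]

/-- `mkQ` of a combination of lifts -/
theorem mkQ_comb (N : Submodule A X) {ι : Type*} [Fintype ι] (a : ι → X) (y : X) (hy : y ∈ N)
    (s : ι → A) : N.mkQ (y + ∑ i, s i • a i) = ∑ i, s i • N.mkQ (a i) := by
  rw [map_add, Submodule.mkQ_apply, (Submodule.Quotient.mk_eq_zero N).mpr hy, zero_add, map_sum]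
  exact Finset.sum_congr rfl fun i _ => by rw [map_smul, Submodule.mkQ_apply]

/-- **From a basis of the quotient to coordinates**: if the images of the `a i` form a basis of
`X ⧸ N`, then (gen), (uniq), (div), (satJ) hold.  No hypothesis on the ring. -/
theorem of_basis (N : Submodule A X) {ι : Type*} [Fintype ι] (a : ι → X)
    (b : Module.Basis ι A (X ⧸ N)) (hb : ∀ i, b i = N.mkQ (a i)) :
    (∀ x : X, ∃ y ∈ N, ∃ s : ι → A, x = y + ∑ i, s i • a i) ∧
    (∀ y ∈ N, ∀ s : ι → A, y + ∑ i, s i • a i = 0 → s = 0) ∧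
    (∀ (c : A) (y : X) (s : ι → A), y ∈ N →
      (∃ x : X, y + ∑ i, s i • a i = c • x) → ∀ i, c ∣ s i) ∧
    (∀ (J : Ideal A) (y : X) (s : ι → A), y ∈ N →
      y + ∑ i, s i • a i ∈ J • (⊤ : Submodule A X) → ∀ i, s i ∈ J) := by
  classical
  have hrepr : ∀ (y : X), y ∈ N → ∀ s : ι → A,
      N.mkQ (y + ∑ i, s i • a i) = ∑ i, s i • b i := by
    intro y hy s
    rw [mkQ_comb N a y hy s]
    exact Finset.sum_congr rfl fun i _ => by rw [hb]
  refine ⟨?_, ?_, ?_, ?_⟩
  · intro x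
    set s : ι → A := fun i => b.repr (N.mkQ x) i with hs
    have h1 : N.mkQ (x - ∑ i, s i • a i) = 0 := by
      have h2 := hrepr 0 N.zero_mem s
      rw [zero_add] at h2
      rw [map_sub, h2, hs, b.sum_repr, sub_self]
    refine ⟨x - ∑ i, s i • a i, ?_, s, by abel⟩
    rwa [Submodule.mkQ_apply, Submodule.Quotient.mk_eq_zero] at h1
  · intro y hy s h0
    have h1 := hrepr y hy s
    rw [h0, map_zero] at h1
    exact funext (Fintype.linearIndependent_iff.mp b.linearIndependent s h1.symm)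
  · rintro c y s hy ⟨x, hx⟩ i
    have h1 := hrepr y hy s
    rw [hx, map_smul] at h1
    set t : ι → A := fun j => b.repr (N.mkQ x) j with ht
    have h2 : ∑ j, (s j - c * t j) • b j = 0 := by
      simp_rw [sub_smul, mul_smul]
      rw [Finset.sum_sub_distrib, ← h1, ← Finset.smul_sum, ht, b.sum_repr, sub_self]
    have h3 := (Fintype.linearIndependent_iff.mp b.linearIndependent) _ h2 i
    exact ⟨t i, sub_eq_zero.mp h3⟩
  · intro J y s hy hJ i
    have h1 := hrepr y hy s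
    have h2 : N.mkQ (y + ∑ i, s i • a i) ∈ J • (⊤ : Submodule A (X ⧸ N)) := by
      have := Submodule.mem_map_of_mem (f := N.mkQ) hJ
      rwa [Submodule.map_smul'', Submodule.map_top, Submodule.range_mkQ] at this
    rw [h1, ← b.span_eq] at h2
    obtain ⟨c, hcJ, hc⟩ := (Submodule.mem_ideal_smul_span_iff_exists_sum J b _).1 h2
    have h4 : b.repr (∑ i, s i • b i) = c := by
      rw [← hc]
      exact b.repr_linearCombination c
    have h5 : b.repr (∑ i, s i • b i) i = s i := congrFun (b.repr_sum_self s) i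
    rw [← h5, h4]
    exact hcJ i

end basis

variable {A : Type*} [CommRing A] [IsLocalRing A]
variable {X : Type*} [AddCommGroup X] [Module A X]

/-- membership of `𝔪 (X ⧸ N)` lifted to `X` -/
theorem exists_of_mkQ_mem_smul_top (N : Submodule A X) (I : Ideal A) (x : X)
    (hx : N.mkQ x ∈ I • (⊤ : Submodule A (X ⧸ N))) :
    ∃ y ∈ N, y + x ∈ I • (⊤ : Submodule A X) := by
  have h1 : (I • (⊤ : Submodule A X)).map N.mkQ = I • (⊤ : Submodule A (X ⧸ N)) := by
    rw [Submodule.map_smul'', Submodule.map_top, Submodule.range_mkQ]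
  rw [← h1] at hx
  obtain ⟨m, hm, hmx⟩ := hx
  refine ⟨m - x, ?_, by rwa [sub_add_cancel]⟩
  rw [← Submodule.Quotient.mk_eq_zero, ← Submodule.mkQ_apply, map_sub, hmx, sub_self]

section any

variable [Module.Finite A X] [Module.Free A X]

/-- **The images of ANY lifts are linearly independent** in the (free) quotient `X ⧸ N`. -/
theorem linearIndependent_mkQ (N : Submodule A X) (hN : N.FG)
    (hsat : ∀ x ∈ N, x ∈ maximalIdeal A • (⊤ : Submodule A X) → x ∈ maximalIdeal A • N)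
    {ι : Type*} [Fintype ι] (a : ι → X)
    (hindep : ∀ y ∈ N, ∀ s : ι → A,
      y + ∑ i, s i • a i ∈ maximalIdeal A • (⊤ : Submodule A X) → ∀ i, s i ∈ maximalIdeal A) :
    LinearIndependent A (fun i => N.mkQ (a i)) := by
  haveI : Module.Free A (X ⧸ N) := FreeQuot.free_quotient N hN hsat
  refine Module.IsLocalRing.linearIndependent_of_flat _ ?_
  rw [Fintype.linearIndependent_iff]
  intro c hc i
  choose s hs using fun i => IsLocalRing.residue_surjective (c i)
  have h1 : (TensorProduct.mk A (ResidueField A) (X ⧸ N) 1) (∑ i, s i • N.mkQ (a i)) = 0 := by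
    rw [map_sum, ← hc]
    refine Finset.sum_congr rfl fun i _ => ?_
    rw [Function.comp_apply, TensorProduct.mk_apply, TensorProduct.mk_apply, ← hs i,
      TensorProduct.tmul_smul, TensorProduct.smul_tmul']
    rw [TensorProduct.smul_tmul']
    congr 1
  have h2 : (∑ i, s i • N.mkQ (a i)) ∈ maximalIdeal A • (⊤ : Submodule A (X ⧸ N)) := by
    rw [← LinearMap.ker_tensorProductMk]
    exact h1
  have h3 : N.mkQ (∑ i, s i • a i) = ∑ i, s i • N.mkQ (a i) := by
    have := mkQ_comb N a 0 N.zero_mem s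
    rwa [zero_add] at this
  rw [← h3] at h2
  obtain ⟨y, hy, hym⟩ := exists_of_mkQ_mem_smul_top N _ _ h2
  have h4 := hindep y hy s hym i
  rw [← hs i]
  exact (IsLocalRing.residue_eq_zero_iff _).mpr h4

/-- **The images of ANY spanning-mod-`𝔪` lifts span** the quotient `X ⧸ N` (Nakayama). -/
theorem span_mkQ_eq_top (N : Submodule A X) {ι : Type*} [Fintype ι] (a : ι → X)
    (hspan : ∀ x : X, ∃ y ∈ N, ∃ s : ι → A,
      x - (y + ∑ i, s i • a i) ∈ maximalIdeal A • (⊤ : Submodule A X)) :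
    Submodule.span A (Set.range fun i => N.mkQ (a i)) = ⊤ := by
  haveI : Module.Finite A (X ⧸ N) :=
    Module.Finite.of_surjective N.mkQ (Submodule.mkQ_surjective N)
  refine top_le_iff.mp ?_
  refine Submodule.le_of_le_smul_of_le_jacobson_bot (Module.Finite.fg_top)
    (by rw [jacobson_eq_maximalIdeal]; exact bot_ne_top) ?_
  intro q _
  obtain ⟨x, rfl⟩ := Submodule.mkQ_surjective N q
  obtain ⟨y, hy, s, hm⟩ := hspan x
  have h1 : N.mkQ x = N.mkQ (y + ∑ i, s i • a i) + N.mkQ (x - (y + ∑ i, s i • a i)) := by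
    rw [← map_add]
    congr 1
    abel
  rw [h1, mkQ_comb N a y hy s]
  refine Submodule.add_mem_sup ?_ ?_
  · exact Submodule.sum_mem _ fun i _ =>
      Submodule.smul_mem _ _ (Submodule.subset_span ⟨i, rfl⟩)
  · have := Submodule.mem_map_of_mem (f := N.mkQ) hm
    rwa [Submodule.map_smul'', Submodule.map_top, Submodule.range_mkQ] at this

/-- **The basis of `X ⧸ N` given by ANY lifts** of a `k`-basis of `X ⧸ (N + 𝔪 X)`. -/
noncomputable def basisOfLifts (N : Submodule A X) (hN : N.FG)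
    (hsat : ∀ x ∈ N, x ∈ maximalIdeal A • (⊤ : Submodule A X) → x ∈ maximalIdeal A • N)
    {ι : Type*} [Fintype ι] (a : ι → X)
    (hspan : ∀ x : X, ∃ y ∈ N, ∃ s : ι → A,
      x - (y + ∑ i, s i • a i) ∈ maximalIdeal A • (⊤ : Submodule A X))
    (hindep : ∀ y ∈ N, ∀ s : ι → A,
      y + ∑ i, s i • a i ∈ maximalIdeal A • (⊤ : Submodule A X) → ∀ i, s i ∈ maximalIdeal A) :
    Module.Basis ι A (X ⧸ N) :=
  Module.Basis.mk (linearIndependent_mkQ N hN hsat a hindep) (span_mkQ_eq_top N a hspan).ge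

theorem basisOfLifts_apply (N : Submodule A X) (hN : N.FG)
    (hsat : ∀ x ∈ N, x ∈ maximalIdeal A • (⊤ : Submodule A X) → x ∈ maximalIdeal A • N)
    {ι : Type*} [Fintype ι] (a : ι → X)
    (hspan : ∀ x : X, ∃ y ∈ N, ∃ s : ι → A,
      x - (y + ∑ i, s i • a i) ∈ maximalIdeal A • (⊤ : Submodule A X))
    (hindep : ∀ y ∈ N, ∀ s : ι → A,
      y + ∑ i, s i • a i ∈ maximalIdeal A • (⊤ : Submodule A X) → ∀ i, s i ∈ maximalIdeal A)
    (i : ι) : basisOfLifts N hN hsat a hspan hindep i = N.mkQ (a i) := by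
  rw [basisOfLifts, Module.Basis.mk_apply]

/-- **ANY LIFTS**: generation, uniqueness, divisibility and `J`-saturation for a GIVEN family of
lifts of a `k`-basis of `X ⧸ (N + 𝔪 X)`. -/
theorem lifts_any (N : Submodule A X) (hN : N.FG)
    (hsat : ∀ x ∈ N, x ∈ maximalIdeal A • (⊤ : Submodule A X) → x ∈ maximalIdeal A • N)
    {ι : Type*} [Fintype ι] (a : ι → X)
    (hspan : ∀ x : X, ∃ y ∈ N, ∃ s : ι → A,
      x - (y + ∑ i, s i • a i) ∈ maximalIdeal A • (⊤ : Submodule A X))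
    (hindep : ∀ y ∈ N, ∀ s : ι → A,
      y + ∑ i, s i • a i ∈ maximalIdeal A • (⊤ : Submodule A X) → ∀ i, s i ∈ maximalIdeal A) :
    (∀ x : X, ∃ y ∈ N, ∃ s : ι → A, x = y + ∑ i, s i • a i) ∧
    (∀ y ∈ N, ∀ s : ι → A, y + ∑ i, s i • a i = 0 → s = 0) ∧
    (∀ (c : A) (y : X) (s : ι → A), y ∈ N →
      (∃ x : X, y + ∑ i, s i • a i = c • x) → ∀ i, c ∣ s i) ∧
    (∀ (J : Ideal A) (y : X) (s : ι → A), y ∈ N →
      y + ∑ i, s i • a i ∈ J • (⊤ : Submodule A X) → ∀ i, s i ∈ J) :=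
  of_basis N a (basisOfLifts N hN hsat a hspan hindep)
    (basisOfLifts_apply N hN hsat a hspan hindep)

/-- **ANY LIFTS, sup-form** (`N = U ⊔ V`, saturation from (F2) in the lattice form of
`FreeQuot.exists_lifts_sup`). -/
theorem lifts_any_sup (U V : Submodule A X) (hU : U.FG) (hV : V.FG)
    (h : ∀ u ∈ U, ∀ v ∈ V, u + v ∈ maximalIdeal A • (⊤ : Submodule A X) →
      ∃ w ∈ U ⊓ V, u - w ∈ maximalIdeal A • U ∧ v + w ∈ maximalIdeal A • V)
    {ι : Type*} [Fintype ι] (a : ι → X)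
    (hspan : ∀ x : X, ∃ u ∈ U, ∃ v ∈ V, ∃ s : ι → A,
      x - (u + v + ∑ i, s i • a i) ∈ maximalIdeal A • (⊤ : Submodule A X))
    (hindep : ∀ u ∈ U, ∀ v ∈ V, ∀ s : ι → A,
      u + v + ∑ i, s i • a i ∈ maximalIdeal A • (⊤ : Submodule A X) →
        ∀ i, s i ∈ maximalIdeal A) :
    (∀ x : X, ∃ u ∈ U, ∃ v ∈ V, ∃ s : ι → A, x = u + v + ∑ i, s i • a i) ∧
    (∀ u ∈ U, ∀ v ∈ V, ∀ s : ι → A, u + v + ∑ i, s i • a i = 0 → s = 0) ∧
    (∀ (c : A), ∀ u ∈ U, ∀ v ∈ V, ∀ s : ι → A,
      (∃ x : X, u + v + ∑ i, s i • a i = c • x) → ∀ i, c ∣ s i) ∧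
    (∀ (J : Ideal A), ∀ u ∈ U, ∀ v ∈ V, ∀ s : ι → A,
      u + v + ∑ i, s i • a i ∈ J • (⊤ : Submodule A X) → ∀ i, s i ∈ J) := by
  have hspan' : ∀ x : X, ∃ y ∈ U ⊔ V, ∃ s : ι → A,
      x - (y + ∑ i, s i • a i) ∈ maximalIdeal A • (⊤ : Submodule A X) := by
    intro x
    obtain ⟨u, hu, v, hv, s, hs⟩ := hspan x
    exact ⟨u + v, Submodule.add_mem_sup hu hv, s, hs⟩
  have hindep' : ∀ y ∈ U ⊔ V, ∀ s : ι → A,
      y + ∑ i, s i • a i ∈ maximalIdeal A • (⊤ : Submodule A X) →
        ∀ i, s i ∈ maximalIdeal A := by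
    intro y hy s hm
    obtain ⟨u, hu, v, hv, rfl⟩ := Submodule.mem_sup.mp hy
    exact hindep u hu v hv s hm
  obtain ⟨h1, h2, h3, h4⟩ := lifts_any (U ⊔ V) (hU.sup hV) (FreeQuot.sat_sup U V h) a
    hspan' hindep'
  refine ⟨?_, ?_, ?_, ?_⟩
  · intro x
    obtain ⟨y, hy, s, rfl⟩ := h1 x
    obtain ⟨u, hu, v, hv, rfl⟩ := Submodule.mem_sup.mp hy
    exact ⟨u, hu, v, hv, s, rfl⟩
  · intro u hu v hv s h0
    exact h2 (u + v) (Submodule.add_mem_sup hu hv) s h0
  · intro c u hu v hv s hx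
    exact h3 c (u + v) s (Submodule.add_mem_sup hu hv) hx
  · intro J u hu v hv s hx
    exact h4 J (u + v) s (Submodule.add_mem_sup hu hv) hx

end any

end Fermat.Agent.S33x.H1.FreeQuotAnyB
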