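import Mathlib

/-!
# P-S33, pool H1, leaf (H1-b), independent second (helper34): the abstract (F1)-core

Mathlib only.  `A` a local ring (in the application: a valuation domain), `X` a finite free
`A`-module, `U V ≤ X` finitely generated submodules satisfying the saturation property

  `(sat)` : `u ∈ U`, `v ∈ V`, `u + v ∈ 𝔪 X`  ⟹  `∃ w ∈ U ⊓ V`, `u - w ∈ 𝔪 U` and `v + w ∈ 𝔪 V`.

Then `X ⧸ (U ⊔ V)` is free of finite rank (`free_quotient_sup`), and there are lifts
`a : Fin g → X` of a basis with (`exists_lifts`):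

* `(gen)`  : every `x : X` is `u + v + ∑ s i • a i`;
* `(uniq)` : `u + v + ∑ s i • a i = 0 → s = 0`;
* `(satJ)` : for every ideal `J`, `u + v + ∑ s i • a i ∈ J X → ∀ i, s i ∈ J`.

No dimension count: the rank `g` is whatever it is.
-/

set_option autoImplicit false
set_option linter.style.haveILetI false

namespace Fermat.Agent.S33x.H1.FreeQuotB

open IsLocalRing TensorProduct

variable {A : Type*} [CommRing A] [IsLocalRing A]

/-- `k ⊗ N ≃ N ⧸ 𝔪 N`. -/
noncomputable def eK (N : Type*) [AddCommGroup N] [Module A N] :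
    ResidueField A ⊗[A] N ≃ₗ[A] N ⧸ (maximalIdeal A • (⊤ : Submodule A N)) :=
  quotTensorEquivQuotSMul N (maximalIdeal A)

theorem eK_one_tmul {N : Type*} [AddCommGroup N] [Module A N] (x : N) :
    eK N ((1 : ResidueField A) ⊗ₜ[A] x) = Submodule.Quotient.mk x := by
  have h := quotTensorEquivQuotSMul_mk_tmul (maximalIdeal A) (1 : A) x
  rw [one_smul] at h
  exact h

/-- `1 ⊗ x = 0` in `k ⊗ N` iff `x ∈ 𝔪 N`. -/
theorem one_tmul_eq_zero_iff {N : Type*} [AddCommGroup N] [Module A N] (x : N) :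
    (1 : ResidueField A) ⊗ₜ[A] x = 0 ↔ x ∈ maximalIdeal A • (⊤ : Submodule A N) := by
  rw [← (eK (A := A) N).map_eq_zero_iff, eK_one_tmul, Submodule.Quotient.mk_eq_zero]

variable {X : Type*} [AddCommGroup X] [Module A X]

/-- The saturation hypothesis `(sat)` on a pair of submodules. -/
def Sat (U V : Submodule A X) : Prop :=
  ∀ u ∈ U, ∀ v ∈ V, u + v ∈ maximalIdeal A • (⊤ : Submodule A X) →
    ∃ w ∈ U ⊓ V, u - w ∈ maximalIdeal A • U ∧ v + w ∈ maximalIdeal A • V

/-- `(sat)` implies that `U ⊔ V` is `𝔪`-saturated in `X`. -/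
theorem mem_smul_sup_of_sat {U V : Submodule A X} (hsat : Sat U V) {x : X} (hx : x ∈ U ⊔ V)
    (hxm : x ∈ maximalIdeal A • (⊤ : Submodule A X)) : x ∈ maximalIdeal A • (U ⊔ V) := by
  obtain ⟨u, hu, v, hv, rfl⟩ := Submodule.mem_sup.1 hx
  obtain ⟨w, -, h1, h2⟩ := hsat u hu v hv hxm
  have h3 : u + v = (u - w) + (v + w) := by abel
  rw [h3]
  exact Submodule.add_mem _ (Submodule.smul_mono le_rfl le_sup_left h1)
    (Submodule.smul_mono le_rfl le_sup_right h2)

/-- `k ⊗ (U ⊔ V) → k ⊗ X` is injective under `(sat)`. -/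
theorem lTensor_subtype_injective {U V : Submodule A X} (hsat : Sat U V) :
    Function.Injective ((U ⊔ V).subtype.lTensor (ResidueField A)) := by
  rw [injective_iff_map_eq_zero]
  intro z hz
  obtain ⟨n, rfl⟩ := TensorProduct.mk_surjective A (↥(U ⊔ V)) (ResidueField A)
    Ideal.Quotient.mk_surjective z
  change (1 : ResidueField A) ⊗ₜ[A] n = 0
  change (1 : ResidueField A) ⊗ₜ[A] ((U ⊔ V).subtype n) = 0 at hz
  rw [one_tmul_eq_zero_iff] at hz ⊢
  rw [Submodule.mem_smul_top_iff]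
  exact mem_smul_sup_of_sat hsat n.2 hz

variable [Module.Free A X] [Module.Finite A X]

/-- **(F1)-core**: under `(sat)` the quotient `X ⧸ (U ⊔ V)` is free. -/
theorem free_quotient_sup {U V : Submodule A X} (hU : U.FG) (hV : V.FG) (hsat : Sat U V) :
    Module.Free A (X ⧸ (U ⊔ V)) := by
  haveI : Module.Finite A ↥(U ⊔ V) := Module.Finite.iff_fg.2 (hU.sup hV)
  exact Module.free_of_lTensor_residueField_injective (U ⊔ V).subtype (U ⊔ V).mkQ
    (Submodule.mkQ_surjective _) (LinearMap.exact_subtype_mkQ _) (lTensor_subtype_injective hsat)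

/-- **(F1)-core, coordinates**: lifts `a i` of a basis of `X ⧸ (U ⊔ V)` with `(gen)`, `(uniq)`
and the saturation `(satJ)` for every ideal `J`. -/
theorem exists_lifts {U V : Submodule A X} (hU : U.FG) (hV : V.FG) (hsat : Sat U V) :
    ∃ (g : ℕ) (a : Fin g → X),
      (∀ x : X, ∃ u ∈ U, ∃ v ∈ V, ∃ s : Fin g → A, x = u + v + ∑ i, s i • a i) ∧
      (∀ u ∈ U, ∀ v ∈ V, ∀ s : Fin g → A, u + v + ∑ i, s i • a i = 0 → s = 0) ∧
      (∀ (J : Ideal A), ∀ u ∈ U, ∀ v ∈ V, ∀ s : Fin g → A,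
        u + v + ∑ i, s i • a i ∈ J • (⊤ : Submodule A X) → ∀ i, s i ∈ J) := by
  haveI : Module.Free A (X ⧸ (U ⊔ V)) := free_quotient_sup hU hV hsat
  haveI : Module.Finite A (X ⧸ (U ⊔ V)) := inferInstance
  let b := Module.finBasis A (X ⧸ (U ⊔ V))
  choose a ha using fun i => Submodule.mkQ_surjective (U ⊔ V) (b i)
  have hq : ∀ (u : X), u ∈ U → ∀ v : X, v ∈ V → ∀ s : Fin (Module.finrank A (X ⧸ (U ⊔ V))) → A,
      (U ⊔ V).mkQ (u + v + ∑ i, s i • a i) = ∑ i, s i • b i := by
    intro u hu v hv s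
    have huv : (U ⊔ V).mkQ (u + v) = 0 := by
      rw [Submodule.mkQ_apply, Submodule.Quotient.mk_eq_zero]
      exact Submodule.add_mem _ (Submodule.mem_sup_left hu) (Submodule.mem_sup_right hv)
    rw [map_add, huv, zero_add, map_sum]
    exact Finset.sum_congr rfl fun i _ => by rw [map_smul, ha]
  refine ⟨_, a, ?_, ?_, ?_⟩
  · intro x
    have hx : x - ∑ i, b.repr ((U ⊔ V).mkQ x) i • a i ∈ U ⊔ V := by
      rw [← Submodule.Quotient.mk_eq_zero, ← Submodule.mkQ_apply, map_sub, map_sum]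
      have h1 : ∑ i, (U ⊔ V).mkQ (b.repr ((U ⊔ V).mkQ x) i • a i) =
          ∑ i, b.repr ((U ⊔ V).mkQ x) i • b i :=
        Finset.sum_congr rfl fun i _ => by rw [map_smul, ha]
      rw [h1, b.sum_repr, sub_self]
    obtain ⟨u, hu, v, hv, huv⟩ := Submodule.mem_sup.1 hx
    exact ⟨u, hu, v, hv, fun i => b.repr ((U ⊔ V).mkQ x) i, by rw [huv]; abel⟩
  · intro u hu v hv s h0
    have h1 := hq u hu v hv s
    rw [h0, map_zero] at h1
    have h2 := Fintype.linearIndependent_iff.1 b.linearIndependent s h1.symm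
    exact funext h2
  · intro J u hu v hv s hJ i
    have h1 := hq u hu v hv s
    have h2 : (U ⊔ V).mkQ (u + v + ∑ i, s i • a i) ∈
        J • (⊤ : Submodule A (X ⧸ (U ⊔ V))) := by
      have := Submodule.mem_map_of_mem (f := (U ⊔ V).mkQ) hJ
      rwa [Submodule.map_smul'', Submodule.map_top, Submodule.range_mkQ] at this
    rw [h1] at h2
    rw [← b.span_eq] at h2
    obtain ⟨c, hcJ, hc⟩ := (Submodule.mem_ideal_smul_span_iff_exists_sum J b _).1 h2
    have h4 : b.repr (∑ i, s i • b i) = c := by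
      rw [← hc]
      exact b.repr_linearCombination c
    have h5 : b.repr (∑ i, s i • b i) i = s i := congrFun (b.repr_sum_self s) i
    rw [← h5, h4]
    exact hcJ i

end Fermat.Agent.S33x.H1.FreeQuotB
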