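import Fermat.Agent.S33x.H1.InstBBasic
import Fermat.Agent.S33x.H1.IdemConn
import Fermat.Agent.S34x.Inst.CountsInst

/-!
# P-S33 (H1-c), second (helper26): (c4) and (F2)

`R : RedSetup2 A S k (κ₁ × κ₂)`, `C : ChartCoord R`, `Lam`, `Boo`, `Bzero`, `Bx` of `InstC1`.

* (c4) `redLat_inf_le_Pk` : `red Lam(a,0) ∩ red Lam(0,b) ≤ Pk 0 0`;
  `exists_const_of_mem_Pk_zero` : `Pk 0 0 = k × k` for `κ = E × E`, `T̄ = (x, x ^ q)`;
* (F2) `exists_algebraMap_of_mem_redLat_inf` : `red Lam(a,0) ∩ red Lam(0,b) = k · (1,1)`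
  (connectedness of the special fibre in Cech form: `IdemConn.exists_const_of_idem` applied to the
  idempotent `(1,0)`), under the hypothesis `hconst : Pk 0 0 ⊆ k × k`;
* `exists_const_of_res_add_eq_zero` : the saturation input of (F1): `u ∈ Lam(a,0)`,
  `v ∈ Lam(0,b)`, `res (u + v) = 0` imply `res (u - c) = 0 = res (v + c)` for a constant `c ∈ A`.
-/

set_option autoImplicit false
set_option linter.unusedSectionVars false
set_option linter.style.haveILetI false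

noncomputable section

namespace Fermat.Agent.S33x.H1.InstBF2

open AlgebraicCurve Module IntermediateField IsLocalRing
open Fermat.Agent.Gateway.C0 Fermat.Agent.S34x Fermat.Agent.S34x.C0two Fermat.Agent.S34x.Lattice2
open Fermat.Agent.S33x.H1.InstC1 Fermat.Agent.S33x.H1.InstBBasic Fermat.Agent.S33x.H1.IdemConn

section c4

variable {K : Type*} [Field K] {A : ValuationSubring K} {F : Type*} [Field F] [Algebra K F]
  {S : SmallRing F} {k κ : Type*} [Field k] [CommRing κ] [Algebra k κ]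
  {R : RedSetup2 A S k κ} (C : ChartCoord R)

/-- (c4) `red Lam(a,0) ∩ red Lam(0,b) ≤ Pk 0 0`. -/
theorem redLat_inf_le_Pk (a b : ℕ) : R.redLat (C.LN a 0) ⊓ R.redLat (C.LN 0 b) ≤ C.Pk 0 0 := by
  rintro y ⟨h1, h2⟩
  have h3 := twoPole_inf _ _ (C.redLat_LN_le a 0 h1) (C.redLat_LN_le 0 b h2)
  rw [Nat.min_zero, Nat.zero_min] at h3
  exact h3

theorem one_mem_redLat (a b : ℕ) : (1 : κ) ∈ R.redLat (C.LN a b) :=
  ⟨1, S.O.one_mem, C.LN_mono (Nat.zero_le a) (Nat.zero_le b) C.one_mem_LN, map_one R.res⟩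

end c4

section c4prod

variable {K : Type*} [Field K] [IsAlgClosed K] {A : ValuationSubring K} {F : Type*} [Field F]
  [Algebra K F] {S : SmallRing F} {k : Type*} [Field k] [IsAlgClosed k]
  {E : Type*} [Field E] [Algebra k E] {x : E} (hx : Transcendental k x)
  [FiniteDimensional k⟮x⟯ E] [Algebra.IsSeparable k⟮x⟯ E] {q : ℕ} (hq : 0 < q)
  {R : RedSetup2 A S k (E × E)} (C : ChartCoord R) (hT : C.T = (x, x ^ q))

include hx hq hT in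
/-- (c4) **`Pk 0 0 = k × k`** for the two-component special fibre `E × E`, `T̄ = (x, x ^ q)`. -/
theorem exists_const_of_mem_Pk_zero {y : E × E} (hy : y ∈ C.Pk 0 0) :
    ∃ c₁ c₂ : k, y = (algebraMap k E c₁, algebraMap k E c₂) := by
  unfold ChartCoord.Pk at hy
  rw [Inst.CountsInst.Ti_eq hx C hT, hT] at hy
  exact InstBConst.exists_const_of_mem_twoPole_zero hx hq hy

end c4prod

section F2

variable {K : Type*} [Field K] [IsAlgClosed K] [CharZero K] {A : ValuationSubring K}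
  {F : Type*} [Field F] [Algebra K F] {S : SmallRing F}
  {k κ₁ κ₂ : Type*} [Field k] [CommRing κ₁] [CommRing κ₂] [Algebra k κ₁] [Algebra k κ₂]
  [Nontrivial κ₁] [Nontrivial κ₂]
  {R : RedSetup2 A S k (κ₁ × κ₂)} (C : ChartCoord R)
  (ht : Transcendental K C.t) [FiniteDimensional K⟮C.t⟯ F]
  {Dt : Divisor K F} (hDt : ∀ v : Place K F, Dt v = v.ord C.t)
  (hcart : ∀ V : Submodule K F, FiniteDimensional K V → (R.lat V).FG)
  [hPfin : ∀ b, FiniteDimensional k (C.Pk 0 b)] {b₀ : ℕ}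
  (hgen : ∀ b, b₀ ≤ b → ∀ x ∈ C.Pk 0 (b + 1), ∃ y ∈ C.Pk 0 b, ∃ z ∈ C.Pk 0 b, x = y + C.T * z)
  (hconst : ∀ y ∈ C.Pk 0 0, ∃ c₁ c₂ : k, y = (algebraMap k κ₁ c₁, algebraMap k κ₂ c₂))

/-- `1 ∉ 𝔪 B∞`. -/
theorem not_dvd_one (μ : A) (hμ : μ ∈ maximalIdeal A) : ¬ Dvd (BooAlg C) μ (1 : F) := by
  rintro ⟨y, hy, h1⟩
  have hyO : y ∈ S.O := BxAlg_le_O C (BooAlg_le_BxAlg C hy)
  have h2 := res_smul_eq_zero (R := R) hμ hyO
  have h3 : (⟨μ • y, R.smul_mem_O μ hyO⟩ : S.O) = 1 := Subtype.ext h1.symm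
  rw [h3, map_one] at h2
  exact one_ne_zero h2

/-- `Dvd` from a vanishing reduction ((c2)). -/
theorem dvd_of_res_eq_zero {a b : ℕ} {z : F} (hz : z ∈ Lam C a b) (h0 : R.res ⟨z, hz.2⟩ = 0) :
    ∃ ϖ ∈ maximalIdeal A, ∃ y ∈ Lam C a b, z = ϖ • y :=
  exists_smul_of_res_eq_zero C hz h0

include ht hDt hcart hgen in
/-- **Connectedness of the special fibre, Cech form**: the idempotent `(1,0)` of `κ₁ × κ₂` is not
in `red Lam(a,0) ∩ red Lam(0,b)`. -/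
theorem not_idem_mem_redLat_inf (a b : ℕ) (h1 : ((1 : κ₁), (0 : κ₂)) ∈ R.redLat (C.LN a 0))
    (h2 : ((1 : κ₁), (0 : κ₂)) ∈ R.redLat (C.LN 0 b)) : False := by
  obtain ⟨f', hf'O, hf'L, hf'⟩ := h1
  obtain ⟨f, hfO, hfL, hf⟩ := h2
  have hfLam : f ∈ Lam C 0 b := ⟨hfL, hfO⟩
  have hf'Lam : f' ∈ Lam C a 0 := ⟨hf'L, hf'O⟩
  -- the three small elements
  have e1 : f - f' ∈ Lam C a b :=
    (Lam C a b).sub_mem (Lam_mono C (Nat.zero_le a) le_rfl hfLam)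
      (Lam_mono C le_rfl (Nat.zero_le b) hf'Lam)
  have e2 : f ^ 2 - f ∈ Lam C 0 (b + b) := by
    refine (Lam C 0 (b + b)).sub_mem ?_ (Lam_mono C le_rfl (Nat.le_add_left b b) hfLam)
    have := Lam_mul C hfLam hfLam
    rwa [zero_add, ← pow_two] at this
  have e3 : f' ^ 2 - f' ∈ Lam C (a + a) 0 := by
    refine (Lam C (a + a) 0).sub_mem ?_ (Lam_mono C (Nat.le_add_left a a) le_rfl hf'Lam)
    have := Lam_mul C hf'Lam hf'Lam
    rwa [zero_add, ← pow_two] at this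
  have r1 : R.res ⟨f - f', e1.2⟩ = 0 := by
    have : (⟨f - f', e1.2⟩ : S.O) = ⟨f, hfO⟩ - ⟨f', hf'O⟩ := rfl
    rw [this, map_sub, hf, hf', sub_self]
  have r2 : R.res ⟨f ^ 2 - f, e2.2⟩ = 0 := by
    have : (⟨f ^ 2 - f, e2.2⟩ : S.O) = ⟨f, hfO⟩ ^ 2 - ⟨f, hfO⟩ := rfl
    rw [this, map_sub, map_pow, hf]
    ext <;> simp
  have r3 : R.res ⟨f' ^ 2 - f', e3.2⟩ = 0 := by
    have : (⟨f' ^ 2 - f', e3.2⟩ : S.O) = ⟨f', hf'O⟩ ^ 2 - ⟨f', hf'O⟩ := rfl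
    rw [this, map_sub, map_pow, hf']
    ext <;> simp
  obtain ⟨ϖ₁, hϖ₁, y₁, hy₁, hz₁⟩ := exists_smul_of_res_eq_zero C e1 r1
  obtain ⟨ϖ₂, hϖ₂, y₂, hy₂, hz₂⟩ := exists_smul_of_res_eq_zero C e2 r2
  obtain ⟨ϖ₃, hϖ₃, y₃, hy₃, hz₃⟩ := exists_smul_of_res_eq_zero C e3 r3
  have d1 : Dvd (BxAlg C) ϖ₁ (f - f') := ⟨y₁, ⟨a, b, hy₁⟩, hz₁⟩
  have d2 : Dvd (BooAlg C) ϖ₂ (f ^ 2 - f) := ⟨y₂, ⟨b + b, hy₂⟩, hz₂⟩
  have d3 : Dvd (BzeroAlg C) ϖ₃ (f' ^ 2 - f') := ⟨y₃, ⟨a + a, hy₃⟩, hz₃⟩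
  -- a common divisor `μ ∈ 𝔪`
  obtain ⟨μ, hμ, m1, m2, m3⟩ : ∃ μ ∈ maximalIdeal A, μ ∣ ϖ₁ ∧ μ ∣ ϖ₂ ∧ μ ∣ ϖ₃ := by
    obtain ⟨ν, hν, n1, n2⟩ : ∃ ν ∈ maximalIdeal A, ν ∣ ϖ₁ ∧ ν ∣ ϖ₂ := by
      rcases ValuationRing.dvd_total ϖ₁ ϖ₂ with h | h
      · exact ⟨ϖ₁, hϖ₁, dvd_rfl, h⟩
      · exact ⟨ϖ₂, hϖ₂, h, dvd_rfl⟩
    rcases ValuationRing.dvd_total ν ϖ₃ with h | h
    · exact ⟨ν, hν, n1, n2, h⟩
    · exact ⟨ϖ₃, hϖ₃, h.trans n1, h.trans n2, dvd_rfl⟩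
  -- the bounded torsion of `H¹`
  have htors : ∃ c₀ : A, c₀ ≠ 0 ∧ ∀ γ ∈ BxAlg C,
      (∃ d : A, d ≠ 0 ∧ d • γ ∈ Subalgebra.toSubmodule (BooAlg C) ⊔
        Subalgebra.toSubmodule (BzeroAlg C)) →
        c₀ • γ ∈ Subalgebra.toSubmodule (BooAlg C) ⊔ Subalgebra.toSubmodule (BzeroAlg C) := by
    obtain ⟨c₀, hc₀, h⟩ := InstC1.exists_ne_zero_smul_mem C ht hDt hcart hgen
    refine ⟨c₀, hc₀, fun γ hγ hd => ?_⟩
    rw [BooAlg_toSubmodule, BzeroAlg_toSubmodule] at hd ⊢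
    exact h γ (by rw [← BxAlg_toSubmodule]; exact hγ) hd
  obtain ⟨a₀, ν, hν, y, hy, hfa⟩ := exists_const_of_idem (BooAlg C) (BzeroAlg C) (BxAlg C)
    (BooAlg_le_BxAlg C) (BzeroAlg_le_BxAlg C) R.rank_one R.exists_ne_zero htors
    (fun z hz hz' => exists_algebraMap_of_mem_Boo_of_mem_Bzero C ht hz hz')
    (not_dvd_one C) hμ (⟨b, hfLam⟩ : f ∈ BooAlg C) (⟨a, hf'Lam⟩ : f' ∈ BzeroAlg C)
    (d1.of_dvd m1) (d2.of_dvd m2) (d3.of_dvd m3)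
  -- reduce `f = a₀ + ν y`
  have hyO : y ∈ S.O := BxAlg_le_O C (BooAlg_le_BxAlg C hy)
  have hfe : f = algebraMap K F a₀ + ν • y := by
    have : f - algebraMap A F a₀ = ν • y := hfa
    rw [R.algebraMap_A] at this
    linear_combination this
  have r4 : R.res ⟨f, hfO⟩ = algebraMap k (κ₁ × κ₂) (R.π a₀) := by
    have : (⟨f, hfO⟩ : S.O) = ⟨algebraMap K F a₀, R.algebraMap_mem a₀⟩ +
        ⟨ν • y, R.smul_mem_O ν hyO⟩ := Subtype.ext hfe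
    rw [this, map_add, res_smul_eq_zero (R := R) hν hyO, add_zero, R.res_algebraMap]
  rw [hf] at r4
  have r5 : (1 : κ₁) = algebraMap k κ₁ (R.π a₀) := congrArg Prod.fst r4
  have r6 : (0 : κ₂) = algebraMap k κ₂ (R.π a₀) := congrArg Prod.snd r4
  have r7 : R.π a₀ = 0 := by
    have := (algebraMap k κ₂).injective
    exact this (by rw [← r6, map_zero])
  rw [r7, map_zero] at r5
  exact one_ne_zero r5

include ht hDt hcart hgen hconst in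
/-- (F2) **`red Lam(a,0) ∩ red Lam(0,b) = k · (1,1)`.** -/
theorem exists_algebraMap_of_mem_redLat_inf (a b : ℕ) {e : κ₁ × κ₂}
    (h1 : e ∈ R.redLat (C.LN a 0)) (h2 : e ∈ R.redLat (C.LN 0 b)) :
    ∃ c : k, e = algebraMap k (κ₁ × κ₂) c := by
  obtain ⟨c₁, c₂, rfl⟩ := hconst e (redLat_inf_le_Pk C a b ⟨h1, h2⟩)
  by_cases hc : c₁ = c₂
  · subst hc
    exact ⟨c₁, rfl⟩
  exfalso
  have hne : c₁ - c₂ ≠ 0 := sub_ne_zero.mpr hc
  have key : ∀ V : Submodule k (κ₁ × κ₂), (1 : κ₁ × κ₂) ∈ V →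
      (algebraMap k κ₁ c₁, algebraMap k κ₂ c₂) ∈ V → ((1 : κ₁), (0 : κ₂)) ∈ V := by
    intro V hV1 hVe
    have h3 : (c₁ - c₂)⁻¹ • ((algebraMap k κ₁ c₁, algebraMap k κ₂ c₂) - c₂ • (1 : κ₁ × κ₂)) ∈ V :=
      V.smul_mem _ (V.sub_mem hVe (V.smul_mem _ hV1))
    have h4 : (c₁ - c₂)⁻¹ • ((algebraMap k κ₁ c₁, algebraMap k κ₂ c₂) - c₂ • (1 : κ₁ × κ₂)) =
        ((1 : κ₁), (0 : κ₂)) := by
      ext
      · simp only [Prod.smul_fst, Prod.fst_sub, Prod.fst_one]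
        rw [Algebra.smul_def c₂, mul_one, ← map_sub, Algebra.smul_def, ← map_mul,
          inv_mul_cancel₀ hne, map_one]
      · simp only [Prod.smul_snd, Prod.snd_sub, Prod.snd_one]
        rw [Algebra.smul_def c₂, mul_one, sub_self, smul_zero]
    rwa [h4] at h3
  exact not_idem_mem_redLat_inf C ht hDt hcart hgen a b
    (key _ (one_mem_redLat C a 0) h1) (key _ (one_mem_redLat C 0 b) h2)

include ht hDt hcart hgen hconst in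
/-- **The saturation input of (F1)**: if `u ∈ Lam(a,0)`, `v ∈ Lam(0,b)` and `u + v` reduces to `0`,
there is a constant `c ∈ A` such that `u - c` and `v + c` reduce to `0`. -/
theorem exists_const_of_res_add_eq_zero {a b : ℕ} {u v : F} (hu : u ∈ Lam C a 0)
    (hv : v ∈ Lam C 0 b) (h0 : R.res ⟨u + v, S.O.add_mem hu.2 hv.2⟩ = 0) :
    ∃ c : A, R.res ⟨u - algebraMap A F c, S.O.sub_mem hu.2 (R.algebraMap_mem c)⟩ = 0 ∧
      R.res ⟨v + algebraMap A F c, S.O.add_mem hv.2 (R.algebraMap_mem c)⟩ = 0 := by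
  have h1 : R.res ⟨u, hu.2⟩ + R.res ⟨v, hv.2⟩ = 0 := by
    rw [← map_add]
    exact h0
  have hu' : R.res ⟨u, hu.2⟩ ∈ R.redLat (C.LN a 0) := ⟨u, hu.2, hu.1, rfl⟩
  have hv' : R.res ⟨u, hu.2⟩ ∈ R.redLat (C.LN 0 b) := by
    have : R.res ⟨u, hu.2⟩ = -R.res ⟨v, hv.2⟩ := eq_neg_of_add_eq_zero_left h1
    rw [this]
    exact (R.redLat (C.LN 0 b)).neg_mem ⟨v, hv.2, hv.1, rfl⟩
  obtain ⟨cb, hcb⟩ := exists_algebraMap_of_mem_redLat_inf C ht hDt hcart hgen hconst a b hu' hv'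
  obtain ⟨c, rfl⟩ := R.π_surj cb
  refine ⟨c, ?_, ?_⟩
  · have : (⟨u - algebraMap A F c, S.O.sub_mem hu.2 (R.algebraMap_mem c)⟩ : S.O) =
        ⟨u, hu.2⟩ - ⟨algebraMap K F c, R.algebraMap_mem c⟩ := rfl
    rw [this, map_sub, R.res_algebraMap, hcb, sub_self]
  · have : (⟨v + algebraMap A F c, S.O.add_mem hv.2 (R.algebraMap_mem c)⟩ : S.O) =
        ⟨v, hv.2⟩ + ⟨algebraMap K F c, R.algebraMap_mem c⟩ := rfl
    rw [this, map_add, R.res_algebraMap, ← hcb]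
    rw [add_comm]
    exact h1

end F2

end Fermat.Agent.S33x.H1.InstBF2
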