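import Fermat.Agent.S33x.H1.InstC1

/-!
# P-S33 (H1-c), parts (c2), (c3): kernel of the reduction and constants (helper50)

Vocabulary of `S33x/H1/InstC1`: `Lam C a b = L(a C₀ + b C∞) ∩ S.O`.

* (c2) `exists_smul_of_res_eq_zero`: an element of `Lam(a,b)` with zero reduction is `ϖ • y` with
  `ϖ ∈ 𝔪_A`, `y ∈ Lam(a,b)` (the lattices are saturated and `S` is unramified over `A`);
  `exists_smul_of_res_eq`: the same for two elements with equal reductions;
* `mem_A_of_algebraMap_mem_O`: `S.O ∩ K = A`;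
* (c3) `exists_eq_algebraMap_of_mem_Lam_zero`: `Lam(0,0) = A · 1`, and
  `exists_eq_algebraMap_of_mem_inf`: `Lam(0,b) ∩ Lam(a,0) = A · 1`;
* `not_one_eq_smul`: `1 ∉ 𝔪_A S.O`.
-/

set_option autoImplicit false
set_option linter.unusedSectionVars false
set_option linter.style.haveILetI false

noncomputable section

namespace Fermat.Agent.S33x.H1.InstC2

open AlgebraicCurve Module IntermediateField IsLocalRing
open Fermat.Agent.Gateway.C0 Fermat.Agent.S34x Fermat.Agent.S34x.C0two Fermat.Agent.S34x.Lattice2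
open Fermat.Agent.S33x.H1.InstC1 Fermat.Agent.Lib.RiemannRoch

section general

variable {K : Type*} [Field K] {A : ValuationSubring K} {F : Type*} [Field F] [Algebra K F]
  {S : SmallRing F} {k κ : Type*} [Field k] [CommRing κ] [Algebra k κ]
  {R : RedSetup2 A S k κ} (C : ChartCoord R)

/-- **(c2)** an element of `Lam(a,b)` with zero reduction lies in `𝔪_A Lam(a,b)`. -/
theorem exists_smul_of_res_eq_zero {a b : ℕ} {x : F} (hx : x ∈ Lam C a b)
    (h0 : R.res ⟨x, hx.2⟩ = 0) :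
    ∃ ϖ ∈ maximalIdeal A, ∃ y ∈ Lam C a b, x = ϖ • y := by
  have hsmall : Small S x := (R.small_iff hx.2).mpr h0
  obtain ⟨ϖ, hϖ, y, hy, hxy⟩ := R.base.unram _ hsmall
  by_cases hϖ0 : ϖ = 0
  · refine ⟨0, (maximalIdeal A).zero_mem, 0, Submodule.zero_mem _, ?_⟩
    rw [hxy, hϖ0, zero_smul, smul_zero]
  · refine ⟨ϖ, hϖ, y, ⟨?_, hy⟩, hxy⟩
    have h1 : y = ((ϖ : K))⁻¹ • x := by
      rw [hxy]
      have h3 : ϖ • y = (ϖ : K) • y := rfl
      rw [h3, smul_smul, inv_mul_cancel₀ (by exact_mod_cast hϖ0), one_smul]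
    rw [h1]
    exact (C.LN a b).smul_mem _ hx.1

/-- two elements of `Lam(a,b)` with the same reduction differ by an element of `𝔪_A Lam(a,b)`. -/
theorem exists_smul_of_res_eq {a b : ℕ} {x x' : F} (hx : x ∈ Lam C a b) (hx' : x' ∈ Lam C a b)
    (h : R.res ⟨x, hx.2⟩ = R.res ⟨x', hx'.2⟩) :
    ∃ ϖ ∈ maximalIdeal A, ∃ y ∈ Lam C a b, x - x' = ϖ • y := by
  have hd : x - x' ∈ Lam C a b := Submodule.sub_mem _ hx hx'
  refine exists_smul_of_res_eq_zero C hd ?_
  have e : (⟨x - x', hd.2⟩ : S.O) = ⟨x, hx.2⟩ - ⟨x', hx'.2⟩ := rfl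
  rw [e, map_sub, h, sub_self]

variable [Nontrivial κ]

include R in
/-- `S.O ∩ K = A`. -/
theorem mem_A_of_algebraMap_mem_O {c : K} (hc : algebraMap K F c ∈ S.O) : c ∈ A := by
  by_contra hcA
  have hci : c⁻¹ ∈ A := (A.mem_or_inv_mem c).resolve_left hcA
  have hc0 : c ≠ 0 := by
    rintro rfl
    exact hcA A.zero_mem
  have hcm : (⟨c⁻¹, hci⟩ : A) ∈ maximalIdeal A := by
    rw [mem_maximalIdeal, mem_nonunits_iff]
    intro hu
    obtain ⟨d, hd⟩ := hu.exists_right_inv
    have hd' : c⁻¹ * (d : K) = 1 := by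
      have := congrArg (Subtype.val) hd
      simpa using this
    have hdc : (d : K) = c := by
      field_simp at hd'
      exact hd'
    exact hcA (hdc ▸ d.2)
  have hsm : Small S (algebraMap K F c⁻¹) := R.base.algebraMap_small ⟨c⁻¹, hci⟩ hcm
  have h1 : Small S (algebraMap K F c⁻¹ * algebraMap K F c) := hsm.mul_right hc
  rw [← map_mul, inv_mul_cancel₀ hc0, map_one] at h1
  have h2 := (R.small_iff S.O.one_mem).mp h1
  have e : (⟨1, S.O.one_mem⟩ : S.O) = 1 := rfl
  rw [e, map_one] at h2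
  exact one_ne_zero h2

include R in
/-- `1 ∉ 𝔪_A S.O`. -/
theorem not_one_eq_smul {ϖ : A} (hϖ : ϖ ∈ maximalIdeal A) {y : F} (hy : y ∈ S.O) :
    (1 : F) ≠ ϖ • y := by
  intro h
  have hsm : Small S (ϖ • y) := R.base.small_smul hϖ hy
  rw [← h] at hsm
  have h2 := (R.small_iff S.O.one_mem).mp hsm
  have e : (⟨1, S.O.one_mem⟩ : S.O) = 1 := rfl
  rw [e, map_one] at h2
  exact one_ne_zero h2

end general

section const

variable {K : Type*} [Field K] [IsAlgClosed K] [CharZero K] {A : ValuationSubring K}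
  {F : Type*} [Field F] [Algebra K F] {S : SmallRing F}
  {k κ : Type*} [Field k] [CommRing κ] [Algebra k κ] [Nontrivial κ]
  {R : RedSetup2 A S k κ} (C : ChartCoord R)
  (ht : Transcendental K C.t) [FiniteDimensional K⟮C.t⟯ F]
  {Dt : Divisor K F} (hDt : ∀ v : Place K F, Dt v = v.ord C.t)

include ht hDt in
/-- `L(0) = K`: a function without poles is constant. -/
theorem exists_eq_algebraMap_of_mem_LN_zero {x : F} (hx : x ∈ C.LN 0 0) :
    ∃ c : K, x = algebraMap K F c := by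
  haveI := isSeparable_adjoin_of_charZero (K := K) C.t
  haveI := hasPrincipalDivisors_cz ht
  haveI : ∀ v : Place K F, v.FiniteResidue := finiteResidue_cz ht
  haveI := nonempty_place_cz ht
  rw [← LN_eq C ht hDt] at hx
  have hx0 : x ∈ riemannRochSpace (0 : Divisor K F) := by
    have e : (TwoCharts.ofDivisor Dt).dv 0 0 = 0 := by
      simp [TwoCharts.dv]
    rw [TwoCharts.LN, e] at hx
    exact hx
  have hint : IsIntegral K x :=
    (isAlgebraic_of_mem_zero hx0).isIntegral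
  have hdeg1 : (minpoly K x).degree = 1 :=
    IsAlgClosed.degree_eq_one_of_irreducible K (minpoly.irreducible hint)
  obtain ⟨c, hc⟩ := minpoly.mem_range_of_degree_eq_one K x hdeg1
  exact ⟨c, hc.symm⟩

include ht hDt in
/-- **(c3)** `Lam(0,0) = A · 1`. -/
theorem exists_eq_algebraMap_of_mem_Lam_zero {x : F} (hx : x ∈ Lam C 0 0) :
    ∃ a : A, x = algebraMap A F a := by
  obtain ⟨c, rfl⟩ := exists_eq_algebraMap_of_mem_LN_zero C ht hDt hx.1
  exact ⟨⟨c, mem_A_of_algebraMap_mem_O (R := R) hx.2⟩, rfl⟩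

include ht hDt in
/-- **(c3)** `Lam(0,b) ∩ Lam(a,0) = A · 1`. -/
theorem exists_eq_algebraMap_of_mem_inf {a b : ℕ} {x : F} (hx : x ∈ Lam C 0 b)
    (hx' : x ∈ Lam C a 0) : ∃ c : A, x = algebraMap A F c := by
  have h := Lam_inf C hx hx'
  rw [Nat.zero_min, Nat.min_zero] at h
  exact exists_eq_algebraMap_of_mem_Lam_zero C ht hDt h

end const

end Fermat.Agent.S33x.H1.InstC2
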