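/-
P-S33 (H1/W), leaf (MQ-W), primary (helper63): BOTH Cech direct sums at the CONCRETE level `M q`.

`Qbar = AlgebraicClosure Q`, `P` a valuation subring of `Qbar` over the prime `q`, `q` not dividing
`M`, `R = redSetup2 H hA` the concrete `RedSetup2` at level `M q` (`S34x/Inst/RedSetupInst`), `C` a
chart of `R` with coordinate `t = alpha t'` (`C.t = tA M q x hx`), and

  `Gam P (M q) = {g | exists tau in I(P | Q), g = arithmeticGalois (modularFunctionFieldFull (M q)) tau}`

the inertia group of `P` acting coefficientwise (the literal set of `Cech/CtxMq.ctxGal_inertia` and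
of `H1/FixData2Final.fixData2_setOf`).

* `exists_directSum_fixed_prod` : `InstFixed.exists_directSum_fixed` at `kappa = E x E`,
  `T = (x, x ^ q)` with `hPfin`, `hgen`, `hP00` discharged (mirror of
  `InstBridge.exists_directSum_prod`);
* `smul_t_Gam`, `stable_LN_Gam` : the inertia group fixes `t` and stabilises `L(a C_0 + b C_oo)`;
* `finiteDimensional_LN_Mq`, `fg_lat_LN_Mq` : finiteness of the two-pole spaces and of their lattices;
* `exists_directSum_fixed_Mq` : **leaf (MQ-W)**: `b1`, `g`, `a : Fin g -> FL Qbar (M q)` with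
  `a i` in `Lam C b1 b1`, `a i` inertia-fixed, the `P`-level direct sum for the chart rings of
  `H1/InstC4` AND the `W`-level direct sum (`W = P^Gam`) for their fixed subalgebras
  (`W/InstW.fixedAlg`), with the SAME `a i`.  Only the good level facts `Hx` are left;
* `exists_directSum_groupLaw_Mq` : the same together with the universal group law over
  `inertiaInt P` in the literal shape of `hGL` of `Cech/CoordBQbar.hasApproxCharts`
  (`W/InstW.exists_groupLaw_inertiaInt`);
* `exists_directSum_fixed_chart`, `exists_directSum_groupLaw_chart` : for `TheoremBMq.chart`.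
-/
import Fermat.Agent.S33x.H1.InstBridge
import Fermat.Agent.S33x.H1.InstFixed
import Fermat.Agent.S33x.H1.FixData2Final
import Fermat.Agent.S33x.H1.StableLN
import Fermat.Agent.S33x.Cech.CtxMq
import Fermat.Agent.S33x.W.InstW

set_option autoImplicit false
set_option linter.style.haveILetI false
set_option linter.unusedSectionVars false

noncomputable section

namespace Fermat.Agent.S33x.H1.InstMqFixed

open ModularCurve AlgebraicCurve IntermediateField IsLocalRing Module
open Fermat.Agent.Gateway.Hecke Fermat.Agent.Gateway.ESC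
open Fermat.Agent.Gateway.Red Fermat.Agent.Gateway.GoodRed
open Fermat.Agent.Gateway.GoodRed.ConjFamily
open Fermat.Agent.Gateway.C0
open Fermat.Agent.S34x.TwoVal Fermat.Agent.S34x.C0two Fermat.Agent.S34x.Lattice2
open Fermat.Agent.S34x.Inst.L2 Fermat.Agent.S34x.Inst.IsL2Inst
open Fermat.Agent.S34x.Inst.RedSetupInst Fermat.Agent.S34x.Inst.ElementYRed
open Fermat.Agent.S34x.Inst.ElementYInt Fermat.Agent.S34x.Inst.Charts
open Fermat.Agent.S34x.Inst Fermat.Agent.S34x.Inst.TheoremBMq
open Fermat.Agent.S33x.H1.InstC1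
open Fermat.Agent.S33x.Cech Fermat.Agent.S33x.Cech.OfDirectSum
open Fermat.Agent.S19x.Geo.LatticeFixed (IsFixed)
open Fermat.Agent.S33x.W.InstW (fixedAlg)
open Fermat.Agent.S56x.Flat.InertiaField

attribute [-instance] IsScalarTower.of_algHom

section GenericProd

variable {K : Type*} [Field K] [IsAlgClosed K] [CharZero K] {A : ValuationSubring K}
  {F : Type*} [Field F] [Algebra K F] {S : SmallRing F}
  {k : Type*} [Field k] [IsAlgClosed k] {E : Type*} [Field E] [Algebra k E] {x : E}
  (hx : Transcendental k x) [FiniteDimensional k⟮x⟯ E] [Algebra.IsSeparable k⟮x⟯ E]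
  {q : ℕ} (hq : 0 < q)
  {R : RedSetup2 A S k (E × E)} (C : ChartCoord R) (hT : C.T = (x, x ^ q))
  (ht : Transcendental K C.t) [FiniteDimensional K⟮C.t⟯ F]
  {Dt : Divisor K F} (hDt : ∀ v : Place K F, Dt v = v.ord C.t)
  (hcart : ∀ V : Submodule K F, FiniteDimensional K V → (R.lat V).FG)

include hx hq hT ht hDt hcart in
/-- `InstFixed.exists_directSum_fixed` at `kappa = E x E`, `T = (x, x ^ q)`: only `hcart` and the
inertia data `hD`, `hF`, `hstab` left. -/
theorem exists_directSum_fixed_prod (Γ : Set (SemilinearAut K F))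
    (hD : LatticeFixed2.FixData2 R Γ)
    (hF : Submodule.span K {f : F | IsFixed Γ f} = ⊤)
    (hstab : ∀ a b : ℕ, ∀ s ∈ Γ, ∀ f ∈ C.LN a b, s • f ∈ C.LN a b) :
    ∃ (b₁ g : ℕ) (a : Fin g → F), (∀ i, a i ∈ Lam C b₁ b₁) ∧ (∀ i, IsFixed Γ (a i)) ∧
      DirectSum (InstC4.BxAlg C) (InstC4.BooAlg C) (InstC4.BzeroAlg C) a := by
  haveI hPfin : ∀ b, FiniteDimensional k (C.Pk 0 b) :=
    fun b => Fermat.Agent.S34x.Inst.CountsInst.finite_Pk hx hq C hT 0 b
  obtain ⟨b₀, hgen⟩ := exists_hgen_prod hx hq C hT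
  exact InstFixed.exists_directSum_fixed C ht hDt hcart hgen
    (fun y hy => InstBF2.exists_const_of_mem_Pk_zero hx hq C hT hy) Γ hD hF hstab

end GenericProd

/-! ### The concrete level `M q`, `L = Qbar` -/

local notation "Qbar" => AlgebraicClosure ℚ

/-- the inertia group of `P` acting coefficientwise on the function field of level `N`: the literal
set of `Cech/CtxMq.ctxGal_inertia` and of `H1/FixData2Final.fixData2_setOf`. -/
abbrev Gam (P : ValuationSubring Qbar) (N : ℕ) :
    Set (SemilinearAut Qbar (laurentBaseChange Qbar (modularFunctionFieldFull N))) :=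
  {g | ∃ τ ∈ P.inertiaSubgroupIn ℚ, g = arithmeticGalois (modularFunctionFieldFull N) τ}

variable {P : ValuationSubring Qbar} {k : Type} [Field k] {π : P →+* k} [IsAlgClosed k]
variable {M q : ℕ} [NeZero M] [NeZero q] [Fact q.Prime] [CharP k q]
variable {hdeg : finrankAlong Qbar (heckeAlphaBar Qbar M q) = q + 1} {hq : q.Prime}
  {hqM : ¬ q ∣ M}
variable {hrk : ∀ x ∈ maximalIdeal P, ∀ c : P, c ≠ 0 → ∃ j : ℕ, c ∣ x ^ j}
  {hπ : Function.Surjective π}
variable (H : ResidueFacts P π M q hdeg hq hqM hrk hπ) (hA : P.LiesOverPrime q)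
  (x : LaurentSeries ℤ) (hx : coeffMap (Int.castRingHom Qbar) x ∈ FBar Qbar M)
  (Hx : GoodLevelFactsT P π M q hπ hqM (tInt M x hx))

section General

variable (C : ChartCoord (redSetup2 H hA)) (hCt : C.t = tA M q x hx)

include Hx hCt in
/-- the inertia group fixes the chart coordinate `t = alpha t'`. -/
theorem smul_t_Gam : ∀ g ∈ Gam P (M * q), g • C.t = C.t := by
  haveI : Algebra.IsAlgebraic ℚ Qbar := AlgebraicClosure.isAlgebraic ℚ
  exact (CtxMq.ctxGal_inertia H hA x hx Hx C hCt).smul_t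

include Hx hCt in
/-- **`hstab`**: the inertia group stabilises the two-pole spaces `L(a C_0 + b C_oo)`. -/
theorem stable_LN_Gam (a b : ℕ) :
    ∀ s ∈ Gam P (M * q), ∀ f ∈ C.LN a b, s • f ∈ C.LN a b :=
  StableLN.stable_LN C (smul_t_Gam H hA x hx Hx C hCt) a b

include Hx hCt in
/-- the chart coordinate is transcendental. -/
theorem transcendental_t : Transcendental Qbar C.t := by
  haveI : Algebra.IsAlgebraic ℚ Qbar := AlgebraicClosure.isAlgebraic ℚ
  rw [hCt]
  exact Charts.transcendental_tα Qbar M q Hx.trans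

include Hx hCt in
/-- the function field is finite over `Qbar(t)`. -/
theorem finiteDimensional_t : FiniteDimensional Qbar⟮C.t⟯ (FL Qbar (M * q)) := by
  haveI : Algebra.IsAlgebraic ℚ Qbar := AlgebraicClosure.isAlgebraic ℚ
  haveI := Hx.finite
  rw [hCt]
  exact finiteDimensional_tA x hx Hx

include Hx hCt in
/-- the two-pole spaces `L(a C_0 + b C_oo)` are finite-dimensional. -/
theorem finiteDimensional_LN_Mq (a b : ℕ) : FiniteDimensional Qbar (C.LN a b) := by
  haveI : CharZero Qbar := algebraRat.charZero Qbar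
  have ht := transcendental_t H hA x hx Hx C hCt
  haveI := finiteDimensional_t H hA x hx Hx C hCt
  haveI := Fermat.Agent.S34x.Lattice2.isSeparable_adjoin_of_charZero (K := Qbar) C.t
  rw [← LN_eq C ht (Charts.divT_apply ht)]
  exact (TwoCharts.ofDivisor _).LN_finite ht a b

include Hx hCt in
/-- the lattices `L(a C_0 + b C_oo) ∩ O` are finitely generated over `P` (cartesian property). -/
theorem fg_lat_LN_Mq (a b : ℕ) : ((redSetup2 H hA).lat (C.LN a b)).FG := by
  haveI : Algebra.IsAlgebraic ℚ Qbar := AlgebraicClosure.isAlgebraic ℚ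
  haveI := Hx.finite
  exact cartesian H hA x hx Hx _ (finiteDimensional_LN_Mq H hA x hx Hx C hCt a b)

include Hx hCt in
/-- **(B1) at level `M q`**: the `P`-level Cech direct sum for the chart rings of `H1/InstC4` with
inertia-fixed `a i`.  Only the good level facts `Hx` are left. -/
theorem exists_directSum_fixedA_Mq :
    ∃ (b₁ g : ℕ) (a : Fin g → FL Qbar (M * q)), (∀ i, a i ∈ Lam C b₁ b₁) ∧
      (∀ i, IsFixed (Gam P (M * q)) (a i)) ∧
      DirectSum (InstC4.BxAlg C) (InstC4.BooAlg C) (InstC4.BzeroAlg C) a := by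
  haveI : Algebra.IsAlgebraic ℚ Qbar := AlgebraicClosure.isAlgebraic ℚ
  haveI : CharZero Qbar := algebraRat.charZero Qbar
  haveI := Hx.finite
  have hqpos : 0 < q := (Fact.out : q.Prime).pos
  -- the `k`-side coordinate
  have hT1 := T_fst_eq H hA x hx Hx C hCt
  have hxtr : Transcendental k C.T.1 := by rw [hT1]; exact Hx.trans_res
  haveI hxfin : FiniteDimensional k⟮C.T.1⟯ (Fk k M) := by rw [hT1]; exact Hx.finite_res
  haveI hxsep : Algebra.IsSeparable k⟮C.T.1⟯ (Fk k M) := by rw [hT1]; exact Hx.sep_res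
  -- the `Qbar`-side coordinate
  have ht := transcendental_t H hA x hx Hx C hCt
  haveI htfin := finiteDimensional_t H hA x hx Hx C hCt
  exact exists_directSum_fixed_prod hxtr hqpos C (T_eq H hA x hx Hx C hCt) ht
    (Charts.divT_apply ht) (fun V hV => cartesian H hA x hx Hx V hV) (Gam P (M * q))
    (FixData2Final.fixData2_setOf H hA) (FixData2Final.span_fixed_setOf P (M * q))
    (stable_LN_Gam H hA x hx Hx C hCt)

include Hx hCt in
/-- **Leaf (MQ-W): both Cech direct sums at level `M q`**, over `P` for the chart rings of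
`H1/InstC4` and over `W = P^Gam` for their fixed subalgebras, with the SAME inertia-fixed `a i`. -/
theorem exists_directSum_fixed_Mq :
    ∃ (b₁ g : ℕ) (a : Fin g → FL Qbar (M * q)), (∀ i, a i ∈ Lam C b₁ b₁) ∧
      (∀ i, IsFixed (Gam P (M * q)) (a i)) ∧
      DirectSum (InstC4.BxAlg C) (InstC4.BooAlg C) (InstC4.BzeroAlg C) a ∧
      DirectSum (fixedAlg (Gam P (M * q)) (InstC4.BxAlg C))
        (fixedAlg (Gam P (M * q)) (InstC4.BooAlg C))
        (fixedAlg (Gam P (M * q)) (InstC4.BzeroAlg C)) a := by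
  obtain ⟨b₁, g, a, ha, hafix, HA⟩ := exists_directSum_fixedA_Mq H hA x hx Hx C hCt
  haveI : ∀ p r, FiniteDimensional Qbar (C.LN p r) :=
    fun p r => finiteDimensional_LN_Mq H hA x hx Hx C hCt p r
  exact ⟨b₁, g, a, ha, hafix, HA,
    Fermat.Agent.S33x.W.InstW.directSum_fixedC C (FixData2Final.fixData2_setOf H hA)
      (FixData2Final.span_fixed_setOf P (M * q)) (fg_lat_LN_Mq H hA x hx Hx C hCt)
      (stable_LN_Gam H hA x hx Hx C hCt) hafix ha HA⟩

/-- every inertia automorphism of `P` is the base automorphism of an element of `Gam`. -/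
theorem baseAut_Gam : ∀ σ ∈ P.inertiaSubgroupIn ℚ, ∃ s ∈ Gam P (M * q),
    ∀ c : Qbar, SemilinearAut.baseAut s c = σ c :=
  fun σ hσ => ⟨arithmeticGalois (modularFunctionFieldFull (M * q)) σ, ⟨σ, hσ, rfl⟩, fun _ => rfl⟩

include Hx hCt in
/-- **Leaf (MQ-W) with the group law**: the `P`-level direct sum with inertia-fixed `a i` and the
universal Cech group law with coefficients in `inertiaInt P`, in the literal shape of the
hypothesis `hGL` of `Cech/CoordBQbar.hasApproxCharts`. -/
theorem exists_directSum_groupLaw_Mq :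
    ∃ (b₁ g : ℕ) (a : Fin g → FL Qbar (M * q)), (∀ i, a i ∈ Lam C b₁ b₁) ∧
      (∀ i, IsFixed (Gam P (M * q)) (a i)) ∧
      ∃ HA : DirectSum (InstC4.BxAlg C) (InstC4.BooAlg C) (InstC4.BzeroAlg C) a,
      ∀ n : ℕ, ∃ Φ : Fin g → MvPolynomial (Fin g ⊕ Fin g) (inertiaInt P),
        ∀ (ϖ : P) (t t' : Fin g → P), (∀ i, ϖ ∣ t i) → (∀ i, ϖ ∣ t' i) →
          ∃ T : Fin g → P,
            (∀ j, (T j : Qbar) = MvPolynomial.aeval
              (Sum.elim (fun i => (t i : Qbar)) (fun i => (t' i : Qbar))) (Φ j)) ∧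
            (∀ j, ϖ ∣ T j) ∧
            ∃ (voo : ooIn (InstC4.BxAlg C) (InstC4.BooAlg C))
              (v0 : zeroIn (InstC4.BxAlg C) (InstC4.BzeroAlg C)),
              algebraMap P (ooIn (InstC4.BxAlg C) (InstC4.BooAlg C)) ϖ ∣ voo - 1 ∧
              algebraMap P (zeroIn (InstC4.BxAlg C) (InstC4.BzeroAlg C)) ϖ ∣ v0 - 1 ∧
              algebraMap P (InstC4.BxAlg C) ϖ ^ (n + 1) ∣
                (1 + comb (aIn HA) t) * (1 + comb (aIn HA) t') * voo * v0
                  - (1 + comb (aIn HA) T) := by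
  obtain ⟨b₁, g, a, ha, hafix, HA, HW⟩ := exists_directSum_fixed_Mq H hA x hx Hx C hCt
  exact ⟨b₁, g, a, ha, hafix, HA,
    Fermat.Agent.S33x.W.InstW.exists_groupLaw_inertiaInt baseAut_Gam HA HW⟩

end General

section Chart

variable [Algebra.IsAlgebraic ℚ Qbar]

include Hx in
/-- **Leaf (MQ-W) for the concrete chart `TheoremBMq.chart`.** -/
theorem exists_directSum_fixed_chart :
    ∃ (b₁ g : ℕ) (a : Fin g → FL Qbar (M * q)),
      (∀ i, a i ∈ Lam (chart H hA x hx Hx) b₁ b₁) ∧
      (∀ i, IsFixed (Gam P (M * q)) (a i)) ∧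
      DirectSum (InstC4.BxAlg (chart H hA x hx Hx)) (InstC4.BooAlg (chart H hA x hx Hx))
        (InstC4.BzeroAlg (chart H hA x hx Hx)) a ∧
      DirectSum (fixedAlg (Gam P (M * q)) (InstC4.BxAlg (chart H hA x hx Hx)))
        (fixedAlg (Gam P (M * q)) (InstC4.BooAlg (chart H hA x hx Hx)))
        (fixedAlg (Gam P (M * q)) (InstC4.BzeroAlg (chart H hA x hx Hx))) a :=
  exists_directSum_fixed_Mq H hA x hx Hx (chart H hA x hx Hx) (chart_t H hA x hx Hx)

include Hx in
/-- **Leaf (MQ-W) with the group law, for the concrete chart `TheoremBMq.chart`.** -/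
theorem exists_directSum_groupLaw_chart :
    ∃ (b₁ g : ℕ) (a : Fin g → FL Qbar (M * q)),
      (∀ i, a i ∈ Lam (chart H hA x hx Hx) b₁ b₁) ∧
      (∀ i, IsFixed (Gam P (M * q)) (a i)) ∧
      ∃ HA : DirectSum (InstC4.BxAlg (chart H hA x hx Hx)) (InstC4.BooAlg (chart H hA x hx Hx))
        (InstC4.BzeroAlg (chart H hA x hx Hx)) a,
      ∀ n : ℕ, ∃ Φ : Fin g → MvPolynomial (Fin g ⊕ Fin g) (inertiaInt P),
        ∀ (ϖ : P) (t t' : Fin g → P), (∀ i, ϖ ∣ t i) → (∀ i, ϖ ∣ t' i) →
          ∃ T : Fin g → P,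
            (∀ j, (T j : Qbar) = MvPolynomial.aeval
              (Sum.elim (fun i => (t i : Qbar)) (fun i => (t' i : Qbar))) (Φ j)) ∧
            (∀ j, ϖ ∣ T j) ∧
            ∃ (voo : ooIn (InstC4.BxAlg (chart H hA x hx Hx)) (InstC4.BooAlg (chart H hA x hx Hx)))
              (v0 : zeroIn (InstC4.BxAlg (chart H hA x hx Hx))
                (InstC4.BzeroAlg (chart H hA x hx Hx))),
              algebraMap P (ooIn (InstC4.BxAlg (chart H hA x hx Hx))
                (InstC4.BooAlg (chart H hA x hx Hx))) ϖ ∣ voo - 1 ∧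
              algebraMap P (zeroIn (InstC4.BxAlg (chart H hA x hx Hx))
                (InstC4.BzeroAlg (chart H hA x hx Hx))) ϖ ∣ v0 - 1 ∧
              algebraMap P (InstC4.BxAlg (chart H hA x hx Hx)) ϖ ^ (n + 1) ∣
                (1 + comb (aIn HA) t) * (1 + comb (aIn HA) t') * voo * v0
                  - (1 + comb (aIn HA) T) :=
  exists_directSum_groupLaw_Mq H hA x hx Hx (chart H hA x hx Hx) (chart_t H hA x hx Hx)

end Chart

end Fermat.Agent.S33x.H1.InstMqFixed
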