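import Fermat.Agent.S33x.H1.InstC4

/-!
# P-S33 (H1-c), the saturation hypothesis (sat) of the abstract (F1)-core (helper50)

Vocabulary of `S33x/H1/InstC1`: `Lam C a b = L(a C₀ + b C∞) ∩ S.O`.

* `res_eq_zero_of_mem_smul`: elements of `𝔪_A • Lam(a,b)` have zero reduction;
* `mem_smul_of_res_eq_zero`: conversely (c2) in `Submodule` form;
* `sat_prod`: **(sat)** in the literal form consumed by `H1/Assemble.directSum_of_levels`
  (and by `FreeQuot.exists_lifts_sup`): if `u ∈ Lam(a,0)`, `v ∈ Lam(0,b)` and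
  `u + v ∈ 𝔪_A • Lam(a,b)` then there is a constant `w ∈ Lam(0,0)` with
  `u - w ∈ 𝔪_A • Lam(a,0)` and `v + w ∈ 𝔪_A • Lam(0,b)`.  Proof: (c2) + (F2).
-/

set_option autoImplicit false
set_option linter.unusedSectionVars false
set_option linter.style.haveILetI false

noncomputable section

namespace Fermat.Agent.S33x.H1.InstSat

open AlgebraicCurve Module IntermediateField IsLocalRing
open Fermat.Agent.Gateway.C0 Fermat.Agent.S34x Fermat.Agent.S34x.C0two Fermat.Agent.S34x.Lattice2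
open Fermat.Agent.S33x.H1.InstC1 Fermat.Agent.S33x.H1.InstC2 Fermat.Agent.S33x.H1.InstC4

section general

variable {K : Type*} [Field K] {A : ValuationSubring K} {F : Type*} [Field F] [Algebra K F]
  {S : SmallRing F} {k κ : Type*} [Field k] [CommRing κ] [Algebra k κ]
  {R : RedSetup2 A S k κ} (C : ChartCoord R)

/-- elements of `𝔪_A • Lam(a,b)` are small -/
theorem small_of_mem_smul {a b : ℕ} {x : F} (hx : x ∈ maximalIdeal A • Lam C a b) :
    Small S x := by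
  refine Submodule.smul_induction_on hx (fun ϖ hϖ y hy => R.base.small_smul hϖ hy.2) ?_
  intro x y hx hy
  exact hx.add hy

theorem smul_Lam_le {a b : ℕ} : maximalIdeal A • Lam C a b ≤ Lam C a b :=
  Submodule.smul_le.mpr fun ϖ _ y hy => Submodule.smul_mem _ ϖ hy

/-- elements of `𝔪_A • Lam(a,b)` have zero reduction -/
theorem res_eq_zero_of_mem_smul {a b : ℕ} {x : F} (hx : x ∈ maximalIdeal A • Lam C a b) :
    R.res ⟨x, (smul_Lam_le C hx).2⟩ = 0 :=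
  (R.small_iff _).mp (small_of_mem_smul C hx)

/-- **(c2)**, `Submodule` form: `ker res ∩ Lam(a,b) = 𝔪_A • Lam(a,b)`. -/
theorem mem_smul_of_res_eq_zero {a b : ℕ} {x : F} (hx : x ∈ Lam C a b)
    (h0 : R.res ⟨x, hx.2⟩ = 0) : x ∈ maximalIdeal A • Lam C a b := by
  obtain ⟨ϖ, hϖ, y, hy, rfl⟩ := exists_smul_of_res_eq_zero C hx h0
  exact Submodule.smul_mem_smul hϖ hy

end general

section prod

variable {K : Type*} [Field K] [IsAlgClosed K] [CharZero K] {A : ValuationSubring K}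
  {F : Type*} [Field F] [Algebra K F] {S : SmallRing F}
  {k κ₁ κ₂ : Type*} [Field k] [CommRing κ₁] [CommRing κ₂] [Algebra k κ₁] [Algebra k κ₂]
  [Nontrivial κ₁] [Nontrivial κ₂]
  {R : RedSetup2 A S k (κ₁ × κ₂)} (C : ChartCoord R)
  (ht : Transcendental K C.t) [FiniteDimensional K⟮C.t⟯ F]
  {Dt : Divisor K F} (hDt : ∀ v : Place K F, Dt v = v.ord C.t)
  (hcart : ∀ V : Submodule K F, FiniteDimensional K V → (R.lat V).FG)
  [hPfin : ∀ b, FiniteDimensional k (C.Pk 0 b)] {b₀ : ℕ}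
  (hgen : ∀ b, b₀ ≤ b → ∀ x ∈ C.Pk 0 (b + 1), ∃ y ∈ C.Pk 0 b, ∃ z ∈ C.Pk 0 b, x = y + C.T * z)
  (hP00 : ∀ y ∈ C.Pk 0 0, ∃ c₁ c₂ : k, y = (algebraMap k κ₁ c₁, algebraMap k κ₂ c₂))

include ht hDt hcart hgen hP00 in
/-- **(sat)**: the saturation hypothesis of the abstract (F1)-core, from (c2) and (F2). -/
theorem sat_prod (a b : ℕ) : ∀ u ∈ Lam C a 0, ∀ v ∈ Lam C 0 b,
    u + v ∈ maximalIdeal A • Lam C a b →
    ∃ w, w ∈ Lam C a 0 ∧ w ∈ Lam C 0 b ∧ u - w ∈ maximalIdeal A • Lam C a 0 ∧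
      v + w ∈ maximalIdeal A • Lam C 0 b := by
  intro u hu v hv huv
  have h0 := res_eq_zero_of_mem_smul C huv
  have e : (⟨u + v, (smul_Lam_le C huv).2⟩ : S.O) = ⟨u, hu.2⟩ + ⟨v, hv.2⟩ := rfl
  rw [e, map_add] at h0
  -- the common reduction
  have hy : R.res ⟨u, hu.2⟩ ∈ R.redLat (C.LN a 0) := ⟨u, hu.2, hu.1, rfl⟩
  have hy' : R.res ⟨u, hu.2⟩ ∈ R.redLat (C.LN 0 b) := by
    refine ⟨-v, S.O.neg_mem hv.2, (C.LN 0 b).neg_mem hv.1, ?_⟩
    have e2 : (⟨-v, S.O.neg_mem hv.2⟩ : S.O) = -⟨v, hv.2⟩ := rfl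
    rw [e2, map_neg]
    exact (eq_neg_of_add_eq_zero_left h0).symm
  obtain ⟨c, hc⟩ := F2_prod C ht hDt hcart hgen hP00 hy' hy
  obtain ⟨α, rfl⟩ := R.π_surj c
  have hw : algebraMap A F α ∈ Lam C 0 0 := algebraMap_mem_Lam C α
  have hwres : R.res ⟨algebraMap A F α, hw.2⟩ = algebraMap k (κ₁ × κ₂) (R.π α) :=
    R.res_algebraMap α
  refine ⟨algebraMap A F α, Lam_mono C (Nat.zero_le a) le_rfl hw,
    Lam_mono C le_rfl (Nat.zero_le b) hw, ?_, ?_⟩
  · have hd : u - algebraMap A F α ∈ Lam C a 0 :=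
      Submodule.sub_mem _ hu (Lam_mono C (Nat.zero_le a) le_rfl hw)
    refine mem_smul_of_res_eq_zero C hd ?_
    have e3 : (⟨u - algebraMap A F α, hd.2⟩ : S.O) = ⟨u, hu.2⟩ - ⟨algebraMap A F α, hw.2⟩ := rfl
    rw [e3, map_sub, hwres, hc, sub_self]
  · have hd : v + algebraMap A F α ∈ Lam C 0 b :=
      Submodule.add_mem _ hv (Lam_mono C le_rfl (Nat.zero_le b) hw)
    refine mem_smul_of_res_eq_zero C hd ?_
    have e3 : (⟨v + algebraMap A F α, hd.2⟩ : S.O) = ⟨v, hv.2⟩ + ⟨algebraMap A F α, hw.2⟩ := rfl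
    rw [e3, map_add, hwres, ← hc]
    rw [add_comm]
    exact h0

end prod

end Fermat.Agent.S33x.H1.InstSat
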